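import Mathlib
import Fermat.Prelude.Def_ModularCurve_PeriodMap

/-!
# S41, piece R6 (Poincaré duality on `Hom_par(Γ, ℤ)`): definitions

`G = SL(2, ℤ)`, `Γ ≤ G` of finite index, `Q = G ⧸ Γ` (left cosets, left action), `M = (Q → R)` with
`(ρ(g) v)(q) = v(g⁻¹ q)`.  A *cocycle* is `c : G → M` with `c (g h) = c g + ρ(g) (c h)`; it
*represents* `χ : Γ → R` when `c γ q₀ = χ γ` for `γ ∈ Γ` (`q₀` the base coset) -- Shapiro's lemma.

With `U = S T` (so `S² = U³ = -1`), a parabolic `χ` has two normal forms: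
* `NF1`: a representing cocycle `b` with `b T = 0`   (cochains of the Farey triangulation),
* `NF2`: a representing cocycle `a` with `a U = 0`   (cochains of the dual complex),
and the pairing is `[x, y] = ½ ∑_q a_S(q) b_S(q)` for `a` in `NF2`-form for `x`, `b` in `NF1`-form for `y`.
-/

set_option autoImplicit false

namespace Fermat.Agent.S41.PD

open scoped MatrixGroups
open ModularGroup (S T)

/-- `U = S T`; `U ^ 3 = -1`. -/
def U : SL(2, ℤ) := S * T

theorem U_def : U = S * T := rfl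

section Perm

variable {G : Type*} [Group G] {Q : Type*} [MulAction G Q] {R : Type*}

/-- The permutation action on functions: `(ρ(g) v)(q) = v(g⁻¹ q)`. -/
def rho (g : G) (v : Q → R) : Q → R := fun q => v (g⁻¹ • q)

@[simp] theorem rho_apply (g : G) (v : Q → R) (q : Q) : rho g v q = v (g⁻¹ • q) := rfl

@[simp] theorem rho_one (v : Q → R) : rho (1 : G) v = v := by
  funext q; simp [rho]

theorem rho_mul (g h : G) (v : Q → R) : rho (g * h) v = rho g (rho h v) := by
  funext q; simp [rho, mul_smul]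

@[simp] theorem rho_inv_rho (g : G) (v : Q → R) : rho g⁻¹ (rho g v) = v := by
  rw [← rho_mul, inv_mul_cancel, rho_one]

@[simp] theorem rho_rho_inv (g : G) (v : Q → R) : rho g (rho g⁻¹ v) = v := by
  rw [← rho_mul, mul_inv_cancel, rho_one]

@[simp] theorem rho_zero [Zero R] (g : G) : rho g (0 : Q → R) = 0 := rfl

theorem rho_add [Add R] (g : G) (v w : Q → R) : rho g (v + w) = rho g v + rho g w := rfl

theorem rho_neg [Neg R] (g : G) (v : Q → R) : rho g (-v) = -rho g v := rfl

theorem rho_sub [Sub R] (g : G) (v w : Q → R) : rho g (v - w) = rho g v - rho g w := rfl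

theorem rho_mul_fun [Mul R] (g : G) (v w : Q → R) : rho g (v * w) = rho g v * rho g w := rfl

theorem sum_rho [Fintype Q] [AddCommMonoid R] (g : G) (v : Q → R) :
    ∑ q, rho g v q = ∑ q, v q :=
  Fintype.sum_equiv (MulAction.toPerm g⁻¹) _ _ fun _ => rfl

theorem sum_rho_mul_rho [Fintype Q] [NonUnitalNonAssocSemiring R] (g : G) (v w : Q → R) :
    ∑ q, rho g v q * rho g w q = ∑ q, v q * w q :=
  sum_rho g (v * w)

theorem sum_rho_mul [Fintype Q] [NonUnitalNonAssocSemiring R] (g : G) (v w : Q → R) :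
    ∑ q, rho g v q * w q = ∑ q, v q * rho g⁻¹ w q := by
  rw [← sum_rho_mul_rho g v (rho g⁻¹ w), rho_rho_inv]

theorem sum_mul_rho [Fintype Q] [NonUnitalNonAssocSemiring R] (g : G) (v w : Q → R) :
    ∑ q, v q * rho g w q = ∑ q, rho g⁻¹ v q * w q := by
  rw [← sum_rho_mul_rho g (rho g⁻¹ v) w, rho_rho_inv]

/-- 1-cocycles of `G` with values in the permutation module `Q → R`. -/
def IsCoc [Add R] (c : G → Q → R) : Prop := ∀ g h : G, c (g * h) = c g + rho g (c h)

variable [AddCommGroup R]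

theorem IsCoc.map_one {c : G → Q → R} (hc : IsCoc c) : c 1 = 0 := by
  have h := hc 1 1
  rw [mul_one, rho_one] at h
  exact left_eq_add.1 h

theorem IsCoc.map_inv {c : G → Q → R} (hc : IsCoc c) (g : G) : c g⁻¹ = -rho g⁻¹ (c g) := by
  have h := hc g⁻¹ g
  rw [inv_mul_cancel, hc.map_one] at h
  exact eq_neg_of_add_eq_zero_left h.symm

theorem IsCoc.add {c d : G → Q → R} (hc : IsCoc c) (hd : IsCoc d) : IsCoc (c + d) := by
  intro g h
  simp only [Pi.add_apply]
  rw [hc g h, hd g h, rho_add]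
  abel

theorem IsCoc.neg {c : G → Q → R} (hc : IsCoc c) : IsCoc (-c) := by
  intro g h
  simp only [Pi.neg_apply]
  rw [hc g h, rho_neg]
  abel

theorem IsCoc.sub {c d : G → Q → R} (hc : IsCoc c) (hd : IsCoc d) : IsCoc (c - d) := by
  rw [sub_eq_add_neg]
  exact hc.add hd.neg

/-- The coboundary of `ξ`: `g ↦ ρ(g) ξ - ξ`. -/
def cobdry (ξ : Q → R) : G → Q → R := fun g => rho g ξ - ξ

@[simp] theorem cobdry_apply (ξ : Q → R) (g : G) : cobdry ξ g = rho g ξ - ξ := rfl

theorem isCoc_cobdry (ξ : Q → R) : IsCoc (cobdry (G := G) ξ) := by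
  intro g h
  simp only [cobdry_apply]
  rw [rho_mul, rho_sub]
  abel

theorem isCoc_zero : IsCoc (0 : G → Q → R) := by
  intro g h
  simp

end Perm

section Shapiro

variable {G : Type*} [Group G] (Γ : Subgroup G) {R : Type*} [AddCommGroup R]

/-- The cocycle `c : G → (G ⧸ Γ → R)` represents the homomorphism `χ : Γ → R`
(Shapiro: `H¹(G, Ind R) = Hom(Γ, R)`, `[c] ↦ (γ ↦ c γ q₀)`). -/
def Represents (c : G → (G ⧸ Γ) → R) (χ : Additive Γ →+ R) : Prop :=
  IsCoc c ∧ ∀ γ : Γ, c (γ : G) ((1 : G) : G ⧸ Γ) = χ (Additive.ofMul γ)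

end Shapiro

section Pairing

variable {R : Type*} [CommRing R] (Γ : Subgroup SL(2, ℤ)) [Fintype (SL(2, ℤ) ⧸ Γ)]

/-- `v = [x, y]`: there are a cocycle `a` representing `x` with `a U = 0` and a cocycle `b`
representing `y` with `b T = 0` such that `2 v = ∑_q a_S(q) b_S(q)`. -/
def IsPairing (x y : Additive Γ →+ R) (v : R) : Prop :=
  ∃ a b : SL(2, ℤ) → (SL(2, ℤ) ⧸ Γ) → R,
    Represents Γ a x ∧ a U = 0 ∧ Represents Γ b y ∧ b T = 0 ∧ 2 * v = ∑ q, a S q * b S q

open Classical in
/-- The pairing as a function (`0` when no value exists). -/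
noncomputable def pairFun (x y : Additive Γ →+ R) : R :=
  if h : ∃ v, IsPairing Γ x y v then h.choose else 0

end Pairing

end Fermat.Agent.S41.PD
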