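import Fermat.Agent.S41.PD.Defs

/-!
# S41, piece R6 (Poincaré duality): the statements of the pieces

Every `Stmt…` below is a closed `Prop`; a piece is DONE when `theorem stmt… : Stmt…` is landed
(complete, kernel-checked) in its own file `Fermat/Agent/S41/PD/<Name>.lean`.  See `NOTES/S41-R6.md`.
-/

set_option autoImplicit false

namespace Fermat.Agent.S41.PD

open scoped MatrixGroups
open ModularGroup (S T)
open ModularCurve.Period (IsParabolicHom)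

/-! ## PD-A : `PSL₂(ℤ) = C₂ * C₃` as a universal property (ping-pong), and cocycle extension -/

/-- PD-A1.  Universal property: `s² = 1`, `u³ = 1` in any group `H` give `φ : SL(2, ℤ) → H` with
`S ↦ s`, `U = S T ↦ u`.  (Ping-pong on `ℍ` with `Mathlib`'s `lift_injective_of_ping_pong`:
`X₁ = {Re z > 0}`, `X₂ = {Re z < 0}`; `SL2Z_generators` for surjectivity.) -/
def StmtUP : Prop :=
  ∀ (H : Type) [Group H] (s u : H), s ^ 2 = 1 → u ^ 3 = 1 →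
    ∃ φ : SL(2, ℤ) →* H, φ S = s ∧ φ U = u

/-- PD-A2.  Cocycle extension: for a `SL(2, ℤ)`-module `M` on which `-1` acts trivially, any
`cS ∈ ker (1 + S)` and `cU ∈ ker (1 + U + U²)` are the values at `S`, `U` of a 1-cocycle.
(Apply PD-A1 to `H = M ⋊ (C₂ * C₃)` or to `(M ⋊ SL(2, ℤ)) / ⟨(0, -1)⟩`.) -/
def StmtCocExt : Prop :=
  ∀ (M : Type) [AddCommGroup M] (ρ : SL(2, ℤ) →* AddMonoid.End M), ρ (-1) = 1 →
    ∀ cS cU : M, cS + ρ S cS = 0 → cU + ρ U cU + ρ U (ρ U cU) = 0 →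
      ∃ c : SL(2, ℤ) → M, (∀ g h, c (g * h) = c g + ρ g (c h)) ∧ c S = cS ∧ c U = cU

/-! ## PD-D : the lattice lemma (pure linear algebra on a finite `SL(2, ℤ)`-set) -/

section Lattice

variable {Q : Type} [MulAction SL(2, ℤ) Q]

/-- `Z`: 1-cocycles of the Farey triangulation (`e ∈ ker (1 + S) ∩ ker (1 + U + U²)`). -/
def IsZ (e : Q → ℤ) : Prop :=
  e + rho S e = 0 ∧ e + rho U e + rho U (rho U e) = 0

/-- `Z*`: 1-cycles (`e ∈ ker (1 + S) ∩ (T - 1) M`). -/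
def IsZs (e : Q → ℤ) : Prop :=
  e + rho S e = 0 ∧ ∃ m : Q → ℤ, e = rho T m - m

end Lattice

/-- PD-D1.  Every functional on `Z*` killing `B* = (S - 1) M^U` is `e* ↦ ½ ⟨e*, e⟩` for some
`e ∈ Z`.  (`M⁻ = ker (1 + S)` is unimodular for `½⟨ , ⟩`; `Z*` is saturated, so the functional
extends to `M⁻`; the representing vector is orthogonal to `B*`, i.e. lies in `Z`.) -/
def StmtLatticeEx : Prop :=
  ∀ (Q : Type) [Fintype Q] [MulAction SL(2, ℤ) Q] [MulAction.IsPretransitive SL(2, ℤ) Q],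
    (∀ q : Q, (-1 : SL(2, ℤ)) • q = q) →
    ∀ φ : (Q → ℤ) → ℤ,
      (∀ e e', IsZs e → IsZs e' → φ (e + e') = φ e + φ e') →
      (∀ ξ : Q → ℤ, rho U ξ = ξ → φ (rho S ξ - ξ) = 0) →
      ∃ e : Q → ℤ, IsZ e ∧ ∀ e', IsZs e' → 2 * φ e' = ∑ q, e' q * e q

/-- PD-D2.  `(Z*)^⊥ ∩ Z = B = (S - 1) M^T`.  (`Z* = B^⊥` in `M⁻`, `B` is saturated because
`⟨S, T⟩` is transitive on `Q`, and `X^⊥⊥ = X` for saturated `X` in a unimodular lattice.) -/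
def StmtLatticeUniq : Prop :=
  ∀ (Q : Type) [Fintype Q] [MulAction SL(2, ℤ) Q] [MulAction.IsPretransitive SL(2, ℤ) Q],
    (∀ q : Q, (-1 : SL(2, ℤ)) • q = q) →
    ∀ e : Q → ℤ, IsZ e → (∀ e', IsZs e' → ∑ q, e' q * e q = 0) →
      ∃ ξ : Q → ℤ, rho T ξ = ξ ∧ e = rho S ξ - ξ

/-! ## PD-F, PD-G : the intrinsic description over `ℚ` -/

/-- PD-F.  `x ∪ y` is a coboundary on `Γ` (over `ℚ`): there is `β : Γ → ℚ` with
`β (γ γ') = β γ + β γ' - x γ · y γ'`.  (Cocycle extension PD-A2 for the twisted module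
`M × M`, `g ⋆ (t, v) = (g t + a(g) · g v, g v)`, `a` a cocycle representing `x`.) -/
def StmtBetaEx : Prop :=
  ∀ (Γ : Subgroup SL(2, ℤ)) [Γ.FiniteIndex], (-1 : SL(2, ℤ)) ∈ Γ →
    ∀ x y : Additive Γ →+ ℚ,
      ∃ β : Γ → ℚ, ∀ γ γ' : Γ,
        β (γ * γ') = β γ + β γ' - x (Additive.ofMul γ) * y (Additive.ofMul γ')

/-- PD-G.  The intrinsic formula: the sum of `β` over the cusps (with multiplicity) is
`n · [x, y]`, for every `n ≥ 0` such that `T ^ n` lies in all conjugates of `Γ`. -/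
def StmtIntrinsic : Prop :=
  ∀ (Γ : Subgroup SL(2, ℤ)) [Fintype (SL(2, ℤ) ⧸ Γ)], (-1 : SL(2, ℤ)) ∈ Γ →
    ∀ (x y : Additive Γ →+ ℚ) (v : ℚ), IsParabolicHom Γ x → IsParabolicHom Γ y →
      IsPairing Γ x y v →
      ∀ β : Γ → ℚ,
        (∀ γ γ' : Γ, β (γ * γ') = β γ + β γ' - x (Additive.ofMul γ) * y (Additive.ofMul γ')) →
        ∀ (r : SL(2, ℤ) ⧸ Γ → SL(2, ℤ)), (∀ q, ((r q : SL(2, ℤ)) : SL(2, ℤ) ⧸ Γ) = q) →
          ∀ (n : ℕ) (hn : ∀ g : SL(2, ℤ), g⁻¹ * T ^ n * g ∈ Γ),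
            ∑ q, β ⟨(r q)⁻¹ * T ^ n * r q, hn (r q)⟩ = n * v

/-! ## PD-E : cusp sums are invariant under conjugation by `diag(ℓ, 1)` -/

/-- PD-E.  Let `cδ : Γ₀ ≃ Γ₀'` be conjugation by `δ = diag(ℓ, 1)`
(`[[a, b], [c, d]] ↦ [[a, ℓ b], [c / ℓ, d]]`), `F` a function on `Γ₀'` which on elements of
trace `2` is a class function and homogeneous.  Then the normalised cusp sums agree. -/
def StmtCuspConj : Prop :=
  ∀ (ℓ : ℕ), ℓ.Prime →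
    ∀ (Γ₀ Γ₀' : Subgroup SL(2, ℤ)) [Fintype (SL(2, ℤ) ⧸ Γ₀)] [Fintype (SL(2, ℤ) ⧸ Γ₀')],
      (-1 : SL(2, ℤ)) ∈ Γ₀ →
      ∀ (cδ : Γ₀ ≃* Γ₀'),
        (∀ γ : Γ₀, (cδ γ : SL(2, ℤ)) 0 0 = (γ : SL(2, ℤ)) 0 0 ∧
            (cδ γ : SL(2, ℤ)) 0 1 = ℓ * (γ : SL(2, ℤ)) 0 1 ∧
            ℓ * (cδ γ : SL(2, ℤ)) 1 0 = (γ : SL(2, ℤ)) 1 0 ∧
            (cδ γ : SL(2, ℤ)) 1 1 = (γ : SL(2, ℤ)) 1 1) →
        ∀ F : Γ₀' → ℚ,
          (∀ γ c : Γ₀', ((c : SL(2, ℤ)) : Matrix (Fin 2) (Fin 2) ℤ).trace = 2 →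
            F (γ * c * γ⁻¹) = F c) →
          (∀ c : Γ₀', ((c : SL(2, ℤ)) : Matrix (Fin 2) (Fin 2) ℤ).trace = 2 →
            ∀ k : ℕ, F (c ^ k) = k * F c) →
          ∀ (r : SL(2, ℤ) ⧸ Γ₀ → SL(2, ℤ)), (∀ q, ((r q : SL(2, ℤ)) : SL(2, ℤ) ⧸ Γ₀) = q) →
          ∀ (r' : SL(2, ℤ) ⧸ Γ₀' → SL(2, ℤ)),
            (∀ q, ((r' q : SL(2, ℤ)) : SL(2, ℤ) ⧸ Γ₀') = q) →
          ∀ (n n' : ℕ), 0 < n → 0 < n' →
            ∀ (hn : ∀ g : SL(2, ℤ), g⁻¹ * T ^ n * g ∈ Γ₀)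
              (hn' : ∀ g : SL(2, ℤ), g⁻¹ * T ^ n' * g ∈ Γ₀'),
              (n' : ℚ) * ∑ q, F (cδ ⟨(r q)⁻¹ * T ^ n * r q, hn (r q)⟩) =
                (n : ℚ) * ∑ q, F ⟨(r' q)⁻¹ * T ^ n' * r' q, hn' (r' q)⟩

end Fermat.Agent.S41.PD

namespace Fermat.Agent.S41.PD

/-! ## PD-L : the duality argument (pure algebra over `ℤ` and `𝔽_p`) -/

/-- PD-L.  `L` free over `ℤ`, `P`, `P'` biadditive forms on `L`, `L'`; `P` represents every
functional (on the right), `P'` is non-degenerate mod `p` (on the right); `β` is left adjoint to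
`α`, `η` is self-adjoint; if `η` kills the kernel of `α mod p` then `η L ⊆ β L' + p L`.
(Proof: if `η c ∉ W := β L' + p L`, take a functional `L → ℤ/p` killing `W` but not `η c`
(`L/W` is an `𝔽_p`-vector space), lift it to `μ : L → ℤ` (`L` is free), `μ = P(·, y)`;
`P'(w, α y) = P(β w, y) ∈ pℤ` for all `w` gives `α y ∈ p L'`, so `η y ∈ p L` and
`μ (η c) = P(c, η y) ∈ pℤ`, a contradiction.) -/
def StmtDualLA : Prop :=
  ∀ (p : ℕ), p.Prime →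
  ∀ (L L' : Type) [AddCommGroup L] [AddCommGroup L'] [Module.Free ℤ L]
    (P : L → L → ℤ) (P' : L' → L' → ℤ) (α : L →+ L') (β : L' →+ L) (η : L →+ L),
    (∀ x y y', P x (y + y') = P x y + P x y') →
    (∀ φ : L →+ ℤ, ∃ y, ∀ x, P x y = φ x) →
    (∀ u : L', (∀ w, (p : ℤ) ∣ P' w u) → ∃ u' : L', u = p • u') →
    (∀ w y, P (β w) y = P' w (α y)) →
    (∀ x y, P (η x) y = P x (η y)) →
    (∀ y : L, (∃ u' : L', α y = p • u') → ∃ y' : L, η y = p • y') →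
    ∀ c : L, ∃ (w : L') (y' : L), η c = β w + p • y'

end Fermat.Agent.S41.PD
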