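import Fermat.Agent.S41.PD.Plan

/-!
# S41, piece R6, PD-D2: `(Z*)^⊥ ∩ Z = B = (S - 1) M^T`

A vector `e ∈ ker (1 + S)` which is orthogonal to all of `Z* = ker (1 + S) ∩ (T - 1) M` is of the
form `ρ(S) ξ - ξ` with `ξ` invariant under `T`.

Route: over `ℚ` a vector outside the subspace `B_ℚ` is separated from it by a linear functional
(i.e. by a vector `e''`); its `S`-antisymmetrisation is orthogonal to all `T`-invariant vectors, so
(after clearing denominators) a multiple of it is in `(T - 1) M` by the explicit formula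
`(ρ(T) - 1) ∑_{j<n} j ρ(T)^j f = n f - ∑_{j<n} ρ(T)^j f`.  Saturation of `B`: if
`k e = ρ(S) ξ - ξ` then `ξ mod k` is invariant under `S` and `T`, hence constant.
-/

set_option autoImplicit false
set_option linter.unusedSectionVars false

namespace Fermat.Agent.S41.PD

open scoped MatrixGroups
open ModularGroup (S T)

section General

variable {Q : Type} [MulAction SL(2, ℤ) Q]

/-- A function invariant under `S` and `T` is invariant under `SL(2, ℤ)`. -/
theorem pdu_inv_of_inv_S_T {X : Type*} (h : Q → X) (hS : ∀ q, h (S • q) = h q)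
    (hT : ∀ q, h (T • q) = h q) (g : SL(2, ℤ)) : ∀ q : Q, h (g • q) = h q := by
  have hg : g ∈ Subgroup.closure ({S, T} : Set SL(2, ℤ)) := by
    rw [SpecialLinearGroup.SL2Z_generators]; trivial
  induction hg using Subgroup.closure_induction with
  | mem x hx =>
    rcases hx with rfl | rfl
    · exact hS
    · exact hT
  | one => intro q; simp
  | mul x y _ _ hx hy => intro q; rw [mul_smul, hx, hy]
  | inv x _ hx =>
    intro q
    have := hx (x⁻¹ • q)
    rw [smul_inv_smul] at this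
    exact this.symm

/-- `S⁻¹` acts as `S` when `-1` acts trivially. -/
theorem pdu_S_inv_smul (hneg : ∀ q : Q, (-1 : SL(2, ℤ)) • q = q) (q : Q) :
    (S⁻¹ : SL(2, ℤ)) • q = S • q := by
  have hS2 : (S * S : SL(2, ℤ)) = -1 := by
    ext i j; fin_cases i <;> fin_cases j <;> simp [ModularGroup.coe_S]
  have h1 : S • (S • q) = q := by rw [← mul_smul, hS2, hneg]
  calc (S⁻¹ : SL(2, ℤ)) • q = S⁻¹ • (S • (S • q)) := by rw [h1]
    _ = S • q := by rw [inv_smul_smul]

theorem pdu_rho_S_inv {R : Type*} (hneg : ∀ q : Q, (-1 : SL(2, ℤ)) • q = q) (v : Q → R) :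
    rho (S⁻¹ : SL(2, ℤ)) v = rho S v := by
  funext q
  simp only [rho_apply, inv_inv]
  rw [← pdu_S_inv_smul hneg q]

theorem pdu_rho_S_rho_S {R : Type*} (hneg : ∀ q : Q, (-1 : SL(2, ℤ)) • q = q) (v : Q → R) :
    rho S (rho S v) = v := by
  conv_lhs => rw [← pdu_rho_S_inv hneg (rho S v)]
  exact rho_inv_rho S v

end General

section StepA

variable {Q : Type} [Fintype Q] [MulAction SL(2, ℤ) Q]

theorem pdu_rho_sum {ι : Type*} {R : Type*} [AddCommMonoid R] (s : Finset ι) (g : SL(2, ℤ))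
    (v : ι → Q → R) : rho g (∑ i ∈ s, v i) = ∑ i ∈ s, rho g (v i) := by
  funext q
  simp [rho, Finset.sum_apply]

theorem pdu_rho_zsmul (g : SL(2, ℤ)) (c : ℤ) (v : Q → ℤ) : rho g (c • v) = c • rho g v := by
  funext q
  simp [rho]

theorem pdu_rho_T_pow (f : Q → ℤ) (j : ℕ) :
    rho T (rho (T ^ j) f) = rho (T ^ (j + 1)) f := by
  rw [← rho_mul, ← pow_succ']

/-- The telescoping identity `(ρ(T) - 1) ∑_{j<n} j ρ(T)^j f = n ρ(T)^n f - ρ(T) ∑_{j<n} ρ(T)^j f`. -/
theorem pdu_telescope (f : Q → ℤ) (n : ℕ) :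
    rho T (∑ j ∈ Finset.range n, (j : ℤ) • rho (T ^ j) f)
        - ∑ j ∈ Finset.range n, (j : ℤ) • rho (T ^ j) f
      = (n : ℤ) • rho (T ^ n) f - rho T (∑ j ∈ Finset.range n, rho (T ^ j) f) := by
  induction n with
  | zero => simp
  | succ n ih =>
    rw [Finset.sum_range_succ, Finset.sum_range_succ, rho_add, rho_add, pdu_rho_zsmul,
      pdu_rho_T_pow]
    have e1 : rho T (∑ j ∈ Finset.range n, (j : ℤ) • rho (T ^ j) f)
        = ∑ j ∈ Finset.range n, (j : ℤ) • rho (T ^ j) f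
          + ((n : ℤ) • rho (T ^ n) f - rho T (∑ j ∈ Finset.range n, rho (T ^ j) f)) := by
      rw [← ih]; abel
    rw [e1]
    push_cast
    rw [add_smul, one_smul]
    abel

theorem pdu_exists_pow_T_trivial (Q : Type) [Fintype Q] [MulAction SL(2, ℤ) Q] :
    ∃ n : ℕ, 0 < n ∧ ∀ q : Q, (T ^ n : SL(2, ℤ)) • q = q := by
  classical
  let σ : Equiv.Perm Q := MulAction.toPerm T
  refine ⟨orderOf σ, orderOf_pos σ, fun q => ?_⟩
  have h : σ ^ orderOf σ = 1 := pow_orderOf_eq_one σ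
  have h2 : (MulAction.toPerm (T ^ orderOf σ) : Equiv.Perm Q) = σ ^ orderOf σ :=
    map_pow (MulAction.toPermHom SL(2, ℤ) Q) T _
  have := congrArg (fun τ : Equiv.Perm Q => τ q) (h2.trans h)
  simpa using this

theorem pdu_rho_eq_self_of_trivial {R : Type*} (g : SL(2, ℤ)) (hg : ∀ q : Q, g • q = q)
    (f : Q → R) : rho g f = f := by
  funext q
  rw [rho_apply]
  congr 1
  calc g⁻¹ • q = g⁻¹ • (g • q) := by rw [hg]
    _ = q := inv_smul_smul g q

theorem pdu_rho_pow_eq_self {R : Type*} (g : SL(2, ℤ)) (v : Q → R) (hv : rho g v = v) (j : ℕ) :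
    rho (g ^ j) v = v := by
  induction j with
  | zero => simp
  | succ j ih => rw [pow_succ', rho_mul, ih, hv]

/-- Step A: an integral vector orthogonal to all `T`-invariant vectors has a positive multiple
in `(ρ(T) - 1) M`. -/
theorem pdu_exists_mul_eq (f : Q → ℤ)
    (hf : ∀ ξ : Q → ℤ, rho T ξ = ξ → ∑ q, f q * ξ q = 0) :
    ∃ (n : ℕ) (m : Q → ℤ), 0 < n ∧ (n : ℤ) • f = rho T m - m := by
  obtain ⟨n, hn, hT⟩ := pdu_exists_pow_T_trivial Q
  have hfn : rho (T ^ n) f = f := pdu_rho_eq_self_of_trivial _ hT f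
  set N : Q → ℤ := ∑ j ∈ Finset.range n, rho (T ^ j) f with hN
  have hNT : rho T N = N := by
    rw [hN, pdu_rho_sum]
    have e1 : ∀ j ∈ Finset.range n, rho T (rho (T ^ j) f) = rho (T ^ (j + 1)) f :=
      fun j _ => pdu_rho_T_pow f j
    rw [Finset.sum_congr rfl e1]
    have e2 := Finset.sum_range_succ' (fun j => rho (T ^ j) f) n
    have e3 := Finset.sum_range_succ (fun j => rho (T ^ j) f) n
    simp only [pow_zero, rho_one] at e2
    rw [e3, hfn] at e2
    exact (add_right_cancel e2).symm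
  have hNN : ∑ q, N q * N q = 0 := by
    have e1 : ∀ q, N q * N q = ∑ j ∈ Finset.range n, rho (T ^ j) f q * N q := by
      intro q
      rw [hN, Finset.sum_apply, Finset.sum_mul]
    simp_rw [e1]
    rw [Finset.sum_comm]
    refine Finset.sum_eq_zero fun j _ => ?_
    rw [sum_rho_mul]
    have e2 : rho (T ^ j)⁻¹ N = N := by
      have := pdu_rho_pow_eq_self T N hNT j
      calc rho (T ^ j)⁻¹ N = rho (T ^ j)⁻¹ (rho (T ^ j) N) := by rw [this]
        _ = N := rho_inv_rho _ _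
    rw [e2]
    exact hf N hNT
  have hN0 : N = 0 := by
    funext q
    have h1 : ∀ q ∈ (Finset.univ : Finset Q), 0 ≤ N q * N q := fun q _ => mul_self_nonneg _
    have h2 := (Finset.sum_eq_zero_iff_of_nonneg h1).1 hNN q (Finset.mem_univ q)
    exact mul_self_eq_zero.1 h2
  refine ⟨n, ∑ j ∈ Finset.range n, (j : ℤ) • rho (T ^ j) f, hn, ?_⟩
  rw [pdu_telescope f n, hfn, ← hN, hN0]
  simp

end StepA

section StepB

variable {Q : Type} [Fintype Q] [MulAction SL(2, ℤ) Q]

/-- Step B (saturation of `B`): if `k e = ρ(S) ξ - ξ` with `ξ` invariant under `T` and `k ≠ 0`,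
then `e = ρ(S) ξ' - ξ'` with `ξ'` invariant under `T`. -/
theorem pdu_saturated [MulAction.IsPretransitive SL(2, ℤ) Q]
    (hneg : ∀ q : Q, (-1 : SL(2, ℤ)) • q = q) (e ξ : Q → ℤ) (k : ℤ) (hk : k ≠ 0)
    (hξ : rho T ξ = ξ) (he : k • e = rho S ξ - ξ) :
    ∃ ξ' : Q → ℤ, rho T ξ' = ξ' ∧ e = rho S ξ' - ξ' := by
  rcases isEmpty_or_nonempty Q with hQ | ⟨⟨q₀⟩⟩
  · exact ⟨0, Subsingleton.elim _ _, Subsingleton.elim _ _⟩
  -- `ξ mod k` is invariant under `S` and `T`
  let h : Q → ZMod k.natAbs := fun q => ((ξ q : ℤ) : ZMod k.natAbs)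
  have hT : ∀ q, h (T • q) = h q := by
    intro q
    have := congrFun hξ (T • q)
    simp only [rho_apply, inv_smul_smul] at this
    simp only [h, this]
  have hS : ∀ q, h (S • q) = h q := by
    intro q
    have h1 := congrFun he q
    simp only [Pi.smul_apply, Pi.sub_apply, rho_apply, smul_eq_mul] at h1
    rw [pdu_S_inv_smul hneg] at h1
    simp only [h]
    rw [eq_comm, ZMod.intCast_eq_intCast_iff_dvd_sub]
    rw [← h1]
    exact (Int.natAbs_dvd).2 (dvd_mul_right k (e q))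
  have hconst : ∀ q, h q = h q₀ := by
    intro q
    obtain ⟨g, rfl⟩ := MulAction.exists_smul_eq SL(2, ℤ) q₀ q
    exact pdu_inv_of_inv_S_T h hS hT g q₀
  have hdvd : ∀ q, k ∣ ξ q - ξ q₀ := by
    intro q
    have := hconst q
    simp only [h] at this
    rw [eq_comm, ZMod.intCast_eq_intCast_iff_dvd_sub] at this
    exact (Int.natAbs_dvd).1 this
  choose ξ' hξ' using hdvd
  have hξT : ∀ q, ξ (T⁻¹ • q) = ξ q := fun q => congrFun hξ q
  refine ⟨ξ', ?_, ?_⟩
  · funext q
    rw [rho_apply]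
    have h1 := hξ' (T⁻¹ • q)
    have h2 := hξ' q
    rw [hξT q, h2] at h1
    exact (mul_left_cancel₀ hk h1).symm
  · funext q
    have h1 := congrFun he q
    simp only [Pi.smul_apply, Pi.sub_apply, rho_apply, smul_eq_mul] at h1 ⊢
    have h2 := hξ' (S⁻¹ • q)
    have h3 := hξ' q
    have h4 : k * e q = k * (ξ' (S⁻¹ • q) - ξ' q) := by
      rw [mul_sub, ← h2, ← h3, h1]; ring
    exact mul_left_cancel₀ hk h4

end StepB

section Main

variable (Q : Type) [MulAction SL(2, ℤ) Q]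

theorem pdu_rho_qsmul {Q : Type} [MulAction SL(2, ℤ) Q] (g : SL(2, ℤ)) (c : ℚ) (v : Q → ℚ) :
    rho g (c • v) = c • rho g v := by
  funext q
  simp [rho]

/-- The rational span `B_ℚ = (ρ(S) - 1) M_ℚ^T`. -/
def pdu_W : Submodule ℚ (Q → ℚ) where
  carrier := {v | ∃ ξ : Q → ℚ, rho T ξ = ξ ∧ v = rho S ξ - ξ}
  add_mem' := by
    rintro _ _ ⟨ξ, h1, rfl⟩ ⟨η, h2, rfl⟩
    exact ⟨ξ + η, by rw [rho_add, h1, h2], by rw [rho_add]; abel⟩
  zero_mem' := ⟨0, by simp, by simp⟩
  smul_mem' := by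
    rintro c _ ⟨ξ, h1, rfl⟩
    exact ⟨c • ξ, by rw [pdu_rho_qsmul, h1], by rw [pdu_rho_qsmul, smul_sub]⟩

theorem pdu_clear_denoms {Q : Type} [Finite Q] (v : Q → ℚ) :
    ∃ (d : ℤ) (w : Q → ℤ), d ≠ 0 ∧ ∀ q, (w q : ℚ) = d * v q := by
  obtain ⟨b, hb⟩ := IsLocalization.exist_integer_multiples_of_finite (nonZeroDivisors ℤ) v
  choose w hw using hb
  refine ⟨b, w, nonZeroDivisors.coe_ne_zero b, fun q => ?_⟩
  have := hw q
  simpa [Algebra.smul_def] using this

end Main

/-- **PD-D2.**  `(Z*)^⊥ ∩ Z = B = (S - 1) M^T`. -/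
theorem stmtLatticeUniq : StmtLatticeUniq := by
  intro Q _ _ _ hneg e he horth
  classical
  have heS : ∀ q, e q + e (S⁻¹ • q) = 0 := fun q => congrFun he.1 q
  let eQ : Q → ℚ := fun q => (e q : ℚ)
  have heQS : rho S eQ = -eQ := by
    funext q
    simp only [rho_apply, Pi.neg_apply, eQ]
    have := heS q
    have h2 : (e q : ℚ) + (e (S⁻¹ • q) : ℚ) = 0 := by exact_mod_cast this
    linarith
  have key : eQ ∈ pdu_W Q := by
    by_contra hnot
    obtain ⟨f, hfe, hWf⟩ := Submodule.exists_le_ker_of_notMem hnot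
    let e2 : Q → ℚ := fun i => f (fun j => if i = j then 1 else 0)
    have hf_eq : ∀ x : Q → ℚ, f x = ∑ i, x i * e2 i := by
      intro x
      rw [LinearMap.pi_apply_eq_sum_univ f x]
      simp [e2, smul_eq_mul]
    let e1 : Q → ℚ := e2 - rho S e2
    -- (i)
    have h_i : ∑ q, eQ q * e1 q = 2 * f eQ := by
      have e1' : ∀ q, eQ q * e1 q = eQ q * e2 q - eQ q * rho S e2 q := by
        intro q; simp only [e1, Pi.sub_apply]; ring
      simp_rw [e1']
      rw [Finset.sum_sub_distrib, sum_mul_rho, pdu_rho_S_inv hneg, heQS, ← hf_eq]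
      simp only [Pi.neg_apply, neg_mul, Finset.sum_neg_distrib]
      rw [← hf_eq]
      ring
    -- (ii)
    have h_ii : ∀ ξ : Q → ℚ, rho T ξ = ξ → ∑ q, e1 q * ξ q = 0 := by
      intro ξ hξ
      have hmem : rho S ξ - ξ ∈ pdu_W Q := ⟨ξ, hξ, rfl⟩
      have h0 : f (rho S ξ - ξ) = 0 := hWf hmem
      rw [map_sub, hf_eq, hf_eq] at h0
      have e1' : ∀ q, e1 q * ξ q = ξ q * e2 q - rho S e2 q * ξ q := by
        intro q; simp only [e1, Pi.sub_apply]; ring
      simp_rw [e1']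
      rw [Finset.sum_sub_distrib, sum_rho_mul, pdu_rho_S_inv hneg]
      have e3 : ∑ q, e2 q * rho S ξ q = ∑ q, rho S ξ q * e2 q :=
        Finset.sum_congr rfl fun q _ => mul_comm _ _
      rw [e3]
      linarith
    have h_anti : ∀ q, e1 q + e1 (S⁻¹ • q) = 0 := by
      intro q
      have h1 : rho S (rho S e2) = e2 := pdu_rho_S_rho_S hneg e2
      have h2 := congrFun h1 q
      simp only [rho_apply] at h2
      simp only [e1, Pi.sub_apply, rho_apply]
      rw [h2]; ring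
    -- (iii) clear denominators
    obtain ⟨d, w, hd, hw⟩ := pdu_clear_denoms e1
    have hwS : w + rho S w = 0 := by
      funext q
      simp only [Pi.add_apply, rho_apply, Pi.zero_apply]
      have h1 : ((w q + w (S⁻¹ • q) : ℤ) : ℚ) = 0 := by
        push_cast
        rw [hw q, hw (S⁻¹ • q), ← mul_add, h_anti q, mul_zero]
      exact_mod_cast h1
    have hwT : ∀ ξ : Q → ℤ, rho T ξ = ξ → ∑ q, w q * ξ q = 0 := by
      intro ξ hξ
      have hξQ : rho T (fun q => (ξ q : ℚ)) = fun q => (ξ q : ℚ) := by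
        funext q
        have := congrFun hξ q
        simp only [rho_apply] at this ⊢
        rw [this]
      have h1 := h_ii _ hξQ
      have h2 : ((∑ q, w q * ξ q : ℤ) : ℚ) = 0 := by
        push_cast
        simp_rw [hw, mul_assoc]
        rw [← Finset.mul_sum, h1, mul_zero]
      exact_mod_cast h2
    -- (iv)
    obtain ⟨n, m, hn, hnm⟩ := pdu_exists_mul_eq w hwT
    have hZs : IsZs ((n : ℤ) • w) := by
      refine ⟨?_, m, hnm⟩
      rw [pdu_rho_zsmul, ← smul_add, hwS, smul_zero]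
    -- (v)
    have h5 := horth _ hZs
    have h6 : ((∑ q, ((n : ℤ) • w) q * e q : ℤ) : ℚ) = 0 := by rw [h5]; simp
    push_cast at h6
    simp only [Pi.smul_apply, smul_eq_mul] at h6
    push_cast at h6
    simp_rw [hw] at h6
    have h7 : ∀ q, (n : ℚ) * ((d : ℚ) * e1 q) * (e q : ℚ) = ((n : ℚ) * d) * (eQ q * e1 q) := by
      intro q; simp only [eQ]; ring
    simp_rw [h7] at h6
    rw [← Finset.mul_sum, h_i] at h6
    have hn' : (n : ℚ) ≠ 0 := by exact_mod_cast hn.ne'
    have hd' : (d : ℚ) ≠ 0 := by exact_mod_cast hd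
    have : f eQ = 0 := by
      rcases mul_eq_zero.1 h6 with h | h
      · exact absurd h (mul_ne_zero hn' hd')
      · linarith
    exact hfe this
  obtain ⟨ξQ, hξT, heq⟩ := key
  obtain ⟨k, ξ₁, hk, hξ₁⟩ := pdu_clear_denoms ξQ
  have hξ₁T : rho T ξ₁ = ξ₁ := by
    funext q
    have := congrFun hξT q
    simp only [rho_apply] at this ⊢
    have h1 : ((ξ₁ (T⁻¹ • q) : ℤ) : ℚ) = ξ₁ q := by rw [hξ₁, hξ₁, this]
    exact_mod_cast h1
  have hke : k • e = rho S ξ₁ - ξ₁ := by
    funext q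
    have := congrFun heq q
    simp only [Pi.sub_apply, rho_apply, Pi.smul_apply, smul_eq_mul, eQ] at this ⊢
    have h1 : ((k * e q : ℤ) : ℚ) = ((ξ₁ (S⁻¹ • q) - ξ₁ q : ℤ) : ℚ) := by
      push_cast
      rw [hξ₁, hξ₁, this]; ring
    exact_mod_cast h1
  exact pdu_saturated hneg e ξ₁ k hk hξ₁T hke

end Fermat.Agent.S41.PD
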