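import Fermat.Agent.S41.PD.NormalForm

/-!
# S41 R6, piece PD-B (part 3): the pairing is well defined and bilinear

`IsPairing Γ x y v` determines `v` for parabolic `x`, `y`; over `ℤ` a value exists; `pairFun` is
biadditive on parabolic homomorphisms.
-/

set_option autoImplicit false

namespace Fermat.Agent.S41.PD

open scoped MatrixGroups
open ModularGroup (S T)
open ModularCurve.Period (IsParabolicHom)
open Matrix

section basic

variable {Γ : Subgroup SL(2, ℤ)} {R : Type*} [CommRing R] [IsDomain R] [CharZero R]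

theorem two_mul_cancel {r : R} (h : 2 * r = 0) : r = 0 := by
  rcases mul_eq_zero.1 h with h | h
  · exact absurd h two_ne_zero
  · exact h

theorem three_mul_cancel (r : R) (h : 3 * r = 0) : r = 0 := by
  rcases mul_eq_zero.1 h with h | h
  · exact absurd h (by norm_num)
  · exact h

/-- A homomorphism to a torsion-free ring kills the elements of finite order. -/
theorem hom_finOrder_eq_zero (x : Additive Γ →+ R) (γ : Γ) (h : γ ^ 6 = 1) :
    x (Additive.ofMul γ) = 0 := by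
  have h1 : (6 : ℕ) • x (Additive.ofMul γ) = 0 := by
    rw [← map_nsmul, ← ofMul_pow, h, ofMul_one, map_zero]
  rw [nsmul_eq_mul] at h1
  rcases mul_eq_zero.1 h1 with h2 | h2
  · exact absurd h2 (by norm_num)
  · exact h2

theorem parabolic_neg_one (hneg : (-1 : SL(2, ℤ)) ∈ Γ) {A : Type*} [AddCommGroup A]
    (x : Additive Γ →+ A) (hx : IsParabolicHom Γ x) :
    x (Additive.ofMul (⟨-1, hneg⟩ : Γ)) = 0 := by
  apply hx
  simp

end basic

section pre

variable {Γ : Subgroup SL(2, ℤ)} {R : Type*} [CommRing R]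

/-- A `U`-normal form of a parabolic class has `a S ∈ (T - 1) M`. -/
theorem exists_eq_cobdry_T (hneg : (-1 : SL(2, ℤ)) ∈ Γ) (x : Additive Γ →+ R)
    (hx : IsParabolicHom Γ x) {a : SL(2, ℤ) → (SL(2, ℤ) ⧸ Γ) → R} (ha : Represents Γ a x)
    (haU : a U = 0) : ∃ m : (SL(2, ℤ) ⧸ Γ) → R, a S = rho T m - m := by
  obtain ⟨b₀, hb₀, hb₀T⟩ := exists_NF1 x hx
  obtain ⟨ζ, hζ⟩ := ha.exists_cobdry hb₀
  have h1 : a (-1) = 0 := ha.map_neg_one hneg (parabolic_neg_one hneg x hx)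
  have h2 : a T = a S := ha.1.map_T_of_map_U hneg h1 haU
  have h3 : a T + (rho T ζ - ζ) = 0 := by
    have := congrFun hζ T
    rw [hb₀T, Pi.add_apply, cobdry_apply] at this
    exact this.symm
  refine ⟨-ζ, ?_⟩
  rw [← h2, rho_neg]
  have : a T = -(rho T ζ - ζ) := eq_neg_of_add_eq_zero_left h3
  rw [this]
  abel

end pre

section main

variable {Γ : Subgroup SL(2, ℤ)} [Fintype (SL(2, ℤ) ⧸ Γ)]
  {R : Type*} [CommRing R] [IsDomain R] [CharZero R]

/-- The sum `∑ a_S b_S` does not depend on the normal forms. -/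
theorem sum_NF_eq (hneg : (-1 : SL(2, ℤ)) ∈ Γ) (x y : Additive Γ →+ R)
    (hx : IsParabolicHom Γ x) (hy : IsParabolicHom Γ y)
    {a a' b b' : SL(2, ℤ) → (SL(2, ℤ) ⧸ Γ) → R}
    (ha : Represents Γ a x) (haU : a U = 0) (ha' : Represents Γ a' x) (ha'U : a' U = 0)
    (hb : Represents Γ b y) (hbT : b T = 0) (hb' : Represents Γ b' y) (hb'T : b' T = 0) :
    a' S ⬝ᵥ b' S = a S ⬝ᵥ b S := by
  obtain ⟨ξ, hξ⟩ := ha.exists_cobdry ha'
  obtain ⟨η, hη⟩ := hb.exists_cobdry hb'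
  have hξU : rho U ξ = ξ := by
    have := congrFun hξ U
    rw [ha'U, Pi.add_apply, haU, zero_add, cobdry_apply] at this
    exact (sub_eq_zero.1 this.symm)
  have hηT : rho T η = η := by
    have := congrFun hη T
    rw [hb'T, Pi.add_apply, hbT, zero_add, cobdry_apply] at this
    exact (sub_eq_zero.1 this.symm)
  have ea : a' S = a S + (rho S ξ - ξ) := by
    have := congrFun hξ S
    rwa [Pi.add_apply, cobdry_apply] at this
  have eb : b' S = b S + (rho S η - η) := by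
    have := congrFun hη S
    rwa [Pi.add_apply, cobdry_apply] at this
  have ha1 : a (-1) = 0 := ha.map_neg_one hneg (parabolic_neg_one hneg x hx)
  have hb1 : b (-1) = 0 := hb.map_neg_one hneg (parabolic_neg_one hneg y hy)
  have haS : a S + rho S (a S) = 0 := ha.1.map_S_add ha1
  have hbS : b S + rho S (b S) = 0 := hb.1.map_S_add hb1
  have hbU : b S + rho U (b S) + rho U (rho U (b S)) = 0 := by
    have := hb.1.map_U_add hb1
    rwa [hb.1.map_U_of_map_T hbT] at this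
  obtain ⟨m, hm⟩ := exists_eq_cobdry_T hneg x hx ha haU
  have t1 : a S ⬝ᵥ (rho S η - η) = 0 := dot_Zs_B hneg (a S) m η haS hm hηT
  have t2 : (rho S ξ - ξ) ⬝ᵥ b S = 0 :=
    dot_Bs_Z hneg three_mul_cancel ξ (b S) hξU hbS hbU
  have t3 : (rho S ξ - ξ) ⬝ᵥ (rho S η - η) = 0 := dot_Bs_B hneg ξ η hξU hηT
  rw [ea, eb, add_dotProduct, dotProduct_add, dotProduct_add, t1, t2, t3]
  simp

theorem IsPairing.eq_of_NF (hneg : (-1 : SL(2, ℤ)) ∈ Γ) {x y : Additive Γ →+ R}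
    (hx : IsParabolicHom Γ x) (hy : IsParabolicHom Γ y) {v : R} (h : IsPairing Γ x y v)
    {a b : SL(2, ℤ) → (SL(2, ℤ) ⧸ Γ) → R}
    (ha : Represents Γ a x) (haU : a U = 0) (hb : Represents Γ b y) (hbT : b T = 0) :
    2 * v = a S ⬝ᵥ b S := by
  obtain ⟨a', b', ha', ha'U, hb', hb'T, hv⟩ := h
  rw [hv]
  exact sum_NF_eq hneg x y hx hy ha haU ha' ha'U hb hbT hb' hb'T

theorem IsPairing.unique (hneg : (-1 : SL(2, ℤ)) ∈ Γ) {x y : Additive Γ →+ R}
    (hx : IsParabolicHom Γ x) (hy : IsParabolicHom Γ y) {v v' : R}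
    (h : IsPairing Γ x y v) (h' : IsPairing Γ x y v') : v = v' := by
  obtain ⟨a, b, ha, haU, hb, hbT, hv⟩ := h
  have := h'.eq_of_NF hneg hx hy ha haU hb hbT
  have h2 : 2 * (v - v') = 0 := by
    rw [mul_sub, hv, this]
    exact sub_self _
  exact sub_eq_zero.1 (two_mul_cancel h2)

theorem pairFun_eq (hneg : (-1 : SL(2, ℤ)) ∈ Γ) {x y : Additive Γ →+ R}
    (hx : IsParabolicHom Γ x) (hy : IsParabolicHom Γ y) {v : R}
    (h : IsPairing Γ x y v) : pairFun Γ x y = v := by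
  have hex : ∃ v, IsPairing Γ x y v := ⟨v, h⟩
  rw [pairFun, dif_pos hex]
  exact hex.choose_spec.unique hneg hx hy h

theorem IsPairing.add_left (hneg : (-1 : SL(2, ℤ)) ∈ Γ) {x x' y : Additive Γ →+ R}
    (hx : IsParabolicHom Γ x) (hx' : IsParabolicHom Γ x') (hy : IsParabolicHom Γ y) {v v' : R}
    (h : IsPairing Γ x y v) (h' : IsPairing Γ x' y v') : IsPairing Γ (x + x') y (v + v') := by
  obtain ⟨a, b, ha, haU, hb, hbT, hv⟩ := h
  obtain ⟨a', -, ha', ha'U, -, -, -⟩ := id h'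
  have e := IsPairing.eq_of_NF hneg hx' hy h' ha' ha'U hb hbT
  refine ⟨a + a', b, ha.add ha', ?_, hb, hbT, ?_⟩
  · rw [Pi.add_apply, haU, ha'U, add_zero]
  · show 2 * (v + v') = (a + a') S ⬝ᵥ b S
    rw [Pi.add_apply, add_dotProduct, mul_add, e]
    congr 1

theorem IsPairing.add_right (hneg : (-1 : SL(2, ℤ)) ∈ Γ) {x y y' : Additive Γ →+ R}
    (hx : IsParabolicHom Γ x) (hy : IsParabolicHom Γ y) (hy' : IsParabolicHom Γ y') {v v' : R}
    (h : IsPairing Γ x y v) (h' : IsPairing Γ x y' v') : IsPairing Γ x (y + y') (v + v') := by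
  obtain ⟨a, b, ha, haU, hb, hbT, hv⟩ := h
  obtain ⟨-, b', -, -, hb', hb'T, -⟩ := id h'
  have e := IsPairing.eq_of_NF hneg hx hy' h' ha haU hb' hb'T
  refine ⟨a, b + b', ha, haU, hb.add hb', ?_, ?_⟩
  · rw [Pi.add_apply, hbT, hb'T, add_zero]
  · show 2 * (v + v') = a S ⬝ᵥ (b + b') S
    rw [Pi.add_apply, dotProduct_add, mul_add, e]
    congr 1

end main

section int

variable {Γ : Subgroup SL(2, ℤ)} [Fintype (SL(2, ℤ) ⧸ Γ)]

/-- `⟨e₁, e₂⟩` is even for `e₁, e₂ ∈ ker (1 + S)`. -/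
theorem even_dot_of_S (hneg : (-1 : SL(2, ℤ)) ∈ Γ) (e₁ e₂ : (SL(2, ℤ) ⧸ Γ) → ℤ)
    (h₁ : e₁ + rho S e₁ = 0) (h₂ : e₂ + rho S e₂ = 0) : (2 : ℤ) ∣ e₁ ⬝ᵥ e₂ := by
  have hS1 : ∀ q, e₁ (S⁻¹ • q) = -e₁ q := by
    intro q
    have := congrFun h₁ q
    rw [Pi.add_apply, rho_apply, Pi.zero_apply] at this
    linarith
  have hS2 : ∀ q, e₂ (S⁻¹ • q) = -e₂ q := by
    intro q
    have := congrFun h₂ q
    rw [Pi.add_apply, rho_apply, Pi.zero_apply] at this
    linarith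
  have hinv : ∀ q : SL(2, ℤ) ⧸ Γ, S⁻¹ • (S⁻¹ • q) = q := by
    intro q
    rw [← mul_smul, ← _root_.mul_inv_rev, S_mul_S]
    have : (-1 : SL(2, ℤ))⁻¹ = -1 := by simp
    rw [this, neg_one_smul_eq hneg]
  have hcast : ((e₁ ⬝ᵥ e₂ : ℤ) : ZMod 2) = 0 → (2 : ℤ) ∣ e₁ ⬝ᵥ e₂ := fun h =>
    (ZMod.intCast_zmod_eq_zero_iff_dvd (e₁ ⬝ᵥ e₂) 2).1 h
  apply hcast
  show ((∑ q, e₁ q * e₂ q : ℤ) : ZMod 2) = 0
  rw [Int.cast_sum]
  refine Finset.sum_involution (fun q _ => S⁻¹ • q) ?_ ?_ (fun _ _ => Finset.mem_univ _)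
    (fun q _ => hinv q)
  · intro q _
    rw [hS1, hS2]
    push_cast
    have h2 : (2 : ZMod 2) = 0 := rfl
    linear_combination ((e₁ q : ZMod 2) * (e₂ q : ZMod 2)) * h2
  · intro q _ hq hfix
    apply hq
    have := hS1 q
    rw [hfix] at this
    have h0 : e₁ q = 0 := by linarith
    rw [h0]
    simp

/-- Over `ℤ` the pairing of two parabolic homomorphisms exists. -/
theorem exists_isPairing_int (hneg : (-1 : SL(2, ℤ)) ∈ Γ) (x y : Additive Γ →+ ℤ)
    (hx : IsParabolicHom Γ x) (hy : IsParabolicHom Γ y) : ∃ v : ℤ, IsPairing Γ x y v := by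
  obtain ⟨a, ha, haU⟩ := exists_NF2 x (hom_finOrder_eq_zero x)
  obtain ⟨b, hb, hbT⟩ := exists_NF1 y hy
  have ha1 : a (-1) = 0 := ha.map_neg_one hneg (parabolic_neg_one hneg x hx)
  have hb1 : b (-1) = 0 := hb.map_neg_one hneg (parabolic_neg_one hneg y hy)
  obtain ⟨v, hv⟩ := even_dot_of_S hneg (a S) (b S) (ha.1.map_S_add ha1) (hb.1.map_S_add hb1)
  exact ⟨v, a, b, ha, haU, hb, hbT, hv.symm⟩

theorem isPairing_pairFun_int (hneg : (-1 : SL(2, ℤ)) ∈ Γ) (x y : Additive Γ →+ ℤ)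
    (hx : IsParabolicHom Γ x) (hy : IsParabolicHom Γ y) : IsPairing Γ x y (pairFun Γ x y) := by
  have hex := exists_isPairing_int hneg x y hx hy
  rw [pairFun, dif_pos hex]
  exact hex.choose_spec

theorem two_mul_pairFun_int (hneg : (-1 : SL(2, ℤ)) ∈ Γ) {x y : Additive Γ →+ ℤ}
    (hx : IsParabolicHom Γ x) (hy : IsParabolicHom Γ y)
    {a b : SL(2, ℤ) → (SL(2, ℤ) ⧸ Γ) → ℤ}
    (ha : Represents Γ a x) (haU : a U = 0) (hb : Represents Γ b y) (hbT : b T = 0) :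
    2 * pairFun Γ x y = a S ⬝ᵥ b S :=
  (isPairing_pairFun_int hneg x y hx hy).eq_of_NF hneg hx hy ha haU hb hbT

omit [Fintype (SL(2, ℤ) ⧸ Γ)] in
theorem isParabolicHom_add {A : Type*} [AddCommGroup A] {x y : Additive Γ →+ A}
    (hx : IsParabolicHom Γ x) (hy : IsParabolicHom Γ y) : IsParabolicHom Γ (x + y) := by
  intro γ hγ
  rw [AddMonoidHom.add_apply, hx γ hγ, hy γ hγ, add_zero]

theorem pairFun_add_left (hneg : (-1 : SL(2, ℤ)) ∈ Γ) (x x' y : Additive Γ →+ ℤ)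
    (hx : IsParabolicHom Γ x) (hx' : IsParabolicHom Γ x') (hy : IsParabolicHom Γ y) :
    pairFun Γ (x + x') y = pairFun Γ x y + pairFun Γ x' y :=
  pairFun_eq hneg (isParabolicHom_add hx hx') hy
    ((isPairing_pairFun_int hneg x y hx hy).add_left hneg hx hx' hy
      (isPairing_pairFun_int hneg x' y hx' hy))

theorem pairFun_add_right (hneg : (-1 : SL(2, ℤ)) ∈ Γ) (x y y' : Additive Γ →+ ℤ)
    (hx : IsParabolicHom Γ x) (hy : IsParabolicHom Γ y) (hy' : IsParabolicHom Γ y') :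
    pairFun Γ x (y + y') = pairFun Γ x y + pairFun Γ x y' :=
  pairFun_eq hneg hx (isParabolicHom_add hy hy')
    ((isPairing_pairFun_int hneg x y hx hy).add_right hneg hx hy hy'
      (isPairing_pairFun_int hneg x y' hx hy'))

end int

end Fermat.Agent.S41.PD
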