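import Fermat.Agent.S41.PD.CocExt
import Fermat.Agent.S41.PD.Pairing
import Fermat.Agent.S21.Parabolic

/-!
# S41 R6, piece PD-S: the normal forms are onto `Z` and `Z*`

From `e ∈ Z` (resp. `Z*`) the cocycle extension PD-A2 builds a parabolic homomorphism whose
`T`-normal form (resp. `U`-normal form) has value `e` at `S`.
-/

set_option autoImplicit false

namespace Fermat.Agent.S41.PD

open scoped MatrixGroups
open ModularGroup (S T)
open ModularCurve.Period (IsParabolicHom)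
open Matrix

/-- `rho` as a homomorphism to the endomorphism monoid. -/
def rhoHom (G : Type*) [Group G] (Q : Type*) [MulAction G Q] (R : Type*) [AddCommGroup R] :
    G →* AddMonoid.End (Q → R) where
  toFun g :=
    { toFun := rho g
      map_zero' := rho_zero g
      map_add' := rho_add g }
  map_one' := by
    ext v q
    show rho (1 : G) v q = v q
    rw [rho_one]
  map_mul' g h := by
    ext v q
    show rho (g * h) v q = rho g (rho h v) q
    rw [rho_mul]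

@[simp] theorem rhoHom_apply {G : Type*} [Group G] {Q : Type*} [MulAction G Q] {R : Type*}
    [AddCommGroup R] (g : G) (v : Q → R) : rhoHom G Q R g v = rho g v := rfl

/-- An upper triangular element of `SL(2, ℤ)` is `± T ^ n`. -/
theorem upper_eq (β : SL(2, ℤ)) (hc : β 1 0 = 0) : ∃ n : ℤ, β = T ^ n ∨ β = -1 * T ^ n := by
  have had := β.det_coe
  replace had : β 0 0 * β 1 1 = 1 := by rw [det_fin_two, hc] at had; lia
  rcases Int.eq_one_or_neg_one_of_mul_eq_one' had with (⟨ha, hd⟩ | ⟨ha, hd⟩)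
  · refine ⟨β 0 1, Or.inl ?_⟩
    ext i j; fin_cases i <;> fin_cases j <;>
      simp [ha, hc, hd, ModularGroup.coe_T_zpow, show (1 : Fin (0 + 2)) = (1 : Fin 2) from rfl]
  · refine ⟨-(β 0 1), Or.inr ?_⟩
    ext i j; fin_cases i <;> fin_cases j <;>
      simp [ha, hc, hd, ModularGroup.coe_T_zpow, show (1 : Fin (0 + 2)) = (1 : Fin 2) from rfl]

section

variable {Γ : Subgroup SL(2, ℤ)} {R : Type*} [AddCommGroup R]

theorem IsCoc.map_zpow_of_map_eq_zero {G : Type*} [Group G] {Q : Type*} [MulAction G Q]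
    {c : G → Q → R} (hc : IsCoc c) {t : G} (ht : c t = 0) (n : ℤ) : c (t ^ n) = 0 := by
  have hnat : ∀ k : ℕ, c (t ^ k) = 0 := by
    intro k
    induction k with
    | zero => rw [pow_zero, hc.map_one]
    | succ k ih => rw [pow_succ, hc, ih, ht, rho_zero, add_zero]
  cases n with
  | ofNat k => simpa using hnat k
  | negSucc k =>
    rw [zpow_negSucc, hc.map_inv, hnat, rho_zero, neg_zero]

/-- A cocycle vanishing at `T` and at `-1` represents a parabolic homomorphism. -/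
theorem Represents.isParabolicHom (hneg : (-1 : SL(2, ℤ)) ∈ Γ)
    {c : SL(2, ℤ) → (SL(2, ℤ) ⧸ Γ) → R} {y : Additive Γ →+ R} (hy : Represents Γ c y)
    (h1 : c (-1) = 0) (hT : c T = 0) : IsParabolicHom Γ y := by
  intro γ hγ
  obtain ⟨δ, β, hβ, hγδ⟩ := Fermat.Agent.S21.parabolic_exists_conj_upper (γ : SL(2, ℤ)) hγ
  have hcβ : c β = 0 := by
    obtain ⟨n, rfl | rfl⟩ := upper_eq β hβ
    · exact hy.1.map_zpow_of_map_eq_zero hT n
    · rw [hy.1, h1, rho_neg_one hneg, hy.1.map_zpow_of_map_eq_zero hT n, add_zero]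
  have e1 : (γ : SL(2, ℤ)) = δ * β * δ⁻¹ := by
    rw [← hγδ]; group
  have e2 : c (γ : SL(2, ℤ)) = c δ - rho (γ : SL(2, ℤ)) (c δ) := by
    conv_lhs => rw [e1, hy.1, hy.1, hcβ, rho_zero, add_zero, hy.1.map_inv, rho_neg, ← rho_mul]
    rw [← e1]
    abel
  rw [← hy.2 γ, e2, Pi.sub_apply, rho_apply, smul_mk_one_of_mem (inv_mem γ.2), sub_self]

end

section surj

variable {Γ : Subgroup SL(2, ℤ)}

theorem rhoHom_neg_one (hneg : (-1 : SL(2, ℤ)) ∈ Γ) (R : Type*) [AddCommGroup R] :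
    rhoHom SL(2, ℤ) (SL(2, ℤ) ⧸ Γ) R (-1) = 1 := by
  ext v q
  show rho (-1 : SL(2, ℤ)) v q = v q
  rw [rho_neg_one hneg]

/-- Cocycle extension in the permutation module. -/
theorem exists_isCoc (hneg : (-1 : SL(2, ℤ)) ∈ Γ) (R : Type) [AddCommGroup R]
    (cS cU : (SL(2, ℤ) ⧸ Γ) → R) (hS : cS + rho S cS = 0)
    (hU : cU + rho U cU + rho U (rho U cU) = 0) :
    ∃ c : SL(2, ℤ) → (SL(2, ℤ) ⧸ Γ) → R, IsCoc c ∧ c S = cS ∧ c U = cU :=
  stmtCocExt ((SL(2, ℤ) ⧸ Γ) → R) (rhoHom SL(2, ℤ) (SL(2, ℤ) ⧸ Γ) R) (rhoHom_neg_one hneg R)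
    cS cU hS hU

/-- **PD-S (1)**: every `e ∈ Z` is the value at `S` of a `T`-normal form of a parabolic
homomorphism. -/
theorem exists_NF1_of_isZ (hneg : (-1 : SL(2, ℤ)) ∈ Γ) (e : (SL(2, ℤ) ⧸ Γ) → ℤ) (he : IsZ e) :
    ∃ y : Additive Γ →+ ℤ, IsParabolicHom Γ y ∧
      ∃ b : SL(2, ℤ) → (SL(2, ℤ) ⧸ Γ) → ℤ, Represents Γ b y ∧ b T = 0 ∧ b S = e := by
  obtain ⟨b, hb, hbS, hbU⟩ := exists_isCoc hneg ℤ e e he.1 he.2
  have h1 : b (-1) = 0 := by rw [← S_mul_S, hb, hbS]; exact he.1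
  have hT : b T = 0 := by
    rw [T_eq, mul_assoc, hb, h1, rho_neg_one hneg, zero_add, hb, hbS, hbU]
    exact he.1
  obtain ⟨y, hy⟩ := hb.exists_represents (Γ := Γ)
  exact ⟨y, hy.isParabolicHom hneg h1 hT, b, hy, hT, hbS⟩

/-- **PD-S (2)**: every `e ∈ Z*` is the value at `S` of a `U`-normal form of a parabolic
homomorphism. -/
theorem exists_NF2_of_isZs (hneg : (-1 : SL(2, ℤ)) ∈ Γ) (e : (SL(2, ℤ) ⧸ Γ) → ℤ)
    (he : IsZs e) :
    ∃ x : Additive Γ →+ ℤ, IsParabolicHom Γ x ∧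
      ∃ a : SL(2, ℤ) → (SL(2, ℤ) ⧸ Γ) → ℤ, Represents Γ a x ∧ a U = 0 ∧ a S = e := by
  obtain ⟨a, ha, haS, haU⟩ := exists_isCoc hneg ℤ e 0 he.1 (by simp)
  have h1 : a (-1) = 0 := by rw [← S_mul_S, ha, haS]; exact he.1
  have hT : a T = e := by rw [ha.map_T_of_map_U hneg h1 haU, haS]
  obtain ⟨x, hx⟩ := ha.exists_represents (Γ := Γ)
  obtain ⟨m, hm⟩ := he.2
  -- the cohomologous cocycle `a - ∂m` vanishes at `T`
  set a' : SL(2, ℤ) → (SL(2, ℤ) ⧸ Γ) → ℤ := a + cobdry (-m) with ha'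
  have hx' : Represents Γ a' x := hx.add_cobdry (-m)
  have h1' : a' (-1) = 0 := by
    rw [ha', Pi.add_apply, h1, cobdry_apply, rho_neg_one hneg, sub_self, add_zero]
  have hT' : a' T = 0 := by
    rw [ha', Pi.add_apply, hT, cobdry_apply, hm, rho_neg]
    abel
  exact ⟨x, hx'.isParabolicHom hneg h1' hT', a, hx, haU, haS⟩

end surj

end Fermat.Agent.S41.PD
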