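import Fermat.Agent.S41.PD.Surj

/-!
# S41 R6, piece PD-P: the pairing on `Hom_par(Γ, ℤ)` is perfect

Given the lattice lemma (PD-D1, PD-D2) the map `y ↦ [·, y]` is a bijection from
`Hom_par(Γ, ℤ)` onto its `ℤ`-dual.
-/

set_option autoImplicit false

namespace Fermat.Agent.S41.PD

open scoped MatrixGroups
open ModularGroup (S T)
open ModularCurve.Period (IsParabolicHom parabolicHoms)
open Matrix

section

variable {Γ : Subgroup SL(2, ℤ)} {R : Type*} [AddCommGroup R]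

/-- A cocycle is determined by its values at `S` and `U`. -/
theorem IsCoc.ext_SU {Q : Type*} [MulAction SL(2, ℤ) Q] {c d : SL(2, ℤ) → Q → R}
    (hc : IsCoc c) (hd : IsCoc d) (hS : c S = d S) (hU : c U = d U) : c = d := by
  have key : ∀ g : SL(2, ℤ), (c - d) g = 0 := by
    have hcd : IsCoc (c - d) := hc.sub hd
    have h0S : (c - d) S = 0 := by rw [Pi.sub_apply, hS, sub_self]
    have h0U : (c - d) U = 0 := by rw [Pi.sub_apply, hU, sub_self]
    intro g
    have hg : g ∈ Subgroup.closure ({S, T} : Set SL(2, ℤ)) := by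
      rw [SpecialLinearGroup.SL2Z_generators]
      exact Subgroup.mem_top g
    induction hg using Subgroup.closure_induction with
    | mem x hx =>
      rcases hx with rfl | rfl
      · exact h0S
      · have hT : T = S⁻¹ * U := by rw [U]; group
        rw [hT, hcd, hcd.map_inv, h0S, h0U]
        simp
    | one => exact hcd.map_one
    | mul x y _ _ hx hy => rw [hcd, hx, hy]; simp
    | inv x _ hx => rw [hcd.map_inv, hx]; simp
  funext g
  have := key g
  rw [Pi.sub_apply] at this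
  exact sub_eq_zero.1 this

end

section perfect

variable {Γ : Subgroup SL(2, ℤ)}

/-- the value at `S` of a `U`-normal form of a parabolic `x` lies in `Z*` -/
theorem isZs_of_NF2 (hneg : (-1 : SL(2, ℤ)) ∈ Γ) {x : Additive Γ →+ ℤ}
    (hx : IsParabolicHom Γ x) {a : SL(2, ℤ) → (SL(2, ℤ) ⧸ Γ) → ℤ} (ha : Represents Γ a x)
    (haU : a U = 0) : IsZs (a S) :=
  ⟨ha.1.map_S_add (ha.map_neg_one hneg (parabolic_neg_one hneg x hx)),
    exists_eq_cobdry_T hneg x hx ha haU⟩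

/-- the value at `S` of a `T`-normal form of a parabolic `y` lies in `Z` -/
theorem isZ_of_NF1 (hneg : (-1 : SL(2, ℤ)) ∈ Γ) {y : Additive Γ →+ ℤ}
    (hy : IsParabolicHom Γ y) {b : SL(2, ℤ) → (SL(2, ℤ) ⧸ Γ) → ℤ} (hb : Represents Γ b y)
    (hbT : b T = 0) : IsZ (b S) := by
  have h1 := hb.map_neg_one hneg (parabolic_neg_one hneg y hy)
  refine ⟨hb.1.map_S_add h1, ?_⟩
  have := hb.1.map_U_add h1
  rwa [hb.1.map_U_of_map_T hbT] at this

/-- the parabolic homomorphism attached to `e ∈ Z*` -/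
theorem exists_unique_of_isZs (hneg : (-1 : SL(2, ℤ)) ∈ Γ) (e : (SL(2, ℤ) ⧸ Γ) → ℤ)
    (he : IsZs e) :
    ∃ x : Additive Γ →+ ℤ, IsParabolicHom Γ x ∧
      ∀ a : SL(2, ℤ) → (SL(2, ℤ) ⧸ Γ) → ℤ, IsCoc a → a U = 0 → a S = e → Represents Γ a x := by
  obtain ⟨x, hx, a, ha, haU, haS⟩ := exists_NF2_of_isZs hneg e he
  refine ⟨x, hx, fun a' ha' ha'U ha'S => ?_⟩
  have : a' = a := ha'.ext_SU ha.1 (ha'S.trans haS.symm) (ha'U.trans haU.symm)
  rw [this]
  exact ha

variable [Fintype (SL(2, ℤ) ⧸ Γ)]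

open Classical in
/-- the functional on `Z*` induced by a functional on `Hom(Γ, ℤ)` -/
noncomputable def zsFun (hneg : (-1 : SL(2, ℤ)) ∈ Γ) (φ : (Additive Γ →+ ℤ) → ℤ)
    (e : (SL(2, ℤ) ⧸ Γ) → ℤ) : ℤ :=
  if he : IsZs e then φ (exists_unique_of_isZs hneg e he).choose else 0

theorem zsFun_eq (hneg : (-1 : SL(2, ℤ)) ∈ Γ) (φ : (Additive Γ →+ ℤ) → ℤ)
    {x : Additive Γ →+ ℤ} {a : SL(2, ℤ) → (SL(2, ℤ) ⧸ Γ) → ℤ} (ha : Represents Γ a x)
    (haU : a U = 0) (hZs : IsZs (a S)) : zsFun hneg φ (a S) = φ x := by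
  rw [zsFun, dif_pos hZs]
  have h := (exists_unique_of_isZs hneg (a S) hZs).choose_spec.2 a ha.1 haU rfl
  rw [h.unique ha]

theorem isZs_add {Q : Type} [MulAction SL(2, ℤ) Q] {e e' : Q → ℤ} (he : IsZs e)
    (he' : IsZs e') : IsZs (e + e') := by
  obtain ⟨h1, m, hm⟩ := he
  obtain ⟨h1', m', hm'⟩ := he'
  refine ⟨?_, m + m', ?_⟩
  · rw [rho_add]
    calc e + e' + (rho S e + rho S e') = (e + rho S e) + (e' + rho S e') := by abel
      _ = 0 := by rw [h1, h1', add_zero]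
  · rw [hm, hm', rho_add]
    abel

/-- **PD-P**: the pairing is perfect (on the right). -/
theorem pairFun_perfect_right (hLE : StmtLatticeEx) (hLU : StmtLatticeUniq)
    (hneg : (-1 : SL(2, ℤ)) ∈ Γ) (φ : (Additive Γ →+ ℤ) → ℤ)
    (hφ : ∀ x x', IsParabolicHom Γ x → IsParabolicHom Γ x' → φ (x + x') = φ x + φ x') :
    ∃ y : Additive Γ →+ ℤ, IsParabolicHom Γ y ∧
      (∀ x, IsParabolicHom Γ x → pairFun Γ x y = φ x) ∧
      ∀ y', IsParabolicHom Γ y' → (∀ x, IsParabolicHom Γ x → pairFun Γ x y' = φ x) → y' = y := by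
  have hφ0 : φ 0 = 0 := by
    have := hφ 0 0 (fun _ _ => rfl) (fun _ _ => rfl)
    rw [add_zero] at this
    linarith
  have htr : ∀ q : SL(2, ℤ) ⧸ Γ, (-1 : SL(2, ℤ)) • q = q := neg_one_smul_eq hneg
  -- existence
  have hadd : ∀ e e', IsZs e → IsZs e' →
      zsFun hneg φ (e + e') = zsFun hneg φ e + zsFun hneg φ e' := by
    intro e e' he he'
    obtain ⟨x, hx, a, ha, haU, rfl⟩ := exists_NF2_of_isZs hneg e he
    obtain ⟨x', hx', a', ha', ha'U, rfl⟩ := exists_NF2_of_isZs hneg e' he'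
    have h1 := zsFun_eq hneg φ ha haU he
    have h2 := zsFun_eq hneg φ ha' ha'U he'
    have haa : Represents Γ (a + a') (x + x') := ha.add ha'
    have haaU : (a + a') U = 0 := by rw [Pi.add_apply, haU, ha'U, add_zero]
    have h3 := zsFun_eq hneg φ haa haaU (by rw [Pi.add_apply]; exact isZs_add he he')
    rw [Pi.add_apply] at h3
    rw [h1, h2, h3, hφ x x' hx hx']
  have hB : ∀ ξ : (SL(2, ℤ) ⧸ Γ) → ℤ, rho U ξ = ξ → zsFun hneg φ (rho S ξ - ξ) = 0 := by
    intro ξ hξ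
    have hrep : Represents Γ (cobdry (G := SL(2, ℤ)) ξ) (0 : Additive Γ →+ ℤ) :=
      represents_cobdry ξ
    have hU0 : cobdry (G := SL(2, ℤ)) ξ U = 0 := by rw [cobdry_apply, hξ, sub_self]
    have hZs : IsZs (cobdry (G := SL(2, ℤ)) ξ S) :=
      isZs_of_NF2 hneg (fun _ _ => rfl) hrep hU0
    have := zsFun_eq hneg φ hrep hU0 hZs
    rw [cobdry_apply] at this
    rw [this, hφ0]
  obtain ⟨e, heZ, he⟩ := hLE (SL(2, ℤ) ⧸ Γ) htr (zsFun hneg φ) hadd hB
  obtain ⟨y, hy, b, hb, hbT, hbS⟩ := exists_NF1_of_isZ hneg e heZ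
  have hyφ : ∀ x, IsParabolicHom Γ x → pairFun Γ x y = φ x := by
    intro x hx
    obtain ⟨a, ha, haU⟩ := exists_NF2 x (hom_finOrder_eq_zero x)
    have hZs := isZs_of_NF2 hneg hx ha haU
    have h1 := he (a S) hZs
    rw [zsFun_eq hneg φ ha haU hZs] at h1
    have h2 := two_mul_pairFun_int hneg hx hy ha haU hb hbT
    rw [hbS] at h2
    have h3 : (2 : ℤ) * pairFun Γ x y = 2 * φ x := by rw [h2, h1]; rfl
    linarith
  refine ⟨y, hy, hyφ, ?_⟩
  -- uniqueness
  intro y' hy' hy'φ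
  obtain ⟨b', hb', hb'T⟩ := exists_NF1 y' hy'
  have hZ' := isZ_of_NF1 hneg hy' hb' hb'T
  have hZ := isZ_of_NF1 hneg hy hb hbT
  -- the difference `b' - b` pairs to zero with `Z*`
  have hd : ∀ e', IsZs e' → ∑ q, e' q * (b' S - b S) q = 0 := by
    intro e' he'
    obtain ⟨x, hx, a, ha, haU, rfl⟩ := exists_NF2_of_isZs hneg e' he'
    have h1 := two_mul_pairFun_int hneg hx hy ha haU hb hbT
    have h2 := two_mul_pairFun_int hneg hx hy' ha haU hb' hb'T
    rw [hyφ x hx] at h1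
    rw [hy'φ x hx] at h2
    have : a S ⬝ᵥ (b' S - b S) = 0 := by rw [dotProduct_sub, ← h1, ← h2, sub_self]
    exact this
  have hZd : IsZ (b' S - b S) := by
    obtain ⟨h1, h2⟩ := hZ
    obtain ⟨h1', h2'⟩ := hZ'
    refine ⟨?_, ?_⟩
    · rw [rho_sub]
      calc b' S - b S + (rho S (b' S) - rho S (b S))
          = (b' S + rho S (b' S)) - (b S + rho S (b S)) := by abel
        _ = 0 := by rw [h1, h1', sub_zero]
    · rw [rho_sub, rho_sub]
      calc b' S - b S + (rho U (b' S) - rho U (b S)) +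
            (rho U (rho U (b' S)) - rho U (rho U (b S)))
          = (b' S + rho U (b' S) + rho U (rho U (b' S))) -
              (b S + rho U (b S) + rho U (rho U (b S))) := by abel
        _ = 0 := by rw [h2, h2', sub_zero]
  obtain ⟨ξ, hξT, hξ⟩ := hLU (SL(2, ℤ) ⧸ Γ) htr (b' S - b S) hZd hd
  -- `b' = b + ∂ξ`
  have hbb : b' = b + cobdry ξ := by
    apply hb'.1.ext_SU (hb.1.add (isCoc_cobdry ξ))
    · rw [Pi.add_apply, cobdry_apply, ← hξ]; abel
    · rw [Pi.add_apply, cobdry_apply, hb'.1.map_U_of_map_T hb'T, hb.1.map_U_of_map_T hbT,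
        rho_U_eq, hξT, ← hξ]
      abel
  have : Represents Γ b' y := by rw [hbb]; exact hb.add_cobdry ξ
  exact hb'.unique this

end perfect

end Fermat.Agent.S41.PD
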