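import Fermat.Agent.S41.PD.ResCores
import Fermat.Agent.S41.TransferFormula

/-!
# S41 R6, piece PD-T: `push` of a representing cocycle represents the Mathlib transfer

`Γ ≤ G`, `f : H →* Γ` injective with finite-index range, `Γ₁ ≤ G` the image of `f` in `G`,
`ψ₁ : Γ₁ → A` with `ψ₁ (f h) = ψ h`.  If the cocycle `b : G → (G ⧸ Γ₁ → A)` represents `ψ₁` then
`push ∘ b` represents `S41.transferAlong A f hf ψ`.
-/

set_option autoImplicit false

namespace Fermat.Agent.S41.PD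

open Fermat.Agent.S41 (transferAlong transferAlong_eq_sum tRep tCoc f_tCoc tRep_mk)

section

variable {G : Type*} [Group G] {Γ₁ Γ : Subgroup G} (hle : Γ₁ ≤ Γ) {H : Type*} [Group H]
  (f : H →* Γ) (hf : Function.Injective f) [f.range.FiniteIndex]
  (hΓ₁ : ∀ γ : Γ, γ ∈ f.range ↔ (γ : G) ∈ Γ₁)
  {A : Type*} [AddCommGroup A] [Fintype (G ⧸ Γ₁)]

include hΓ₁ in
theorem mk_tRep_injective :
    Function.Injective (fun q' : Γ ⧸ f.range => (((tRep f q' : Γ) : G) : G ⧸ Γ₁)) := by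
  intro q₁ q₂ h12
  have h1 : ((tRep f q₁ : Γ) : G)⁻¹ * ((tRep f q₂ : Γ) : G) ∈ Γ₁ := QuotientGroup.eq.1 h12
  have h2 : (tRep f q₁)⁻¹ * tRep f q₂ ∈ f.range := (hΓ₁ _).2 h1
  have h3 : (QuotientGroup.mk (tRep f q₁) : Γ ⧸ f.range) = QuotientGroup.mk (tRep f q₂) :=
    QuotientGroup.eq.2 h2
  rwa [tRep_mk, tRep_mk] at h3

include hΓ₁ in
/-- the fibre of `G ⧸ Γ₁ → G ⧸ Γ` over the base coset is `Γ ⧸ f.range` -/
theorem sum_fibre_eq (v : G ⧸ Γ₁ → A) :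
    push hle v ((1 : G) : G ⧸ Γ) =
      (@Finset.univ (Γ ⧸ f.range) f.range.fintypeQuotientOfFiniteIndex).sum
        fun q' => v (((tRep f q' : Γ) : G) : G ⧸ Γ₁) := by
  classical
  letI := f.range.fintypeQuotientOfFiniteIndex
  unfold push
  symm
  refine Finset.sum_bij (fun q' _ => (((tRep f q' : Γ) : G) : G ⧸ Γ₁)) ?_ ?_ ?_ ?_
  · intro q' _
    rw [Finset.mem_filter]
    refine ⟨Finset.mem_univ _, ?_⟩
    rw [Subgroup.quotientMapOfLE_apply_mk, QuotientGroup.eq, mul_one]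
    exact inv_mem (tRep f q').2
  · intro q₁ _ q₂ _ h12
    exact mk_tRep_injective f hΓ₁ h12
  · intro q₁ hq₁
    rw [Finset.mem_filter] at hq₁
    induction q₁ using QuotientGroup.induction_on with
    | H g =>
      have hg : g ∈ Γ := by
        have := hq₁.2
        rw [Subgroup.quotientMapOfLE_apply_mk, QuotientGroup.eq, mul_one] at this
        exact inv_mem_iff.1 this
      refine ⟨(QuotientGroup.mk (⟨g, hg⟩ : Γ) : Γ ⧸ f.range), Finset.mem_univ _, ?_⟩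
      rw [QuotientGroup.eq]
      have h1 : (QuotientGroup.mk (tRep f (QuotientGroup.mk (⟨g, hg⟩ : Γ) : Γ ⧸ f.range)) :
          Γ ⧸ f.range) = QuotientGroup.mk (⟨g, hg⟩ : Γ) := tRep_mk f _
      have h2 := QuotientGroup.eq.1 h1
      exact (hΓ₁ _).1 h2
  · intro q' _
    rfl

end

section bridge

variable {G : Type*} [Group G] {Γ₁ Γ : Subgroup G} (hle : Γ₁ ≤ Γ) {H : Type*} [Group H]
  (f : H →* Γ) (hf : Function.Injective f) [f.range.FiniteIndex]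
  (hΓ₁ : ∀ γ : Γ, γ ∈ f.range ↔ (γ : G) ∈ Γ₁)
  {A : Type*} [AddCommGroup A] [Fintype (G ⧸ Γ₁)]

include hΓ₁ in
/-- **PD-T**: `push ∘ b` represents the transfer. -/
theorem represents_transferAlong (ψ : Additive H →+ A) (ψ₁ : Additive Γ₁ →+ A)
    (hψ : ∀ (h : H) (hh : ((f h : Γ) : G) ∈ Γ₁), ψ₁ (Additive.ofMul ⟨((f h : Γ) : G), hh⟩) =
      ψ (Additive.ofMul h))
    {b : G → (G ⧸ Γ₁) → A} (hb : Represents Γ₁ b ψ₁) :
    Represents Γ (fun g => push hle (b g)) (transferAlong A f hf ψ) := by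
  classical
  letI := f.range.fintypeQuotientOfFiniteIndex
  refine ⟨hb.1.push hle, fun γ => ?_⟩
  show push hle (b (γ : G)) ((1 : G) : G ⧸ Γ) = _
  rw [sum_fibre_eq hle f hΓ₁, transferAlong_eq_sum]
  -- the auxiliary function `F q' = b (t q') (t q' Γ₁)`
  set F : Γ ⧸ f.range → A :=
    fun q' => b ((tRep f q' : Γ) : G) ((((tRep f q' : Γ) : G)) : G ⧸ Γ₁) with hF
  have key : ∀ q' : Γ ⧸ f.range,
      ψ (Additive.ofMul (tCoc f hf q' γ)) =
        b (γ : G) ((((tRep f q' : Γ) : G)) : G ⧸ Γ₁) - F q' + F (γ⁻¹ • q') := by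
    intro q'
    set t : Γ := tRep f q' with ht
    set t' : Γ := tRep f (γ⁻¹ • q') with ht'
    have e1 : f (tCoc f hf q' γ) = t⁻¹ * γ * t' := f_tCoc f hf q' γ
    have hmem : ((f (tCoc f hf q' γ) : Γ) : G) ∈ Γ₁ := (hΓ₁ _).1 ⟨_, rfl⟩
    have e2 := hψ (tCoc f hf q' γ) hmem
    rw [← e2, ← hb.2 ⟨_, hmem⟩]
    show b ((f (tCoc f hf q' γ) : Γ) : G) _ = _
    rw [e1]
    have e3 : (((t⁻¹ * γ * t' : Γ) : Γ) : G) = (t : G)⁻¹ * ((γ : G) * (t' : G)) := by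
      simp only [Subgroup.coe_mul, Subgroup.coe_inv, mul_assoc]
    rw [e3, hb.1, hb.1, hb.1.map_inv]
    simp only [Pi.add_apply, Pi.neg_apply, rho_apply, inv_inv]
    -- identify the cosets
    have c1 : (t : G) • (((1 : G) : G ⧸ Γ₁)) = (((t : G)) : G ⧸ Γ₁) := by
      show ((((t : G) * 1 : G)) : G ⧸ Γ₁) = _
      rw [mul_one]
    have c2 : (γ : G)⁻¹ • ((((t : G)) : G ⧸ Γ₁)) = (((t' : G)) : G ⧸ Γ₁) := by
      show (((((γ : G)⁻¹ * (t : G) : G)) : G ⧸ Γ₁)) = _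
      rw [QuotientGroup.eq]
      have h1 : (QuotientGroup.mk t' : Γ ⧸ f.range) = γ⁻¹ • (QuotientGroup.mk t : Γ ⧸ f.range) := by
        rw [ht', ht, tRep_mk, tRep_mk]
      have h2 : (QuotientGroup.mk (γ⁻¹ * t) : Γ ⧸ f.range) = QuotientGroup.mk t' := h1.symm
      have h3 := (hΓ₁ _).1 (QuotientGroup.eq.1 h2)
      simpa using h3
    rw [c1, c2, hF]
    abel
  simp only [key]
  rw [Finset.sum_add_distrib, Finset.sum_sub_distrib]
  have h2 : ∑ q' : Γ ⧸ f.range, F (γ⁻¹ • q') = ∑ q' : Γ ⧸ f.range, F q' :=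
    Equiv.sum_comp (MulAction.toPerm γ⁻¹ : Equiv.Perm (Γ ⧸ f.range)) F
  rw [h2]
  abel

end bridge

end Fermat.Agent.S41.PD
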