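import Fermat.Agent.S41.PD.Plan

/-!
# S41 R6, piece PD-L: the duality argument (pure linear algebra)

If `η` is self-adjoint for a form `P` on the free `ℤ`-module `L` representing every functional,
`β` is left adjoint to `α` (forms `P`, `P'`, the latter non-degenerate mod `p`), and `η` kills the
kernel of `α mod p`, then `η L ⊆ β L' + p L`.
-/

set_option autoImplicit false
set_option linter.style.haveILetI false

namespace Fermat.Agent.S41.PD

/-- a biadditive-on-the-right form is homogeneous for natural multiples -/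
theorem dualLA_nsmul {L : Type*} [AddCommGroup L] (P : L → L → ℤ)
    (hP : ∀ x y y', P x (y + y') = P x y + P x y') (x y : L) (n : ℕ) :
    P x (n • y) = n * P x y := by
  have h0 : P x 0 = 0 := by
    have := hP x 0 0
    rw [add_zero] at this
    linarith
  induction n with
  | zero => simp [h0]
  | succ k ih =>
    rw [succ_nsmul, hP, ih]
    push_cast
    ring

/-- separation of a point from a subgroup containing `p L` by a functional mod `p` -/
theorem dualLA_separate (p : ℕ) [Fact p.Prime] {L : Type*} [AddCommGroup L] (W : AddSubgroup L)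
    (hW : ∀ x : L, p • x ∈ W) (z : L) (hz : z ∉ W) :
    ∃ φ : L →+ ZMod p, (∀ w ∈ W, φ w = 0) ∧ φ z ≠ 0 := by
  have hpV : ∀ v : L ⧸ W, p • v = 0 := by
    intro v
    induction v using QuotientAddGroup.induction_on with
    | H x =>
      show ((p • x : L) : L ⧸ W) = 0
      rw [QuotientAddGroup.eq_zero_iff]
      exact hW x
  haveI : Module (ZMod p) (L ⧸ W) := AddCommGroup.zmodModule hpV
  have hne : ((z : L) : L ⧸ W) ≠ 0 := by
    rw [Ne, QuotientAddGroup.eq_zero_iff]
    exact hz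
  obtain ⟨f, hf⟩ : ∃ f : (L ⧸ W) →ₗ[ZMod p] ZMod p, f ((z : L) : L ⧸ W) ≠ 0 := by
    by_contra h
    have h' : ∀ f : (L ⧸ W) →ₗ[ZMod p] ZMod p, f ((z : L) : L ⧸ W) = 0 := by
      intro f
      by_contra hf
      exact h ⟨f, hf⟩
    exact hne ((Module.forall_dual_apply_eq_zero_iff (ZMod p) _).mp h')
  refine ⟨f.toAddMonoidHom.comp (QuotientAddGroup.mk' W), ?_, hf⟩
  intro w hw
  show f ((w : L) : L ⧸ W) = 0
  rw [(QuotientAddGroup.eq_zero_iff w).mpr hw, map_zero]

/-- lifting a functional mod `p` on a free module -/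
theorem dualLA_lift (p : ℕ) {L : Type*} [AddCommGroup L] [Module.Free ℤ L] (φ : L →+ ZMod p) :
    ∃ μ : L →+ ℤ, ∀ x, ((μ x : ℤ) : ZMod p) = φ x := by
  have hsurj : Function.Surjective ((Int.castAddHom (ZMod p)).toIntLinearMap) := by
    intro a
    exact ⟨(ZMod.cast a : ℤ), by simp⟩
  obtain ⟨h, hh⟩ := Module.projective_lifting_property
    ((Int.castAddHom (ZMod p)).toIntLinearMap) φ.toIntLinearMap hsurj
  refine ⟨h.toAddMonoidHom, fun x => ?_⟩
  have := congrArg (fun g : L →ₗ[ℤ] ZMod p => g x) hh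
  exact this

/-- **PD-L.** -/
theorem stmtDualLA : StmtDualLA := by
  intro p hp L L' _ _ _ P P' α β η hP hrep hnd hadj hself hker c
  haveI : Fact p.Prime := ⟨hp⟩
  by_contra hcon
  let W : AddSubgroup L :=
    { carrier := {z | ∃ (w : L') (y' : L), z = β w + p • y'}
      zero_mem' := ⟨0, 0, by simp⟩
      add_mem' := by
        rintro _ _ ⟨w, y, rfl⟩ ⟨w', y', rfl⟩
        exact ⟨w + w', y + y', by rw [map_add, smul_add]; abel⟩
      neg_mem' := by
        rintro _ ⟨w, y, rfl⟩
        exact ⟨-w, -y, by rw [map_neg, smul_neg]; abel⟩ }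
  have hW : ∀ x : L, p • x ∈ W := fun x => ⟨0, x, by simp⟩
  have hβW : ∀ w : L', β w ∈ W := fun w => ⟨w, 0, by simp⟩
  obtain ⟨φ, hφW, hφc⟩ := dualLA_separate p W hW (η c) hcon
  obtain ⟨μ, hμ⟩ := dualLA_lift p φ
  obtain ⟨y, hy⟩ := hrep μ
  -- `α y ∈ p L'`
  have h1 : ∀ w : L', (p : ℤ) ∣ P' w (α y) := by
    intro w
    rw [← hadj, hy, ← ZMod.intCast_zmod_eq_zero_iff_dvd, hμ]
    exact hφW _ (hβW w)
  obtain ⟨u', hu'⟩ := hnd (α y) h1
  obtain ⟨y', hy'⟩ := hker y ⟨u', hu'⟩
  -- `μ (η c) ∈ p ℤ`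
  have h2 : μ (η c) = p * P c y' := by
    rw [← hy, hself, hy', dualLA_nsmul P hP]
  apply hφc
  rw [← hμ, h2]
  push_cast
  simp

end Fermat.Agent.S41.PD
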