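import Fermat.Agent.S41.PD.PlanZ
import Fermat.Agent.S41.PD.DualLA
import Fermat.Agent.S41.Parab
import Fermat.Agent.ES.HeckePPar
import Fermat.Agent.ES.EigenLattice

/-!
# S41 R6, piece PD-Z: the final assembly

`stmtAssemble : StmtAssemble N q p`: from pairings `P` on `Hom_par(Γ₀(N), ℤ)` and `P'` on
`Hom_par(Γ₀(N q), ℤ)` (biadditive, perfect, `cores ⊣ res`, `cores^δ ⊣ res^δ`, `T_ℓ` self-adjoint)
deduce `StmtDualIhara N q p`, by the duality argument of `PD/DualLA.lean` applied to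
`L = Lpar N × Lpar N`, `L' = Lpar (N q)`.
-/

set_option autoImplicit false
set_option linter.style.haveILetI false
set_option linter.unusedSectionVars false

namespace Fermat.Agent.S41.PD

open CongruenceSubgroup
open Fermat.Agent.S41 (HomG res resD cores coresD Tc Lpar Hpar StmtDualIhara stmtC8)

/-- The duality argument, with the non-degeneracy of `P'` only required for those `u` for which
`P' (·, u)` is additive. -/
theorem asm_dualLA (p : ℕ) (hp : p.Prime) {L L' : Type*} [AddCommGroup L] [AddCommGroup L']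
    [Module.Free ℤ L] (P : L → L → ℤ) (P' : L' → L' → ℤ) (α : L →+ L') (β : L' →+ L)
    (η : L →+ L)
    (hP : ∀ x y y', P x (y + y') = P x y + P x y')
    (hrep : ∀ φ : L →+ ℤ, ∃ y, ∀ x, P x y = φ x)
    (hnd : ∀ u : L', (∀ w w', P' (w + w') u = P' w u + P' w' u) → (∀ w, (p : ℤ) ∣ P' w u) →
      ∃ u' : L', u = p • u')
    (hadj : ∀ w y, P (β w) y = P' w (α y))
    (hself : ∀ x y, P (η x) y = P x (η y))
    (hker : ∀ y : L, (∃ u' : L', α y = p • u') → ∃ y' : L, η y = p • y') (c : L) :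
    ∃ (w : L') (y' : L), η c = β w + p • y' := by
  haveI : Fact p.Prime := ⟨hp⟩
  by_contra hcon
  let W : AddSubgroup L :=
    { carrier := {z | ∃ (w : L') (y' : L), z = β w + p • y'}
      zero_mem' := ⟨0, 0, by simp⟩
      add_mem' := by
        rintro _ _ ⟨w, y, rfl⟩ ⟨w', y', rfl⟩
        exact ⟨w + w', y + y', by rw [map_add, smul_add]; abel⟩
      neg_mem' := by
        rintro _ ⟨w, y, rfl⟩
        exact ⟨-w, -y, by rw [map_neg, smul_neg]; abel⟩ }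
  have hW : ∀ x : L, p • x ∈ W := fun x => ⟨0, x, by simp⟩
  have hβW : ∀ w : L', β w ∈ W := fun w => ⟨w, 0, by simp⟩
  obtain ⟨φ, hφW, hφc⟩ := dualLA_separate p W hW (η c) hcon
  obtain ⟨μ, hμ⟩ := dualLA_lift p φ
  obtain ⟨y, hy⟩ := hrep μ
  have hadd : ∀ w w', P' (w + w') (α y) = P' w (α y) + P' w' (α y) := by
    intro w w'
    rw [← hadj, ← hadj, ← hadj, hy, hy, hy, map_add, map_add]
  have h1 : ∀ w : L', (p : ℤ) ∣ P' w (α y) := by
    intro w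
    rw [← hadj, hy, ← ZMod.intCast_zmod_eq_zero_iff_dvd, hμ]
    exact hφW _ (hβW w)
  obtain ⟨u', hu'⟩ := hnd (α y) hadd h1
  obtain ⟨y', hy'⟩ := hker y ⟨u', hu'⟩
  have h2 : μ (η c) = p * P c y' := by
    rw [← hy, hself, hy', dualLA_nsmul P hP]
  apply hφc
  rw [← hμ, h2]
  push_cast
  simp

section additive

variable {H : Type*} [AddCommGroup H] (S : AddSubgroup H)

/-- a function additive on a subgroup, as a homomorphism on the subgroup -/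
def asmHom (g : H → ℤ) (hg : ∀ x ∈ S, ∀ x' ∈ S, g (x + x') = g x + g x') : S →+ ℤ :=
  AddMonoidHom.mk' (fun x : S => g (x : H)) (fun a b => hg a a.2 b b.2)

@[simp] theorem asmHom_apply (g : H → ℤ) (hg : ∀ x ∈ S, ∀ x' ∈ S, g (x + x') = g x + g x')
    (x : S) : asmHom S g hg x = g (x : H) := rfl

theorem asm_sub_nsmul (g : H → ℤ) (hg : ∀ x ∈ S, ∀ x' ∈ S, g (x + x') = g x + g x')
    {a b : H} (ha : a ∈ S) (hb : b ∈ S) (n : ℕ) : g (a - n • b) = g a - n * g b := by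
  have h := map_sub (asmHom S g hg) ⟨a, ha⟩ (n • ⟨b, hb⟩)
  rw [map_nsmul] at h
  simpa using h

theorem asm_nsmul (g : H → ℤ) (hg : ∀ x ∈ S, ∀ x' ∈ S, g (x + x') = g x + g x')
    {b : H} (hb : b ∈ S) (n : ℕ) : g (n • b) = n * g b := by
  have h := map_nsmul (asmHom S g hg) n ⟨b, hb⟩
  simpa using h

end additive

section main

variable (N q p : ℕ) [NeZero N] [NeZero q]

theorem asm_mem_Lpar_iff {M : ℕ} (x : HomG M ℤ) :
    x ∈ Lpar M ↔ ModularCurve.Period.IsParabolicHom (Gamma0 M) x := Iff.rfl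

/-- reduction mod `p` of an integral homomorphism -/
def asmRed {M : ℕ} (x : HomG M ℤ) : HomG M (ZMod p) := (Int.castAddHom (ZMod p)).comp x

theorem asmRed_mem {M : ℕ} {x : HomG M ℤ} (hx : x ∈ Lpar M) : asmRed p x ∈ Hpar M (ZMod p) := by
  intro γ hγ
  show ((x (Additive.ofMul γ) : ℤ) : ZMod p) = 0
  rw [hx γ hγ, Int.cast_zero]

/-- saturation of the parabolic lattice -/
theorem asm_saturated {M : ℕ} (hp0 : p ≠ 0) {x : HomG M ℤ} (hx : x ∈ Lpar M)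
    (h : asmRed p x = 0) : ∃ y ∈ Lpar M, x = p • y := by
  obtain ⟨y, hy, hxy⟩ := Fermat.Agent.ES.exists_eq_nsmul_of_castHom_eq_zero
    (G := Gamma0 M)
    (P := {γ | ((γ : Matrix.SpecialLinearGroup (Fin 2) ℤ) : Matrix (Fin 2) (Fin 2) ℤ).trace ^ 2 = 4})
    p hp0 x (fun g hg => hx g hg) h
  exact ⟨y, fun γ hγ => hy γ hγ, hxy⟩

/-- **PD-Z.** -/
theorem stmtAssemble : StmtAssemble N q p := by
  intro hp hfree P P' ha1 ha2 ha3 hr1 hr2 hadj1 hadj2 hsa ℓ hℓ hN _hℓq hI x₁ hx₁ x₂ hx₂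
  haveI := hfree
  have hp0 : p ≠ 0 := hp.ne_zero
  obtain ⟨hC8r, hC8c⟩ := stmtC8 (N := N) (q := q) ℤ
  -- the restricted maps
  have hres : ∀ y ∈ Lpar N, res N q ℤ y ∈ Lpar (N * q) := fun y hy => (hC8r y hy).1
  have hresD : ∀ y ∈ Lpar N, resD N q ℤ y ∈ Lpar (N * q) := fun y hy => (hC8r y hy).2
  have hcores : ∀ w ∈ Lpar (N * q), cores N q ℤ w ∈ Lpar N := fun w hw => (hC8c w hw).1
  have hcoresD : ∀ w ∈ Lpar (N * q), coresD N q ℤ w ∈ Lpar N := fun w hw => (hC8c w hw).2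
  have hTc : ∀ y ∈ Lpar N, Tc ℓ hN y ∈ Lpar N := fun y hy =>
    Fermat.Agent.ES.HeckeP.heckeHom_isParabolicHom hN hy
  let TcH : HomG N ℤ →+ HomG N ℤ := (Fermat.Agent.ES.HeckeP.heckeHomL hN ℤ).toAddMonoidHom
  have hTcH : ∀ y, TcH y = Tc ℓ hN y := fun _ => rfl
  let η₀ : HomG N ℤ →+ HomG N ℤ := TcH - (ℓ + 1) • AddMonoidHom.id _
  have hη₀ : ∀ y, η₀ y = Tc ℓ hN y - (ℓ + 1) • y := fun _ => rfl
  have hη₀mem : ∀ y ∈ Lpar N, η₀ y ∈ Lpar N := fun y hy =>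
    (Lpar N).sub_mem (hTc y hy) ((Lpar N).nsmul_mem hy _)
  let resL : Lpar N →+ Lpar (N * q) :=
    ((res N q ℤ).comp (Lpar N).subtype).codRestrict (Lpar (N * q)) (fun x => hres x x.2)
  let resDL : Lpar N →+ Lpar (N * q) :=
    ((resD N q ℤ).comp (Lpar N).subtype).codRestrict (Lpar (N * q)) (fun x => hresD x x.2)
  let coresL : Lpar (N * q) →+ Lpar N :=
    ((cores N q ℤ).comp (Lpar (N * q)).subtype).codRestrict (Lpar N) (fun x => hcores x x.2)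
  let coresDL : Lpar (N * q) →+ Lpar N :=
    ((coresD N q ℤ).comp (Lpar (N * q)).subtype).codRestrict (Lpar N) (fun x => hcoresD x x.2)
  let ηL : Lpar N →+ Lpar N :=
    (η₀.comp (Lpar N).subtype).codRestrict (Lpar N) (fun x => hη₀mem x x.2)
  let α : Lpar N × Lpar N →+ Lpar (N * q) := resL.coprod resDL
  let β : Lpar (N * q) →+ Lpar N × Lpar N := coresL.prod coresDL
  let η : Lpar N × Lpar N →+ Lpar N × Lpar N := ηL.prodMap ηL
  let PL : Lpar N × Lpar N → Lpar N × Lpar N → ℤ := fun x y =>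
    P (x.1 : HomG N ℤ) (y.1 : HomG N ℤ) + P (x.2 : HomG N ℤ) (y.2 : HomG N ℤ)
  let P'L : Lpar (N * q) → Lpar (N * q) → ℤ := fun w u =>
    P' (w : HomG (N * q) ℤ) (u : HomG (N * q) ℤ)
  -- additivity helpers
  have hP1 : ∀ y ∈ Lpar N, ∀ x ∈ Lpar N, ∀ x' ∈ Lpar N, P (x + x') y = P x y + P x' y :=
    fun y hy x hx x' hx' => ha1 x hx x' hx' y hy
  have hP2 : ∀ x ∈ Lpar N, ∀ y ∈ Lpar N, ∀ y' ∈ Lpar N, P x (y + y') = P x y + P x y' := ha2
  have hmain := asm_dualLA p hp PL P'L α β η ?_ ?_ ?_ ?_ ?_ ?_ (⟨x₁, hx₁⟩, ⟨x₂, hx₂⟩)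
  · obtain ⟨w, y', hwy⟩ := hmain
    refine ⟨(w : HomG (N * q) ℤ), w.2, (y'.1 : HomG N ℤ), y'.1.2, (y'.2 : HomG N ℤ), y'.2.2,
      ?_, ?_⟩
    · have := congrArg (fun z : Lpar N × Lpar N => ((z.1 : Lpar N) : HomG N ℤ)) hwy
      exact this
    · have := congrArg (fun z : Lpar N × Lpar N => ((z.2 : Lpar N) : HomG N ℤ)) hwy
      exact this
  · -- additivity of `PL` on the right
    intro x y y'
    show P _ ((y + y').1 : HomG N ℤ) + P _ ((y + y').2 : HomG N ℤ) = _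
    rw [Prod.fst_add, Prod.snd_add, AddSubgroup.coe_add, AddSubgroup.coe_add,
      hP2 _ x.1.2 _ y.1.2 _ y'.1.2, hP2 _ x.2.2 _ y.2.2 _ y'.2.2]
    show _ = (P _ _ + P _ _) + (P _ _ + P _ _)
    ring
  · -- `PL` represents every functional
    intro φ
    classical
    let φ₁ : HomG N ℤ → ℤ := fun x => if h : x ∈ Lpar N then φ (⟨x, h⟩, 0) else 0
    let φ₂ : HomG N ℤ → ℤ := fun x => if h : x ∈ Lpar N then φ (0, ⟨x, h⟩) else 0
    have hφ₁ : ∀ x ∈ Lpar N, ∀ x' ∈ Lpar N, φ₁ (x + x') = φ₁ x + φ₁ x' := by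
      intro x hx x' hx'
      simp only [φ₁, dif_pos hx, dif_pos hx', dif_pos ((Lpar N).add_mem hx hx')]
      rw [← map_add]
      congr 1
    have hφ₂ : ∀ x ∈ Lpar N, ∀ x' ∈ Lpar N, φ₂ (x + x') = φ₂ x + φ₂ x' := by
      intro x hx x' hx'
      simp only [φ₂, dif_pos hx, dif_pos hx', dif_pos ((Lpar N).add_mem hx hx')]
      rw [← map_add]
      congr 1
    obtain ⟨y₁, hy₁, h₁⟩ := hr1 φ₁ hφ₁
    obtain ⟨y₂, hy₂, h₂⟩ := hr1 φ₂ hφ₂
    refine ⟨(⟨y₁, hy₁⟩, ⟨y₂, hy₂⟩), fun x => ?_⟩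
    show P (x.1 : HomG N ℤ) y₁ + P (x.2 : HomG N ℤ) y₂ = φ x
    rw [h₁ _ x.1.2, h₂ _ x.2.2]
    simp only [φ₁, φ₂, dif_pos x.1.2, dif_pos x.2.2]
    rw [← map_add]
    congr 1
    ext <;> simp
  · -- non-degeneracy of `P'L` mod `p`
    intro u hadd hdiv
    have hp0' : (p : ℤ) ≠ 0 := by exact_mod_cast hp0
    have haddP' : ∀ x ∈ Lpar (N * q), ∀ x' ∈ Lpar (N * q),
        P' (x + x') (u : HomG (N * q) ℤ) = P' x u + P' x' u :=
      fun x hx x' hx' => hadd ⟨x, hx⟩ ⟨x', hx'⟩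
    have hdivP' : ∀ x ∈ Lpar (N * q), (p : ℤ) ∣ P' x (u : HomG (N * q) ℤ) :=
      fun x hx => hdiv ⟨x, hx⟩
    let φ : HomG (N * q) ℤ → ℤ := fun w => P' w (u : HomG (N * q) ℤ) / p
    have hφ : ∀ x ∈ Lpar (N * q), ∀ x' ∈ Lpar (N * q), φ (x + x') = φ x + φ x' := by
      intro x hx x' hx'
      show P' (x + x') _ / (p : ℤ) = P' x _ / (p : ℤ) + P' x' _ / (p : ℤ)
      rw [haddP' x hx x' hx', Int.add_ediv_of_dvd_left (hdivP' x hx)]
    obtain ⟨y, hy, hyφ, -⟩ := hr2 φ hφ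
    obtain ⟨y₀, -, -, huniq⟩ := hr2 (fun w => P' w (u : HomG (N * q) ℤ)) haddP'
    have e1 : (u : HomG (N * q) ℤ) = y₀ := huniq _ u.2 (fun x _ => rfl)
    have e2 : p • y = y₀ := by
      apply huniq _ ((Lpar (N * q)).nsmul_mem hy _)
      intro x hx
      rw [asm_nsmul (Lpar (N * q)) (fun z => P' x z) (fun a ha b hb => ha3 x hx a ha b hb) hy,
        hyφ x hx]
      show (p : ℤ) * (P' x _ / (p : ℤ)) = _
      exact Int.mul_ediv_cancel' (hdivP' x hx)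
    refine ⟨⟨y, hy⟩, Subtype.ext ?_⟩
    show (u : HomG (N * q) ℤ) = p • y
    rw [e1, e2]
  · -- adjunction
    intro w y
    show P (cores N q ℤ (w : HomG (N * q) ℤ)) (y.1 : HomG N ℤ)
        + P (coresD N q ℤ (w : HomG (N * q) ℤ)) (y.2 : HomG N ℤ)
      = P' (w : HomG (N * q) ℤ) (res N q ℤ (y.1 : HomG N ℤ) + resD N q ℤ (y.2 : HomG N ℤ))
    rw [hadj1 _ w.2 _ y.1.2, hadj2 _ w.2 _ y.2.2,
      ha3 _ w.2 _ (hres _ y.1.2) _ (hresD _ y.2.2)]
  · -- self-adjointness of `η`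
    intro x y
    have key : ∀ a ∈ Lpar N, ∀ b ∈ Lpar N, P (η₀ a) b = P a (η₀ b) := by
      intro a ha b hb
      rw [hη₀, hη₀,
        asm_sub_nsmul (Lpar N) (fun z => P z b) (hP1 b hb) (hTc a ha) ha,
        asm_sub_nsmul (Lpar N) (fun z => P a z) (hP2 a ha) (hTc b hb) hb, hsa ℓ hN a ha b hb]
    show P (η₀ (x.1 : HomG N ℤ)) (y.1 : HomG N ℤ) + P (η₀ (x.2 : HomG N ℤ)) (y.2 : HomG N ℤ)
      = P (x.1 : HomG N ℤ) (η₀ (y.1 : HomG N ℤ)) + P (x.2 : HomG N ℤ) (η₀ (y.2 : HomG N ℤ))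
    rw [key _ x.1.2 _ y.1.2, key _ x.2.2 _ y.2.2]
  · -- `η` kills the kernel of `α` mod `p`
    rintro y ⟨u', hu'⟩
    have hu'' : res N q ℤ (y.1 : HomG N ℤ) + resD N q ℤ (y.2 : HomG N ℤ)
        = p • (u' : HomG (N * q) ℤ) := by
      have := congrArg (fun z : Lpar (N * q) => (z : HomG (N * q) ℤ)) hu'
      exact this
    have hred : res N q (ZMod p) (asmRed p (y.1 : HomG N ℤ))
        + resD N q (ZMod p) (asmRed p (y.2 : HomG N ℤ)) = 0 := by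
      have e : res N q (ZMod p) (asmRed p (y.1 : HomG N ℤ))
          + resD N q (ZMod p) (asmRed p (y.2 : HomG N ℤ))
          = asmRed p (res N q ℤ (y.1 : HomG N ℤ) + resD N q ℤ (y.2 : HomG N ℤ)) := by
        refine AddMonoidHom.ext fun γ => ?_
        show ((_ : ℤ) : ZMod p) + ((_ : ℤ) : ZMod p) = ((_ + _ : ℤ) : ZMod p)
        rw [Int.cast_add]
        rfl
      rw [e, hu'']
      refine AddMonoidHom.ext fun γ => ?_
      show (((p • (u' : HomG (N * q) ℤ)) γ : ℤ) : ZMod p) = 0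
      rw [AddMonoidHom.smul_apply, nsmul_eq_mul, Int.cast_mul]
      simp
    obtain ⟨hT1, hT2⟩ := hI (asmRed p (y.1 : HomG N ℤ)) (asmRed p (y.2 : HomG N ℤ))
      (asmRed_mem p y.1.2) (asmRed_mem p y.2.2) hred
    have hzero : ∀ z : HomG N ℤ, Tc ℓ hN (asmRed p z) = (ℓ + 1) • asmRed p z →
        asmRed p (η₀ z) = 0 := by
      intro z hz
      have e1 : Tc ℓ hN (asmRed p z) = asmRed p (Tc ℓ hN z) :=
        Fermat.Agent.ES.HeckeP.heckeHom_comp hN (Int.castAddHom (ZMod p)) z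
      rw [e1] at hz
      refine AddMonoidHom.ext fun γ => ?_
      have h2 := DFunLike.congr_fun hz γ
      show (((Tc ℓ hN z - (ℓ + 1) • z) γ : ℤ) : ZMod p) = 0
      rw [AddMonoidHom.sub_apply, AddMonoidHom.smul_apply, Int.cast_sub, sub_eq_zero]
      rw [AddMonoidHom.smul_apply] at h2
      rw [nsmul_eq_mul, Int.cast_mul]
      rw [nsmul_eq_mul] at h2
      push_cast
      push_cast at h2
      exact h2
    obtain ⟨y'₁, hy'₁, e₁⟩ := asm_saturated p hp0 (hη₀mem _ y.1.2) (hzero _ hT1)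
    obtain ⟨y'₂, hy'₂, e₂⟩ := asm_saturated p hp0 (hη₀mem _ y.2.2) (hzero _ hT2)
    refine ⟨(⟨y'₁, hy'₁⟩, ⟨y'₂, hy'₂⟩), ?_⟩
    apply Prod.ext
    · exact Subtype.ext e₁
    · exact Subtype.ext e₂

end main

end Fermat.Agent.S41.PD
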