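import Fermat.Agent.S41.PD.Final
import Fermat.Agent.S41.PD.Assemble

/-!
# S41 R6 (Poincaré duality): the deliverable

`dualIhara : p.Prime → q.Prime → StmtDualIhara N q p` — unconditional.
-/

set_option autoImplicit false

namespace Fermat.Agent.S41.PD

/-- **(DUAL IHARA)**: if `T_ℓ − (ℓ + 1)` kills the parabolic kernel of `α mod p`, then it kills
the cokernel of `α† mod p` on the parabolic lattices (Poincaré duality). -/
theorem dualIhara (N q p : ℕ) [NeZero N] [NeZero q] (hp : p.Prime) (hq : q.Prime) :
    Fermat.Agent.S41.StmtDualIhara N q p :=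
  dualIhara_of_assemble N q p (stmtAssemble N q p) hp hq

end Fermat.Agent.S41.PD
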