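import Fermat.Agent.S41.PD.Defs

/-!
# S41 R6, piece PD-B (part 1): Shapiro's lemma in degree one, explicitly

For `Γ ≤ G`, `Q = G ⧸ Γ`, a section `r : Q → G` and `χ : Γ → R` the function
`shap r χ g q = χ (r(q)⁻¹ g r(g⁻¹ q))` is a cocycle representing `χ`; a cocycle representing `0`
is a coboundary; every cocycle represents a homomorphism.  Also the *cyclic lemma*: if
`c (t ^ m) q = 0` whenever `t ^ m • q = q` then `c t` is a `t`-coboundary.
-/

set_option autoImplicit false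

namespace Fermat.Agent.S41.PD

variable {G : Type*} [Group G] (Γ : Subgroup G) {R : Type*} [AddCommGroup R]

/-- `r` is a section of `G → G ⧸ Γ`. -/
def IsSection (r : G ⧸ Γ → G) : Prop := ∀ q, ((r q : G) : G ⧸ Γ) = q

theorem isSection_out : IsSection Γ (Quotient.out : G ⧸ Γ → G) :=
  fun q => QuotientGroup.out_eq' q

variable {Γ}

theorem IsSection.smul_mk_one {r : G ⧸ Γ → G} (hr : IsSection Γ r) (q : G ⧸ Γ) :
    r q • ((1 : G) : G ⧸ Γ) = q := by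
  conv_rhs => rw [← hr q]
  show (((r q * 1 : G) : G) : G ⧸ Γ) = _
  rw [mul_one]

theorem IsSection.inv_smul {r : G ⧸ Γ → G} (hr : IsSection Γ r) (q : G ⧸ Γ) :
    (r q)⁻¹ • q = ((1 : G) : G ⧸ Γ) := by
  rw [inv_smul_eq_iff, hr.smul_mk_one]

theorem smul_mk_one_of_mem {γ : G} (hγ : γ ∈ Γ) : γ • ((1 : G) : G ⧸ Γ) = ((1 : G) : G ⧸ Γ) := by
  show (((γ * 1 : G) : G) : G ⧸ Γ) = _
  rw [mul_one, QuotientGroup.eq, mul_one]
  exact inv_mem hγ

theorem mem_of_smul_mk_one {γ : G} (h : γ • ((1 : G) : G ⧸ Γ) = ((1 : G) : G ⧸ Γ)) : γ ∈ Γ := by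
  have h' : (((γ * 1 : G) : G) : G ⧸ Γ) = ((1 : G) : G ⧸ Γ) := h
  rw [mul_one, QuotientGroup.eq, mul_one] at h'
  exact inv_mem_iff.1 h'

theorem IsSection.mem {r : G ⧸ Γ → G} (hr : IsSection Γ r) (g : G) (q : G ⧸ Γ) :
    (r q)⁻¹ * g * r (g⁻¹ • q) ∈ Γ := by
  apply mem_of_smul_mk_one
  rw [mul_smul, mul_smul, hr.smul_mk_one, smul_inv_smul, hr.inv_smul]

/-- `k(g, q) = r(q)⁻¹ g r(g⁻¹ q) ∈ Γ`. -/
def kEl {r : G ⧸ Γ → G} (hr : IsSection Γ r) (g : G) (q : G ⧸ Γ) : Γ :=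
  ⟨(r q)⁻¹ * g * r (g⁻¹ • q), hr.mem g q⟩

theorem kEl_coe {r : G ⧸ Γ → G} (hr : IsSection Γ r) (g : G) (q : G ⧸ Γ) :
    (kEl hr g q : G) = (r q)⁻¹ * g * r (g⁻¹ • q) := rfl

theorem kEl_mul {r : G ⧸ Γ → G} (hr : IsSection Γ r) (g h : G) (q : G ⧸ Γ) :
    kEl hr (g * h) q = kEl hr g q * kEl hr h (g⁻¹ • q) := by
  apply Subtype.ext
  rw [Subgroup.coe_mul, kEl_coe, kEl_coe, kEl_coe, mul_inv_rev, mul_smul]
  group

theorem kEl_of_smul_eq {r : G ⧸ Γ → G} (hr : IsSection Γ r) {g : G} {q : G ⧸ Γ}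
    (h : g • q = q) : (kEl hr g q : G) = (r q)⁻¹ * g * r q := by
  have : g⁻¹ • q = q := by rw [inv_smul_eq_iff, h]
  rw [kEl_coe, this]

/-- The Shapiro cocycle of `χ` with respect to the section `r`. -/
def shap {r : G ⧸ Γ → G} (hr : IsSection Γ r) (χ : Additive Γ →+ R) : G → (G ⧸ Γ) → R :=
  fun g q => χ (Additive.ofMul (kEl hr g q))

theorem shap_apply {r : G ⧸ Γ → G} (hr : IsSection Γ r) (χ : Additive Γ →+ R) (g : G)
    (q : G ⧸ Γ) : shap hr χ g q = χ (Additive.ofMul (kEl hr g q)) := rfl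

theorem isCoc_shap {r : G ⧸ Γ → G} (hr : IsSection Γ r) (χ : Additive Γ →+ R) :
    IsCoc (shap hr χ) := by
  intro g h
  funext q
  rw [Pi.add_apply, rho_apply, shap_apply, shap_apply, shap_apply, kEl_mul, ofMul_mul, map_add]

theorem represents_shap {r : G ⧸ Γ → G} (hr : IsSection Γ r) (χ : Additive Γ →+ R) :
    Represents Γ (shap hr χ) χ := by
  refine ⟨isCoc_shap hr χ, fun γ => ?_⟩
  set q₀ : G ⧸ Γ := ((1 : G) : G ⧸ Γ) with hq₀
  have hr₀ : r q₀ ∈ Γ := by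
    apply mem_of_smul_mk_one
    rw [hr.smul_mk_one]
  have hγ : (γ : G) • q₀ = q₀ := smul_mk_one_of_mem γ.2
  have h2 : kEl hr (γ : G) q₀ = (⟨r q₀, hr₀⟩ : Γ)⁻¹ * γ * ⟨r q₀, hr₀⟩ := by
    apply Subtype.ext
    rw [kEl_of_smul_eq hr hγ]
    simp only [Subgroup.coe_mul, Subgroup.coe_inv]
  rw [shap_apply, h2, ofMul_mul, ofMul_mul, ofMul_inv, map_add, map_add, map_neg]
  abel

/-- Shapiro, existence. -/
theorem exists_represents (χ : Additive Γ →+ R) : ∃ c : G → (G ⧸ Γ) → R, Represents Γ c χ :=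
  ⟨shap (isSection_out Γ) χ, represents_shap _ χ⟩

theorem Represents.isCoc {c : G → (G ⧸ Γ) → R} {χ : Additive Γ →+ R} (h : Represents Γ c χ) :
    IsCoc c := h.1

theorem Represents.add {c d : G → (G ⧸ Γ) → R} {χ ψ : Additive Γ →+ R}
    (hc : Represents Γ c χ) (hd : Represents Γ d ψ) : Represents Γ (c + d) (χ + ψ) := by
  refine ⟨hc.1.add hd.1, fun γ => ?_⟩
  rw [Pi.add_apply, Pi.add_apply, hc.2, hd.2, AddMonoidHom.add_apply]

theorem Represents.neg {c : G → (G ⧸ Γ) → R} {χ : Additive Γ →+ R}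
    (hc : Represents Γ c χ) : Represents Γ (-c) (-χ) := by
  refine ⟨hc.1.neg, fun γ => ?_⟩
  rw [Pi.neg_apply, Pi.neg_apply, hc.2, AddMonoidHom.neg_apply]

theorem Represents.sub {c d : G → (G ⧸ Γ) → R} {χ ψ : Additive Γ →+ R}
    (hc : Represents Γ c χ) (hd : Represents Γ d ψ) : Represents Γ (c - d) (χ - ψ) := by
  rw [sub_eq_add_neg, sub_eq_add_neg]
  exact hc.add hd.neg

theorem represents_cobdry (ξ : (G ⧸ Γ) → R) : Represents Γ (cobdry ξ) 0 := by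
  refine ⟨isCoc_cobdry ξ, fun γ => ?_⟩
  have hγ : ((γ : G))⁻¹ • ((1 : G) : G ⧸ Γ) = ((1 : G) : G ⧸ Γ) :=
    smul_mk_one_of_mem (inv_mem γ.2)
  rw [cobdry_apply, Pi.sub_apply, rho_apply, hγ, sub_self, AddMonoidHom.zero_apply]

theorem Represents.add_cobdry {c : G → (G ⧸ Γ) → R} {χ : Additive Γ →+ R}
    (hc : Represents Γ c χ) (ξ : (G ⧸ Γ) → R) : Represents Γ (c + cobdry ξ) χ := by
  have := hc.add (represents_cobdry ξ)
  rwa [add_zero] at this

/-- Shapiro, injectivity: a cocycle representing `0` is a coboundary. -/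
theorem Represents.exists_cobdry_of_zero {c : G → (G ⧸ Γ) → R}
    (hc : Represents Γ c (0 : Additive Γ →+ R)) : ∃ ξ : (G ⧸ Γ) → R, c = cobdry ξ := by
  obtain ⟨hcoc, h0⟩ := hc
  have hr := isSection_out Γ
  set r : G ⧸ Γ → G := Quotient.out with hrdef
  refine ⟨fun q => -c (r q) q, ?_⟩
  funext h q
  rw [cobdry_apply, Pi.sub_apply, rho_apply]
  -- `h⁻¹ r(q) = r(h⁻¹ q) γ`
  have hmem : (r (h⁻¹ • q))⁻¹ * h⁻¹ * r q ∈ Γ := by
    apply mem_of_smul_mk_one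
    rw [mul_smul, mul_smul, hr.smul_mk_one, hr.inv_smul]
  set γ : Γ := ⟨(r (h⁻¹ • q))⁻¹ * h⁻¹ * r q, hmem⟩ with hγ
  have e1 : h⁻¹ * r q = r (h⁻¹ • q) * (γ : G) := by
    rw [hγ]; simp only; group
  have e2 : c (h⁻¹ * r q) (h⁻¹ • q) = c (r (h⁻¹ • q)) (h⁻¹ • q) := by
    rw [e1, hcoc, Pi.add_apply, rho_apply, hr.inv_smul, h0 γ, AddMonoidHom.zero_apply, add_zero]
  have e3 : c (h⁻¹ * r q) (h⁻¹ • q) = c h⁻¹ (h⁻¹ • q) + c (r q) q := by
    rw [hcoc, Pi.add_apply, rho_apply, inv_inv, smul_inv_smul]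
  have e4 : c h⁻¹ (h⁻¹ • q) = -c h q := by
    rw [hcoc.map_inv, Pi.neg_apply, rho_apply, inv_inv, smul_inv_smul]
  rw [← e2, e3, e4]
  abel

/-- Two cocycles representing the same homomorphism differ by a coboundary. -/
theorem Represents.exists_cobdry {c d : G → (G ⧸ Γ) → R} {χ : Additive Γ →+ R}
    (hc : Represents Γ c χ) (hd : Represents Γ d χ) :
    ∃ ξ : (G ⧸ Γ) → R, d = c + cobdry ξ := by
  have h := hd.sub hc
  rw [sub_self] at h
  obtain ⟨ξ, hξ⟩ := h.exists_cobdry_of_zero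
  exact ⟨ξ, by rw [← hξ]; abel⟩

/-- Every cocycle represents a homomorphism. -/
theorem IsCoc.exists_represents {c : G → (G ⧸ Γ) → R} (hc : IsCoc c) :
    ∃ χ : Additive Γ →+ R, Represents Γ c χ := by
  refine ⟨⟨⟨fun γ => c ((Additive.toMul γ : Γ) : G) ((1 : G) : G ⧸ Γ), ?_⟩, ?_⟩, hc, fun γ => rfl⟩
  · show c ((1 : Γ) : G) _ = 0
    rw [Subgroup.coe_one, hc.map_one, Pi.zero_apply]
  · intro γ δ
    show c (((Additive.toMul γ * Additive.toMul δ : Γ) : Γ) : G) _ = _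
    rw [Subgroup.coe_mul, hc, Pi.add_apply, rho_apply,
      smul_mk_one_of_mem (inv_mem (Additive.toMul γ).2)]

/-- A representing cocycle determines the homomorphism. -/
theorem Represents.unique {c : G → (G ⧸ Γ) → R} {χ ψ : Additive Γ →+ R}
    (h1 : Represents Γ c χ) (h2 : Represents Γ c ψ) : χ = ψ := by
  refine AddMonoidHom.ext fun γ => ?_
  obtain ⟨γ, rfl⟩ : ∃ γ' : Γ, Additive.ofMul γ' = γ := ⟨Additive.toMul γ, rfl⟩
  rw [← h1.2, ← h2.2]

section Cyclic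

variable {Q : Type*} [MulAction G Q]

theorem IsCoc.map_zpow_smul_fixed {c : G → Q → R} (hc : IsCoc c) (t : G)
    (hfix : ∀ (m : ℤ) (q : Q), t ^ m • q = q → c (t ^ m) q = 0) {i j : ℤ} {q₁ : Q}
    (h : t ^ i • q₁ = t ^ j • q₁) : c (t ^ i) (t ^ i • q₁) = c (t ^ j) (t ^ j • q₁) := by
  have hfx : t ^ (i - j) • q₁ = q₁ := by
    have h1 : t ^ (i - j) • q₁ = (t ^ j)⁻¹ • (t ^ i • q₁) := by
      rw [← mul_smul, ← zpow_neg, ← zpow_add]
      congr 2
      ring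
    rw [h1, h, inv_smul_smul]
  have e : t ^ i = t ^ j * t ^ (i - j) := by
    rw [← zpow_add]; congr 1; ring
  have h2 : c (t ^ i) (t ^ i • q₁) =
      c (t ^ j) (t ^ i • q₁) + c (t ^ (i - j)) ((t ^ j)⁻¹ • (t ^ i • q₁)) := by
    have h3 := congrFun (hc (t ^ j) (t ^ (i - j))) (t ^ i • q₁)
    rw [← e] at h3
    exact h3
  rw [h2, h, inv_smul_smul, hfix _ _ hfx, add_zero]

/-- The cyclic lemma: if the cocycle `c` vanishes at `(t ^ m, q)` whenever `t ^ m` fixes `q`,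
then `c t` is a `t`-coboundary. -/
theorem IsCoc.exists_cobdry_at {c : G → Q → R} (hc : IsCoc c) (t : G)
    (hfix : ∀ (m : ℤ) (q : Q), t ^ m • q = q → c (t ^ m) q = 0) :
    ∃ ξ : Q → R, c t + (rho t ξ - ξ) = 0 := by
  classical
  -- the orbit relation of `⟨t⟩`
  let s : Setoid Q :=
    { r := fun a b => ∃ m : ℤ, t ^ m • b = a
      iseqv :=
        { refl := fun a => ⟨0, by simp⟩
          symm := by
            rintro a b ⟨m, hm⟩
            refine ⟨-m, ?_⟩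
            rw [← hm, ← mul_smul, ← zpow_add]
            simp
          trans := by
            rintro a b d ⟨m, hm⟩ ⟨n, hn⟩
            refine ⟨m + n, ?_⟩
            rw [zpow_add, mul_smul, hn, hm] } }
  let rep : Q → Q := fun q => (Quotient.mk s q).out
  have hrep : ∀ q, ∃ m : ℤ, t ^ m • rep q = q := by
    intro q
    have h : s.r (rep q) q := Quotient.mk_out (s := s) q
    obtain ⟨m, hm⟩ := h
    refine ⟨-m, ?_⟩
    rw [← hm, ← mul_smul, ← zpow_add]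
    simp
  have hrep_t : ∀ q, rep (t⁻¹ • q) = rep q := by
    intro q
    have : Quotient.mk s (t⁻¹ • q) = Quotient.mk s q :=
      Quotient.sound ⟨-1, by simp⟩
    show (Quotient.mk s (t⁻¹ • q)).out = (Quotient.mk s q).out
    rw [this]
  choose j hj using hrep
  refine ⟨fun q => c (t ^ j q) q, ?_⟩
  funext q
  rw [Pi.add_apply, Pi.sub_apply, rho_apply, Pi.zero_apply]
  -- `q₁ = rep q`, `t ^ (j q) q₁ = q`, `t ^ (j' + 1) q₁ = q`
  have h1 : t ^ (j (t⁻¹ • q) + 1) • rep q = q := by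
    have h := hj (t⁻¹ • q)
    rw [hrep_t] at h
    rw [add_comm, zpow_add, zpow_one, mul_smul, h, smul_inv_smul]
  have h2 : c (t ^ j q) (t ^ j q • rep q) =
      c (t ^ (j (t⁻¹ • q) + 1)) (t ^ (j (t⁻¹ • q) + 1) • rep q) :=
    hc.map_zpow_smul_fixed t hfix ((hj q).trans h1.symm)
  rw [hj q, h1] at h2
  have h3 : c (t ^ (j (t⁻¹ • q) + 1)) q = c t q + c (t ^ j (t⁻¹ • q)) (t⁻¹ • q) := by
    have h4 := congrFun (hc t (t ^ j (t⁻¹ • q))) q
    rw [← zpow_one_add, add_comm] at h4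
    exact h4
  rw [h2, h3]
  abel

end Cyclic

end Fermat.Agent.S41.PD
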