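import Fermat.Agent.S41.PD.CocExt
import Fermat.Agent.S41.PD.Shapiro

/-!
# S41 R6, piece PD-F: the cup product `x ∪ y` is a coboundary on `Γ` (over `ℚ`)

`stmtBetaEx : StmtBetaEx`: for `x y : Γ → ℚ` there is `β : Γ → ℚ` with
`β (γ γ') = β γ + β γ' - x γ · y γ'`.

Proof.  Let `a`, `b` be Shapiro cocycles `SL(2, ℤ) → M`, `M = (Q → ℚ)`, representing `x`, `y`.
On `M × M` let `g ⋆ (t, v) = (ρ(g) t + a(g) · ρ(g) v, ρ(g) v)`.  The cocycle extension (PD-A2) gives
a `⋆`-cocycle `C` with `C S = (½ a_S b_S, b_S)`, `C U = (-⅓ w, b_U)`,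
`w = a_U · U b_U + U a_U · U² b_U + a_U · U² b_U`.  Its second component is `b` (`S`, `U` generate),
so `τ := - C₁` satisfies `τ (g h) = τ g + ρ(g) τ h - a(g) · ρ(g) b(h)`, and `β γ := τ γ q₀`.
-/

set_option autoImplicit false

namespace Fermat.Agent.S41.PD

open scoped MatrixGroups
open ModularGroup (S T)

section Twist

variable {Γ : Subgroup SL(2, ℤ)}

/-- The twisted action of `g` on `M × M`. -/
def pdfTw (a : SL(2, ℤ) → (SL(2, ℤ) ⧸ Γ) → ℚ) (g : SL(2, ℤ)) :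
    AddMonoid.End (((SL(2, ℤ) ⧸ Γ) → ℚ) × ((SL(2, ℤ) ⧸ Γ) → ℚ)) where
  toFun p := (rho g p.1 + a g * rho g p.2, rho g p.2)
  map_zero' := by
    ext q <;> simp
  map_add' p p' := by
    ext q
    · simp only [Prod.fst_add, Prod.snd_add, Pi.add_apply, Pi.mul_apply, rho_apply]
      ring
    · simp only [Prod.snd_add, Pi.add_apply, rho_apply]

@[simp] theorem pdfTw_apply (a : SL(2, ℤ) → (SL(2, ℤ) ⧸ Γ) → ℚ) (g : SL(2, ℤ))
    (p : ((SL(2, ℤ) ⧸ Γ) → ℚ) × ((SL(2, ℤ) ⧸ Γ) → ℚ)) :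
    pdfTw a g p = (rho g p.1 + a g * rho g p.2, rho g p.2) := rfl

/-- The twisted representation on `M × M` attached to a cocycle `a`. -/
def pdfRep (a : SL(2, ℤ) → (SL(2, ℤ) ⧸ Γ) → ℚ) (ha : IsCoc a) :
    SL(2, ℤ) →* AddMonoid.End (((SL(2, ℤ) ⧸ Γ) → ℚ) × ((SL(2, ℤ) ⧸ Γ) → ℚ)) where
  toFun := pdfTw a
  map_one' := by
    ext p q
    · simp [ha.map_one]
    · simp
  map_mul' g h := by
    ext p q
    · show (rho (g * h) p.1 + a (g * h) * rho (g * h) p.2) q =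
        (rho g (rho h p.1 + a h * rho h p.2) + a g * rho g (rho h p.2)) q
      rw [ha g h, rho_mul, rho_mul]
      simp only [Pi.add_apply, Pi.mul_apply, rho_apply]
      ring
    · show rho (g * h) p.2 q = rho g (rho h p.2) q
      rw [rho_mul]

@[simp] theorem pdfRep_apply (a : SL(2, ℤ) → (SL(2, ℤ) ⧸ Γ) → ℚ) (ha : IsCoc a) (g : SL(2, ℤ))
    (p : ((SL(2, ℤ) ⧸ Γ) → ℚ) × ((SL(2, ℤ) ⧸ Γ) → ℚ)) :
    pdfRep a ha g p = (rho g p.1 + a g * rho g p.2, rho g p.2) := rfl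

/-- Two cocycles which agree at `S` and `U` are equal. -/
theorem pdf_coc_ext {b b' : SL(2, ℤ) → (SL(2, ℤ) ⧸ Γ) → ℚ} (hb : IsCoc b) (hb' : IsCoc b')
    (hS : b' S = b S) (hU : b' U = b U) (g : SL(2, ℤ)) : b' g = b g := by
  have hg : g ∈ Subgroup.closure ({S, T} : Set SL(2, ℤ)) := by
    rw [SpecialLinearGroup.SL2Z_generators]
    exact Subgroup.mem_top g
  induction hg using Subgroup.closure_induction with
  | mem x hx =>
    rcases hx with rfl | rfl
    · exact hS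
    · have hT : T = S⁻¹ * U := by rw [U_def, inv_mul_cancel_left]
      rw [hT, hb, hb', hb.map_inv, hb'.map_inv, hS, hU]
  | one => rw [hb.map_one, hb'.map_one]
  | mul x y _ _ hx hy => rw [hb, hb', hx, hy]
  | inv x _ hx => rw [hb.map_inv, hb'.map_inv, hx]

/-- The twisted cochain: `τ (g h) = τ g + ρ(g) τ h - a(g) · ρ(g) b(h)`. -/
theorem pdf_exists_tau (hneg : (-1 : SL(2, ℤ)) ∈ Γ)
    {a b : SL(2, ℤ) → (SL(2, ℤ) ⧸ Γ) → ℚ} (ha : IsCoc a) (hb : IsCoc b)
    (ha1 : a (-1) = 0) (hb1 : b (-1) = 0) :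
    ∃ τ : SL(2, ℤ) → (SL(2, ℤ) ⧸ Γ) → ℚ,
      ∀ g h, τ (g * h) = τ g + rho g (τ h) - a g * rho g (b h) := by
  -- the data at `S`
  have haS : a S + rho S (a S) = 0 := ha.map_S_add ha1
  have hbS : b S + rho S (b S) = 0 := hb.map_S_add hb1
  -- the data at `U`
  have haU : a U + rho U (a U) + rho U (rho U (a U)) = 0 := ha.map_U_add ha1
  have hbU : b U + rho U (b U) + rho U (rho U (b U)) = 0 := hb.map_U_add hb1
  have haU3 : rho U (rho U (rho U (a U))) = a U := rho_U_rho_U_rho_U hneg _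
  have hbU3 : rho U (rho U (rho U (b U))) = b U := rho_U_rho_U_rho_U hneg _
  set w : (SL(2, ℤ) ⧸ Γ) → ℚ :=
    a U * rho U (b U) + rho U (a U) * rho U (rho U (b U)) + a U * rho U (rho U (b U)) with hw
  have hUw' : rho U w = rho U (a U) * rho U (rho U (b U)) +
      rho U (rho U (a U)) * rho U (rho U (rho U (b U))) +
      rho U (a U) * rho U (rho U (rho U (b U))) := rfl
  have hwU : rho U w = w := by
    rw [hUw', hbU3, hw]
    funext q
    have h1 := congrFun haU q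
    have h2 := congrFun hbU q
    simp only [Pi.add_apply, Pi.mul_apply, Pi.zero_apply] at h1 h2 ⊢
    linear_combination (b U q) * h1 - (a U q) * h2
  set τS : (SL(2, ℤ) ⧸ Γ) → ℚ := fun q => a S q * b S q / 2 with hτS
  set τU : (SL(2, ℤ) ⧸ Γ) → ℚ := fun q => -(w q) / 3 with hτU
  have hUτU : rho U τU = τU := by
    funext q
    have := congrFun hwU q
    simp only [rho_apply] at this
    simp only [hτU, rho_apply, this]
  have hSτS : rho S τS = fun q => rho S (a S) q * rho S (b S) q / 2 := rfl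
  obtain ⟨C, hC, hCS, hCU⟩ := stmtCocExt
    (((SL(2, ℤ) ⧸ Γ) → ℚ) × ((SL(2, ℤ) ⧸ Γ) → ℚ)) (pdfRep a ha)
    (by
      ext p q
      · simp [ha1, rho_neg_one hneg]
      · simp [rho_neg_one hneg])
    (τS, b S) (τU, b U)
    (by
      ext q
      · show (τS + (rho S τS + a S * rho S (b S))) q = 0
        rw [hSτS]
        have h1 := congrFun haS q
        have h2 := congrFun hbS q
        simp only [Pi.add_apply, Pi.mul_apply, Pi.zero_apply] at h1 h2 ⊢
        have e1 : rho S (a S) q = -(a S q) := by linarith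
        have e2 : rho S (b S) q = -(b S q) := by linarith
        rw [e1, e2, hτS]
        ring
      · show (b S + rho S (b S)) q = 0
        rw [hbS]
        rfl)
    (by
      ext q
      · show (τU + (rho U τU + a U * rho U (b U)) +
          (rho U (rho U τU + a U * rho U (b U)) + a U * rho U (rho U (b U)))) q = 0
        have e1 : rho U (rho U τU + a U * rho U (b U)) =
            τU + rho U (a U) * rho U (rho U (b U)) := by
          rw [rho_add, rho_mul_fun, hUτU, hUτU]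
        rw [e1, hUτU]
        simp only [Pi.add_apply, Pi.mul_apply, hτU, hw]
        ring
      · show (b U + rho U (b U) + rho U (rho U (b U))) q = 0
        rw [hbU]
        rfl)
  -- the second component is `b`
  have hC2 : IsCoc fun g => (C g).2 := by
    intro g h
    show (C (g * h)).2 = (C g).2 + rho g (C h).2
    rw [hC g h]
    rfl
  have hCb : ∀ g, (C g).2 = b g := by
    intro g
    refine pdf_coc_ext hb hC2 ?_ ?_ g
    · show (C S).2 = b S
      rw [hCS]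
    · show (C U).2 = b U
      rw [hCU]
  refine ⟨fun g => -(C g).1, fun g h => ?_⟩
  have h1 : (C (g * h)).1 = (C g).1 + (rho g (C h).1 + a g * rho g (C h).2) := by
    rw [hC g h]
    rfl
  show -(C (g * h)).1 = -(C g).1 + rho g (-(C h).1) - a g * rho g (b h)
  rw [h1, hCb h, rho_neg]
  abel

end Twist

/-- **PD-F.** -/
theorem stmtBetaEx : StmtBetaEx := by
  intro Γ _ hneg x y
  obtain ⟨a, ha⟩ := exists_represents x
  obtain ⟨b, hb⟩ := exists_represents y
  have hx1 : x (Additive.ofMul (⟨-1, hneg⟩ : Γ)) = 0 := by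
    have h2 : (⟨-1, hneg⟩ : Γ) * ⟨-1, hneg⟩ = 1 := by
      ext1
      simp
    have h3 : x (Additive.ofMul (⟨-1, hneg⟩ : Γ)) + x (Additive.ofMul (⟨-1, hneg⟩ : Γ)) = 0 := by
      rw [← map_add, ← ofMul_mul, h2, ofMul_one, map_zero]
    linarith
  have hy1 : y (Additive.ofMul (⟨-1, hneg⟩ : Γ)) = 0 := by
    have h2 : (⟨-1, hneg⟩ : Γ) * ⟨-1, hneg⟩ = 1 := by
      ext1
      simp
    have h3 : y (Additive.ofMul (⟨-1, hneg⟩ : Γ)) + y (Additive.ofMul (⟨-1, hneg⟩ : Γ)) = 0 := by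
      rw [← map_add, ← ofMul_mul, h2, ofMul_one, map_zero]
    linarith
  have ha1 : a (-1) = 0 := ha.map_neg_one hneg hx1
  have hb1 : b (-1) = 0 := hb.map_neg_one hneg hy1
  obtain ⟨τ, hτ⟩ := pdf_exists_tau hneg ha.1 hb.1 ha1 hb1
  refine ⟨fun γ => τ (γ : SL(2, ℤ)) ((1 : SL(2, ℤ)) : SL(2, ℤ) ⧸ Γ), fun γ γ' => ?_⟩
  have hfix : (γ : SL(2, ℤ))⁻¹ • (((1 : SL(2, ℤ)) : SL(2, ℤ) ⧸ Γ)) =
      ((1 : SL(2, ℤ)) : SL(2, ℤ) ⧸ Γ) := by
    rw [inv_smul_eq_iff]
    exact (smul_mk_one_of_mem γ.2).symm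
  show τ ((γ : SL(2, ℤ)) * (γ' : SL(2, ℤ))) _ = _
  rw [hτ]
  simp only [Pi.add_apply, Pi.sub_apply, Pi.mul_apply, rho_apply, hfix]
  rw [ha.2 γ, hb.2 γ']

end Fermat.Agent.S41.PD
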