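import Fermat.Agent.S41.PD.UP

/-!
# S41 R6, piece PD-A2: cocycle extension

A cocycle `c : SL(2, ℤ) → M` for `ρ` is the same as the homomorphism
`g ↦ ((m, n) ↦ (ρ(g) m + n • c(g), n))` into `Aut(M × ℤ)`; so the universal property PD-A1 gives
cocycles with prescribed values at `S` and `U`.
-/

set_option autoImplicit false

namespace Fermat.Agent.S41.PD

open scoped MatrixGroups
open ModularGroup (S T)

section aff

variable {M : Type*} [AddCommGroup M]

/-- the affine map `(m, n) ↦ (A m + n • c, n)` of `M × ℤ` -/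
def aff (A : AddMonoid.End M) (c : M) : AddMonoid.End (M × ℤ) where
  toFun x := (A x.1 + x.2 • c, x.2)
  map_zero' := by simp
  map_add' x y := by
    ext
    · simp only [Prod.fst_add, Prod.snd_add, map_add, add_smul]
      abel
    · simp

theorem end_mul_apply (A B : AddMonoid.End M) (m : M) : (A * B) m = A (B m) := rfl

@[simp] theorem aff_apply (A : AddMonoid.End M) (c : M) (x : M × ℤ) :
    aff A c x = (A x.1 + x.2 • c, x.2) := rfl

theorem aff_mul (A B : AddMonoid.End M) (c d : M) : aff A c * aff B d = aff (A * B) (c + A d) := by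
  ext x
  · simp only [end_mul_apply, aff_apply, map_add, map_zsmul, smul_add]
    abel
  · simp [end_mul_apply]

theorem aff_one : aff (1 : AddMonoid.End M) 0 = 1 := by
  ext x <;> simp

theorem aff_snd_eq {A B : AddMonoid.End M} {c d : M} (h : aff A c = aff B d) : c = d := by
  have := congrArg (fun f : AddMonoid.End (M × ℤ) => (f (0, 1)).1) h
  simpa using this

end aff

/-- **PD-A2**: cocycle extension. -/
theorem exists_cocycle_of_UP (hUP : StmtUP) (M : Type) [AddCommGroup M]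
    (ρ : SL(2, ℤ) →* AddMonoid.End M) (hneg : ρ (-1) = 1) (cS cU : M)
    (hS : cS + ρ S cS = 0) (hU : cU + ρ U cU + ρ U (ρ U cU) = 0) :
    ∃ c : SL(2, ℤ) → M, (∀ g h, c (g * h) = c g + ρ g (c h)) ∧ c S = cS ∧ c U = cU := by
  have eS : aff (ρ S) cS * aff (ρ S) cS = 1 := by
    rw [aff_mul, ← map_mul, S_mul_S, hneg, hS, aff_one]
  have eU : aff (ρ U) cU * aff (ρ U) cU * aff (ρ U) cU = 1 := by
    rw [aff_mul, aff_mul, ← map_mul, ← map_mul, U_mul_U_mul_U, hneg]
    have : cU + ρ U cU + (ρ (U * U)) cU = 0 := by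
      rw [map_mul, end_mul_apply]; exact hU
    rw [this, aff_one]
  let s : (AddMonoid.End (M × ℤ))ˣ := ⟨aff (ρ S) cS, aff (ρ S) cS, eS, eS⟩
  let u : (AddMonoid.End (M × ℤ))ˣ :=
    ⟨aff (ρ U) cU, aff (ρ U) cU * aff (ρ U) cU, by rw [← mul_assoc]; exact eU, eU⟩
  have hs : s ^ 2 = 1 := by
    apply Units.ext
    rw [Units.val_pow_eq_pow_val, pow_two]
    exact eS
  have hu : u ^ 3 = 1 := by
    apply Units.ext
    rw [Units.val_pow_eq_pow_val]
    have : (u : AddMonoid.End (M × ℤ)) ^ 3 = aff (ρ U) cU * aff (ρ U) cU * aff (ρ U) cU := by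
      simp only [pow_succ, pow_zero, one_mul]
      rfl
    rw [this]
    exact eU
  obtain ⟨φ, hφS, hφU⟩ := hUP _ s u hs hu
  -- every `φ g` is affine over `ρ g`
  have haff : ∀ g : SL(2, ℤ), ∃ c : M, (φ g : AddMonoid.End (M × ℤ)) = aff (ρ g) c := by
    intro g
    have hg : g ∈ Subgroup.closure ({S, T} : Set SL(2, ℤ)) := by
      rw [SpecialLinearGroup.SL2Z_generators]
      exact Subgroup.mem_top g
    have hinv : ∀ x : SL(2, ℤ), (∃ c : M, (φ x : AddMonoid.End (M × ℤ)) = aff (ρ x) c) →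
        ∃ c : M, (φ x⁻¹ : AddMonoid.End (M × ℤ)) = aff (ρ x⁻¹) c := by
      rintro x ⟨c, hc⟩
      refine ⟨-ρ x⁻¹ c, ?_⟩
      rw [map_inv]
      have h1 : (φ x : AddMonoid.End (M × ℤ)) * aff (ρ x⁻¹) (-ρ x⁻¹ c) = 1 := by
        rw [hc, aff_mul, ← map_mul, mul_inv_cancel, map_one, map_neg,
          ← end_mul_apply, ← map_mul, mul_inv_cancel, map_one]
        have : c + -((1 : AddMonoid.End M) c) = 0 := by
          show c + -c = 0
          abel
        rw [this, aff_one]
      exact Units.inv_eq_of_mul_eq_one_right h1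
    have hmul : ∀ x y : SL(2, ℤ), (∃ c : M, (φ x : AddMonoid.End (M × ℤ)) = aff (ρ x) c) →
        (∃ c : M, (φ y : AddMonoid.End (M × ℤ)) = aff (ρ y) c) →
        ∃ c : M, (φ (x * y) : AddMonoid.End (M × ℤ)) = aff (ρ (x * y)) c := by
      rintro x y ⟨c, hc⟩ ⟨d, hd⟩
      exact ⟨c + ρ x d, by rw [map_mul, Units.val_mul, hc, hd, aff_mul, map_mul]⟩
    have hSaff : ∃ c : M, (φ S : AddMonoid.End (M × ℤ)) = aff (ρ S) c := ⟨cS, by rw [hφS]⟩
    have hUaff : ∃ c : M, (φ U : AddMonoid.End (M × ℤ)) = aff (ρ U) c := ⟨cU, by rw [hφU]⟩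
    induction hg using Subgroup.closure_induction with
    | mem x hx =>
      rcases hx with rfl | rfl
      · exact hSaff
      · have hT : T = S⁻¹ * U := by rw [U]; group
        rw [hT]
        exact hmul _ _ (hinv _ hSaff) hUaff
    | one => exact ⟨0, by rw [map_one, map_one, aff_one]; rfl⟩
    | mul x y _ _ hx hy => exact hmul x y hx hy
    | inv x _ hx => exact hinv x hx
  choose c hc using haff
  refine ⟨c, ?_, ?_, ?_⟩
  · intro g h
    have h1 : (φ (g * h) : AddMonoid.End (M × ℤ)) = aff (ρ (g * h)) (c g + ρ g (c h)) := by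
      rw [map_mul, Units.val_mul, hc g, hc h, aff_mul, map_mul]
    exact aff_snd_eq ((hc (g * h)).symm.trans h1)
  · have h1 : (φ S : AddMonoid.End (M × ℤ)) = aff (ρ S) cS := by rw [hφS]
    exact aff_snd_eq ((hc S).symm.trans h1)
  · have h1 : (φ U : AddMonoid.End (M × ℤ)) = aff (ρ U) cU := by rw [hφU]
    exact aff_snd_eq ((hc U).symm.trans h1)

theorem stmtCocExt : StmtCocExt := fun M _ ρ hneg cS cU hS hU =>
  exists_cocycle_of_UP stmtUP M ρ hneg cS cU hS hU

end Fermat.Agent.S41.PD
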