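import Fermat.Agent.S41.PD.Plan
import Fermat.Agent.S41.PD.Pairing

/-!
# S41 R6, piece PD-I (first half): the pairing is invariant under conjugation by `diag(ℓ, 1)`

`pairFun_conj`: for `cδ : Γ₀ ≃* Γ₀'` the conjugation by `δ = diag(ℓ, 1)` and parabolic
`x', y' : Γ₀' → ℤ`, `[x' ∘ cδ, y' ∘ cδ]_{Γ₀} = [x', y']_{Γ₀'}`.

Proof: over `ℚ` choose `β'` on `Γ₀'` with `β'(γγ') = β'(γ) + β'(γ') − x'(γ) y'(γ')` (PD-F); then
`β = β' ∘ cδ` does the same job for `x' ∘ cδ`, `y' ∘ cδ`; by the intrinsic formula (PD-G) the two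
pairings are the normalised cusp sums of `β`, `β'`, and these agree (PD-E) because `β'` is a
class function and homogeneous on elements of trace `2`.
-/

set_option autoImplicit false

namespace Fermat.Agent.S41.PD

open scoped MatrixGroups
open ModularGroup (S T)
open ModularCurve.Period (IsParabolicHom)
open Matrix

section cast

variable {Γ : Subgroup SL(2, ℤ)}

/-- the homomorphism `Γ → ℤ → ℚ`. -/
def castQ (x : Additive Γ →+ ℤ) : Additive Γ →+ ℚ := (Int.castAddHom ℚ).comp x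

@[simp] theorem castQ_apply (x : Additive Γ →+ ℤ) (γ : Additive Γ) : castQ x γ = (x γ : ℚ) := rfl

theorem isParabolicHom_castQ {x : Additive Γ →+ ℤ} (hx : IsParabolicHom Γ x) :
    IsParabolicHom Γ (castQ x) := by
  intro γ hγ
  rw [castQ_apply, hx γ hγ, Int.cast_zero]

theorem IsCoc.castQ {G : Type*} [Group G] {Q : Type*} [MulAction G Q] {c : G → Q → ℤ}
    (hc : IsCoc c) : IsCoc (fun g q => (c g q : ℚ)) := by
  intro g h
  funext q
  have := congrFun (hc g h) q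
  simp only [Pi.add_apply, rho_apply] at this ⊢
  rw [this, Int.cast_add]

theorem Represents.castQ {c : SL(2, ℤ) → (SL(2, ℤ) ⧸ Γ) → ℤ} {x : Additive Γ →+ ℤ}
    (h : Represents Γ c x) : Represents Γ (fun g q => (c g q : ℚ)) (PD.castQ x) :=
  ⟨h.1.castQ, fun γ => by rw [castQ_apply, ← h.2 γ]⟩

theorem IsPairing.castQ [Fintype (SL(2, ℤ) ⧸ Γ)] {x y : Additive Γ →+ ℤ} {v : ℤ}
    (h : IsPairing Γ x y v) : IsPairing Γ (PD.castQ x) (PD.castQ y) (v : ℚ) := by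
  obtain ⟨a, b, ha, haU, hb, hbT, hv⟩ := h
  refine ⟨fun g q => (a g q : ℚ), fun g q => (b g q : ℚ), ha.castQ, ?_, hb.castQ, ?_, ?_⟩
  · funext q
    show ((a U q : ℤ) : ℚ) = 0
    rw [haU]; simp
  · funext q
    show ((b T q : ℤ) : ℚ) = 0
    rw [hbT]; simp
  · have := congrArg (Int.cast : ℤ → ℚ) hv
    push_cast at this
    exact this

end cast

section beta

variable {Γ : Subgroup SL(2, ℤ)} {x y : Additive Γ →+ ℚ} {β : Γ → ℚ}

theorem beta_one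
    (hβ : ∀ γ γ' : Γ, β (γ * γ') = β γ + β γ' - x (Additive.ofMul γ) * y (Additive.ofMul γ')) :
    β 1 = 0 := by
  have h := hβ 1 1
  rw [mul_one, ofMul_one, map_zero, zero_mul, sub_zero] at h
  linarith

theorem beta_pow
    (hβ : ∀ γ γ' : Γ, β (γ * γ') = β γ + β γ' - x (Additive.ofMul γ) * y (Additive.ofMul γ'))
    (hy : IsParabolicHom Γ y) (c : Γ)
    (hc : ((c : SL(2, ℤ)) : Matrix (Fin 2) (Fin 2) ℤ).trace = 2) (k : ℕ) :
    β (c ^ k) = k * β c := by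
  have hyc : y (Additive.ofMul c) = 0 := hy c (by rw [hc]; norm_num)
  induction k with
  | zero => rw [pow_zero, beta_one hβ]; simp
  | succ k ih =>
    rw [pow_succ, hβ, ih, hyc]
    push_cast
    ring

theorem beta_conj
    (hβ : ∀ γ γ' : Γ, β (γ * γ') = β γ + β γ' - x (Additive.ofMul γ) * y (Additive.ofMul γ'))
    (hx : IsParabolicHom Γ x) (hy : IsParabolicHom Γ y) (γ c : Γ)
    (hc : ((c : SL(2, ℤ)) : Matrix (Fin 2) (Fin 2) ℤ).trace = 2) :
    β (γ * c * γ⁻¹) = β c := by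
  have hxc : x (Additive.ofMul c) = 0 := hx c (by rw [hc]; norm_num)
  have hyc : y (Additive.ofMul c) = 0 := hy c (by rw [hc]; norm_num)
  have h1 := hβ (γ * c) γ⁻¹
  have h2 := hβ γ c
  have h3 := hβ γ γ⁻¹
  rw [mul_inv_cancel, beta_one hβ] at h3
  rw [h1, h2]
  simp only [ofMul_mul, ofMul_inv, map_add, map_neg, hxc, hyc] at h3 ⊢
  linarith

end beta

/-- Some positive power of `T` lies in all conjugates of a subgroup of finite index. -/
theorem exists_pow_T_mem (Γ : Subgroup SL(2, ℤ)) [Γ.FiniteIndex] :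
    ∃ n : ℕ, 0 < n ∧ ∀ g : SL(2, ℤ), g⁻¹ * T ^ n * g ∈ Γ := by
  haveI : Γ.normalCore.FiniteIndex := inferInstance
  refine ⟨Γ.normalCore.index, Nat.pos_of_ne_zero Subgroup.FiniteIndex.index_ne_zero, fun g => ?_⟩
  have h1 : T ^ Γ.normalCore.index ∈ Γ.normalCore := Subgroup.pow_index_mem _ _
  have h2 := (inferInstance : Γ.normalCore.Normal).conj_mem _ h1 g⁻¹
  rw [inv_inv] at h2
  exact Γ.normalCore_le h2

section main

variable (ℓ : ℕ) (Γ₀ Γ₀' : Subgroup SL(2, ℤ)) [Fintype (SL(2, ℤ) ⧸ Γ₀)]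
  [Fintype (SL(2, ℤ) ⧸ Γ₀')]

/-- **Conjugation invariance** of the pairing. -/
theorem pairFun_conj (hB : StmtBetaEx) (hI : StmtIntrinsic) (hC : StmtCuspConj)
    (hℓ : ℓ.Prime) (hneg : (-1 : SL(2, ℤ)) ∈ Γ₀) (hneg' : (-1 : SL(2, ℤ)) ∈ Γ₀')
    (cδ : Γ₀ ≃* Γ₀')
    (hcδ : ∀ γ : Γ₀, (cδ γ : SL(2, ℤ)) 0 0 = (γ : SL(2, ℤ)) 0 0 ∧
            (cδ γ : SL(2, ℤ)) 0 1 = ℓ * (γ : SL(2, ℤ)) 0 1 ∧
            ℓ * (cδ γ : SL(2, ℤ)) 1 0 = (γ : SL(2, ℤ)) 1 0 ∧
            (cδ γ : SL(2, ℤ)) 1 1 = (γ : SL(2, ℤ)) 1 1)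
    (x' y' : Additive Γ₀' →+ ℤ) (hx' : IsParabolicHom Γ₀' x') (hy' : IsParabolicHom Γ₀' y') :
    pairFun Γ₀ (x'.comp (MonoidHom.toAdditive cδ.toMonoidHom))
      (y'.comp (MonoidHom.toAdditive cδ.toMonoidHom)) = pairFun Γ₀' x' y' := by
  classical
  set x : Additive Γ₀ →+ ℤ := x'.comp (MonoidHom.toAdditive cδ.toMonoidHom) with hxdef
  set y : Additive Γ₀ →+ ℤ := y'.comp (MonoidHom.toAdditive cδ.toMonoidHom) with hydef
  have htr : ∀ γ : Γ₀, ((cδ γ : SL(2, ℤ)) : Matrix (Fin 2) (Fin 2) ℤ).trace =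
      ((γ : SL(2, ℤ)) : Matrix (Fin 2) (Fin 2) ℤ).trace := by
    intro γ
    obtain ⟨h00, -, -, h11⟩ := hcδ γ
    rw [Matrix.trace_fin_two, Matrix.trace_fin_two]
    exact congrArg₂ (· + ·) h00 h11
  have hx : IsParabolicHom Γ₀ x := fun γ hγ => hx' (cδ γ) (by rw [htr]; exact hγ)
  have hy : IsParabolicHom Γ₀ y := fun γ hγ => hy' (cδ γ) (by rw [htr]; exact hγ)
  have hv := (isPairing_pairFun_int hneg x y hx hy).castQ
  have hv' := (isPairing_pairFun_int hneg' x' y' hx' hy').castQ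
  haveI : Γ₀.FiniteIndex := Subgroup.finiteIndex_of_finite_quotient
  haveI : Γ₀'.FiniteIndex := Subgroup.finiteIndex_of_finite_quotient
  obtain ⟨β', hβ'⟩ := hB Γ₀' hneg' (castQ x') (castQ y')
  have hβ : ∀ γ γ' : Γ₀, (β' ∘ cδ) (γ * γ') = (β' ∘ cδ) γ + (β' ∘ cδ) γ' -
      castQ x (Additive.ofMul γ) * castQ y (Additive.ofMul γ') := by
    intro γ γ'
    simp only [Function.comp_apply, map_mul, hβ']
    rfl
  obtain ⟨n, hn0, hn⟩ := exists_pow_T_mem Γ₀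
  obtain ⟨n', hn'0, hn'⟩ := exists_pow_T_mem Γ₀'
  have e1 := hI Γ₀ hneg (castQ x) (castQ y) _ (isParabolicHom_castQ hx) (isParabolicHom_castQ hy)
    hv (β' ∘ cδ) hβ (fun q => q.out) (fun q => QuotientGroup.out_eq' q) n hn
  have e2 := hI Γ₀' hneg' (castQ x') (castQ y') _ (isParabolicHom_castQ hx')
    (isParabolicHom_castQ hy') hv' β' hβ' (fun q => q.out) (fun q => QuotientGroup.out_eq' q)
    n' hn'
  have e3 := hC ℓ hℓ Γ₀ Γ₀' hneg cδ hcδ β'
    (fun γ c hc => beta_conj hβ' (isParabolicHom_castQ hx') (isParabolicHom_castQ hy') γ c hc)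
    (fun c hc k => beta_pow hβ' (isParabolicHom_castQ hy') c hc k)
    (fun q => q.out) (fun q => QuotientGroup.out_eq' q)
    (fun q => q.out) (fun q => QuotientGroup.out_eq' q) n n' hn0 hn'0 hn hn'
  simp only [Function.comp_apply] at e1
  rw [e1, e2] at e3
  have hnq : (n : ℚ) ≠ 0 := by exact_mod_cast hn0.ne'
  have hn'q : (n' : ℚ) ≠ 0 := by exact_mod_cast hn'0.ne'
  have e4 : ((pairFun Γ₀ x y : ℤ) : ℚ) = ((pairFun Γ₀' x' y' : ℤ) : ℚ) := by
    have : (n' : ℚ) * n * ((pairFun Γ₀ x y : ℤ) : ℚ) = n' * n * ((pairFun Γ₀' x' y' : ℤ) : ℚ) := by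
      linear_combination e3
    exact mul_left_cancel₀ (mul_ne_zero hn'q hnq) this
  exact_mod_cast e4

end main

end Fermat.Agent.S41.PD
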