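import Fermat.Agent.S41.PD.Plan

/-!
# S41, piece R6, PD-E: cusp sums are invariant under conjugation by `diag(ℓ, 1)`

Route ("induction in stages"): `H = Γ0(ℓ)`, `H' = Γ⁰(ℓ)`, `Γ₀ ≤ H`, `Γ₀' ≤ H'`, conjugation by
`δ = diag(ℓ, 1)` is an isomorphism `H ≃ H'` (relation `pde_Rel`).  With `U` = the cosets of `Γ₀`
contained in `H`, the maps `(i, u) ↦ s_i · r(u)` (`s = 1, Tʲ S`) and `(i, u) ↦ s'_i · cδ(r(u))`
(`s' = S, Tʲ`) are bijections `P¹(F_ℓ) × U ≃ G/Γ₀` resp. `G/Γ₀'`.  After passing to the common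
exponent `N = ℓ n n'` (homogeneity) both sums are
`ℓ ∑_u F(t'⁻¹ T^N t') + ℓ ∑_u F(t'⁻¹ S⁻¹ T^{n n'} S t')`, `t' = cδ(r(u))`.
-/

set_option autoImplicit false
set_option linter.unusedSectionVars false

namespace Fermat.Agent.S41.PD

open scoped MatrixGroups
open ModularGroup (S T)
open Matrix

/-! ## Entries of elements of `SL(2, ℤ)` -/

theorem pde_mul_apply (g h : SL(2, ℤ)) (i j : Fin 2) :
    (g * h) i j = g i 0 * h 0 j + g i 1 * h 1 j := by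
  rw [Matrix.SpecialLinearGroup.coe_mul, Matrix.mul_apply, Fin.sum_univ_two]

theorem pde_inv_apply (g : SL(2, ℤ)) :
    g⁻¹ 0 0 = g 1 1 ∧ g⁻¹ 0 1 = - g 0 1 ∧ g⁻¹ 1 0 = - g 1 0 ∧ g⁻¹ 1 1 = g 0 0 := by
  rw [Matrix.SpecialLinearGroup.SL2_inv_expl]
  simp

theorem pde_det (g : SL(2, ℤ)) : g 0 0 * g 1 1 - g 0 1 * g 1 0 = 1 := by
  have := g.det_coe
  rw [Matrix.det_fin_two] at this
  exact this

theorem pde_ext {g h : SL(2, ℤ)} (h00 : g 0 0 = h 0 0) (h01 : g 0 1 = h 0 1)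
    (h10 : g 1 0 = h 1 0) (h11 : g 1 1 = h 1 1) : g = h := by
  ext i j
  fin_cases i <;> fin_cases j
  · exact h00
  · exact h01
  · exact h10
  · exact h11

theorem pde_T_pow_apply (n : ℕ) :
    (T ^ n : SL(2, ℤ)) 0 0 = 1 ∧ (T ^ n : SL(2, ℤ)) 0 1 = n ∧ (T ^ n : SL(2, ℤ)) 1 0 = 0 ∧
      (T ^ n : SL(2, ℤ)) 1 1 = 1 := by
  have := ModularGroup.coe_T_zpow (n : ℤ)
  rw [zpow_natCast] at this
  have h : ((T ^ n : SL(2, ℤ)) : Matrix (Fin 2) (Fin 2) ℤ) = !![1, (n : ℤ); 0, 1] := this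
  refine ⟨?_, ?_, ?_, ?_⟩ <;> rw [h] <;> simp

theorem pde_S_apply :
    (S : SL(2, ℤ)) 0 0 = 0 ∧ (S : SL(2, ℤ)) 0 1 = -1 ∧ (S : SL(2, ℤ)) 1 0 = 1 ∧
      (S : SL(2, ℤ)) 1 1 = 0 := by
  refine ⟨?_, ?_, ?_, ?_⟩ <;> rw [ModularGroup.coe_S] <;> simp

theorem pde_one_apply :
    (1 : SL(2, ℤ)) 0 0 = 1 ∧ (1 : SL(2, ℤ)) 0 1 = 0 ∧ (1 : SL(2, ℤ)) 1 0 = 0 ∧
      (1 : SL(2, ℤ)) 1 1 = 1 := by
  refine ⟨?_, ?_, ?_, ?_⟩ <;> simp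

/-- `L_m = S⁻¹ T^m S = [[1, 0], [-m, 1]]`. -/
def pde_L (m : ℕ) : SL(2, ℤ) := S⁻¹ * T ^ m * S

theorem pde_L_apply (m : ℕ) :
    pde_L m 0 0 = 1 ∧ pde_L m 0 1 = 0 ∧ pde_L m 1 0 = -(m : ℤ) ∧ pde_L m 1 1 = 1 := by
  obtain ⟨t00, t01, t10, t11⟩ := pde_T_pow_apply m
  obtain ⟨s00, s01, s10, s11⟩ := pde_S_apply
  obtain ⟨i00, i01, i10, i11⟩ := pde_inv_apply S
  unfold pde_L
  refine ⟨?_, ?_, ?_, ?_⟩ <;>
    simp only [pde_mul_apply, t00, t01, t10, t11, s00, s01, s10, s11, i00, i01, i10, i11] <;> ring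

theorem pde_trace_conj (g a : SL(2, ℤ)) :
    ((g⁻¹ * a * g : SL(2, ℤ)) : Matrix (Fin 2) (Fin 2) ℤ).trace
      = (a : Matrix (Fin 2) (Fin 2) ℤ).trace := by
  obtain ⟨i00, i01, i10, i11⟩ := pde_inv_apply g
  have hd := pde_det g
  rw [Matrix.trace_fin_two, Matrix.trace_fin_two]
  simp only [pde_mul_apply, i00, i01, i10, i11]
  linear_combination (a 0 0 + a 1 1) * hd

theorem pde_trace_T_pow (n : ℕ) :
    ((T ^ n : SL(2, ℤ)) : Matrix (Fin 2) (Fin 2) ℤ).trace = 2 := by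
  obtain ⟨t00, t01, t10, t11⟩ := pde_T_pow_apply n
  rw [Matrix.trace_fin_two, t00, t11]; norm_num

theorem pde_conj_pow (g a : SL(2, ℤ)) (k : ℕ) : (g⁻¹ * a * g) ^ k = g⁻¹ * a ^ k * g := by
  induction k with
  | zero => simp
  | succ k ih => rw [pow_succ, ih, pow_succ]; group

/-! ## The relation "conjugate by `diag(ℓ, 1)`" -/

/-- `g' = δ g δ⁻¹`, `δ = diag(ℓ, 1)`. -/
def pde_Rel (ℓ : ℕ) (g g' : SL(2, ℤ)) : Prop :=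
  g' 0 0 = g 0 0 ∧ g' 0 1 = ℓ * g 0 1 ∧ ℓ * g' 1 0 = g 1 0 ∧ g' 1 1 = g 1 1

section Rel

variable {ℓ : ℕ}

theorem pde_Rel_one : pde_Rel ℓ 1 1 := by
  obtain ⟨o00, o01, o10, o11⟩ := pde_one_apply
  refine ⟨rfl, ?_, ?_, rfl⟩
  · rw [o01]; ring
  · rw [o10]; ring

theorem pde_Rel_mul {g₁ g₁' g₂ g₂' : SL(2, ℤ)} (h₁ : pde_Rel ℓ g₁ g₁') (h₂ : pde_Rel ℓ g₂ g₂') :
    pde_Rel ℓ (g₁ * g₂) (g₁' * g₂') := by
  obtain ⟨a1, b1, c1, d1⟩ := h₁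
  obtain ⟨a2, b2, c2, d2⟩ := h₂
  refine ⟨?_, ?_, ?_, ?_⟩ <;> simp only [pde_mul_apply]
  · rw [a1, a2, b1, ← c2]; ring
  · rw [a1, b2, b1, d2]; ring
  · rw [← c1, ← c2, a2, d1]; ring
  · rw [b2, d1, d2, ← c1]; ring

theorem pde_Rel_inv {g g' : SL(2, ℤ)} (h : pde_Rel ℓ g g') : pde_Rel ℓ g⁻¹ g'⁻¹ := by
  obtain ⟨a, b, c, d⟩ := h
  obtain ⟨i00, i01, i10, i11⟩ := pde_inv_apply g
  obtain ⟨j00, j01, j10, j11⟩ := pde_inv_apply g'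
  refine ⟨?_, ?_, ?_, ?_⟩
  · rw [i00, j00, d]
  · rw [i01, j01, b]; ring
  · rw [i10, j10, ← c]; ring
  · rw [i11, j11, a]

theorem pde_Rel_pow {g g' : SL(2, ℤ)} (h : pde_Rel ℓ g g') (k : ℕ) :
    pde_Rel ℓ (g ^ k) (g' ^ k) := by
  induction k with
  | zero => simpa using pde_Rel_one
  | succ k ih => rw [pow_succ, pow_succ]; exact pde_Rel_mul ih h

theorem pde_Rel_conj {g g' a a' : SL(2, ℤ)} (hg : pde_Rel ℓ g g') (ha : pde_Rel ℓ a a') :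
    pde_Rel ℓ (g⁻¹ * a * g) (g'⁻¹ * a' * g') :=
  pde_Rel_mul (pde_Rel_mul (pde_Rel_inv hg) ha) hg

theorem pde_Rel_unique_right (hℓ : ℓ ≠ 0) {g g' g'' : SL(2, ℤ)} (h : pde_Rel ℓ g g')
    (h' : pde_Rel ℓ g g'') : g' = g'' := by
  obtain ⟨a, b, c, d⟩ := h
  obtain ⟨a', b', c', d'⟩ := h'
  have hℓ' : (ℓ : ℤ) ≠ 0 := by exact_mod_cast hℓ
  refine pde_ext (a.trans a'.symm) (b.trans b'.symm) ?_ (d.trans d'.symm)
  exact mul_left_cancel₀ hℓ' (c.trans c'.symm)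

theorem pde_Rel_unique_left (hℓ : ℓ ≠ 0) {g h g' : SL(2, ℤ)} (hg : pde_Rel ℓ g g')
    (hh : pde_Rel ℓ h g') : g = h := by
  obtain ⟨a, b, c, d⟩ := hg
  obtain ⟨a', b', c', d'⟩ := hh
  have hℓ' : (ℓ : ℤ) ≠ 0 := by exact_mod_cast hℓ
  refine pde_ext (a.symm.trans a') ?_ (c.symm.trans c') (d.symm.trans d')
  exact mul_left_cancel₀ hℓ' (b.symm.trans b')

theorem pde_Rel_trace {g g' : SL(2, ℤ)} (h : pde_Rel ℓ g g') :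
    (g' : Matrix (Fin 2) (Fin 2) ℤ).trace = (g : Matrix (Fin 2) (Fin 2) ℤ).trace := by
  rw [Matrix.trace_fin_two, Matrix.trace_fin_two, h.1, h.2.2.2]

theorem pde_Rel_T_pow (m : ℕ) : pde_Rel ℓ (T ^ m) (T ^ (ℓ * m)) := by
  obtain ⟨t00, t01, t10, t11⟩ := pde_T_pow_apply m
  obtain ⟨u00, u01, u10, u11⟩ := pde_T_pow_apply (ℓ * m)
  refine ⟨?_, ?_, ?_, ?_⟩
  · rw [t00, u00]
  · rw [t01, u01]; push_cast; ring
  · rw [t10, u10]; ring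
  · rw [t11, u11]

theorem pde_Rel_L (m : ℕ) : pde_Rel ℓ (pde_L (ℓ * m)) (pde_L m) := by
  obtain ⟨t00, t01, t10, t11⟩ := pde_L_apply m
  obtain ⟨u00, u01, u10, u11⟩ := pde_L_apply (ℓ * m)
  refine ⟨?_, ?_, ?_, ?_⟩
  · rw [t00, u00]
  · rw [t01, u01]; ring
  · rw [t10, u10]; push_cast; ring
  · rw [t11, u11]

theorem pde_Rel_exists_right {g : SL(2, ℤ)} (h : (ℓ : ℤ) ∣ g 1 0) : ∃ g', pde_Rel ℓ g g' := by
  obtain ⟨c, hc⟩ := h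
  have hd := pde_det g
  refine ⟨⟨!![g 0 0, ℓ * g 0 1; c, g 1 1], ?_⟩, ?_⟩
  · rw [Matrix.det_fin_two_of]
    rw [hc] at hd
    linear_combination hd
  · refine ⟨?_, ?_, ?_, ?_⟩
    · rfl
    · rfl
    · show (ℓ : ℤ) * c = g 1 0
      rw [hc]
    · rfl

theorem pde_Rel_exists_left {g' : SL(2, ℤ)} (h : (ℓ : ℤ) ∣ g' 0 1) : ∃ g, pde_Rel ℓ g g' := by
  obtain ⟨b, hb⟩ := h
  have hd := pde_det g'
  refine ⟨⟨!![g' 0 0, b; ℓ * g' 1 0, g' 1 1], ?_⟩, ?_⟩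
  · rw [Matrix.det_fin_two_of]
    rw [hb] at hd
    linear_combination hd
  · refine ⟨?_, ?_, ?_, ?_⟩
    · rfl
    · show g' 0 1 = (ℓ : ℤ) * b
      rw [hb]
    · rfl
    · rfl

end Rel

/-- The conjugation as a (partial) function. -/
noncomputable def pde_cd (ℓ : ℕ) (g : SL(2, ℤ)) : SL(2, ℤ) :=
  open Classical in if h : ∃ g', pde_Rel ℓ g g' then h.choose else 1

theorem pde_cd_spec {ℓ : ℕ} {g : SL(2, ℤ)} (h : (ℓ : ℤ) ∣ g 1 0) : pde_Rel ℓ g (pde_cd ℓ g) := by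
  have hex := pde_Rel_exists_right h
  unfold pde_cd
  rw [dif_pos hex]
  exact hex.choose_spec

theorem pde_cd_eq {ℓ : ℕ} (hℓ : ℓ ≠ 0) {g g' : SL(2, ℤ)} (h : pde_Rel ℓ g g') :
    pde_cd ℓ g = g' := by
  have h1 : (ℓ : ℤ) ∣ g 1 0 := ⟨g' 1 0, h.2.2.1.symm⟩
  exact pde_Rel_unique_right hℓ (pde_cd_spec h1) h

/-! ## The subgroups `Γ0(ℓ)` and `Γ⁰(ℓ)` -/

/-- `H = Γ0(ℓ)`. -/
def pde_H (ℓ : ℕ) : Subgroup SL(2, ℤ) where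
  carrier := {g | (ℓ : ℤ) ∣ g 1 0}
  mul_mem' := by
    intro g h hg hh
    simp only [Set.mem_ofPred_eq] at hg hh ⊢
    rw [pde_mul_apply]
    exact dvd_add (Dvd.dvd.mul_right hg _) (Dvd.dvd.mul_left hh _)
  one_mem' := by
    simp only [Set.mem_ofPred_eq]
    rw [pde_one_apply.2.2.1]
    exact dvd_zero _
  inv_mem' := by
    intro g hg
    simp only [Set.mem_ofPred_eq] at hg ⊢
    rw [(pde_inv_apply g).2.2.1]
    exact (dvd_neg).2 hg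

/-- `H' = Γ⁰(ℓ)`. -/
def pde_H' (ℓ : ℕ) : Subgroup SL(2, ℤ) where
  carrier := {g | (ℓ : ℤ) ∣ g 0 1}
  mul_mem' := by
    intro g h hg hh
    simp only [Set.mem_ofPred_eq] at hg hh ⊢
    rw [pde_mul_apply]
    exact dvd_add (Dvd.dvd.mul_left hh _) (Dvd.dvd.mul_right hg _)
  one_mem' := by
    simp only [Set.mem_ofPred_eq]
    rw [pde_one_apply.2.1]
    exact dvd_zero _
  inv_mem' := by
    intro g hg
    simp only [Set.mem_ofPred_eq] at hg ⊢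
    rw [(pde_inv_apply g).2.1]
    exact (dvd_neg).2 hg

theorem pde_mem_H {ℓ : ℕ} {g : SL(2, ℤ)} : g ∈ pde_H ℓ ↔ (ℓ : ℤ) ∣ g 1 0 := Iff.rfl

theorem pde_mem_H' {ℓ : ℕ} {g : SL(2, ℤ)} : g ∈ pde_H' ℓ ↔ (ℓ : ℤ) ∣ g 0 1 := Iff.rfl

theorem pde_Rel_mem_H {ℓ : ℕ} {g g' : SL(2, ℤ)} (h : pde_Rel ℓ g g') : g ∈ pde_H ℓ :=
  ⟨g' 1 0, h.2.2.1.symm⟩

theorem pde_Rel_mem_H' {ℓ : ℕ} {g g' : SL(2, ℤ)} (h : pde_Rel ℓ g g') : g' ∈ pde_H' ℓ :=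
  ⟨g 0 1, h.2.1⟩

/-! ## Representatives of `G / Γ0(ℓ)` and of `G / Γ⁰(ℓ)` -/

section Reps

variable (ℓ : ℕ)

/-- Representatives of `G / Γ0(ℓ)`: `1` and `Tʲ S`. -/
def pde_s : Option (ZMod ℓ) → SL(2, ℤ)
  | none => 1
  | some j => T ^ j.val * S

/-- Representatives of `G / Γ⁰(ℓ)`: `S` and `Tʲ`. -/
def pde_s' : Option (ZMod ℓ) → SL(2, ℤ)
  | none => S
  | some j => T ^ j.val

theorem pde_s_none_apply (g : SL(2, ℤ)) : ((pde_s ℓ none)⁻¹ * g) 1 0 = g 1 0 := by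
  simp [pde_s]

theorem pde_s_some_apply (j : ZMod ℓ) (g : SL(2, ℤ)) :
    ((pde_s ℓ (some j))⁻¹ * g) 1 0 = (j.val : ℤ) * g 1 0 - g 0 0 := by
  obtain ⟨t00, t01, t10, t11⟩ := pde_T_pow_apply j.val
  obtain ⟨s00, s01, s10, s11⟩ := pde_S_apply
  obtain ⟨i00, i01, i10, i11⟩ := pde_inv_apply (T ^ j.val * S)
  simp only [pde_s, pde_mul_apply, i10, i11, t00, t01, t10, t11, s00, s10]
  ring

theorem pde_s'_none_apply (g : SL(2, ℤ)) : ((pde_s' ℓ none)⁻¹ * g) 0 1 = g 1 1 := by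
  obtain ⟨s00, s01, s10, s11⟩ := pde_S_apply
  obtain ⟨i00, i01, i10, i11⟩ := pde_inv_apply S
  simp only [pde_s', pde_mul_apply, i00, i01, s01, s11]
  ring

theorem pde_s'_some_apply (j : ZMod ℓ) (g : SL(2, ℤ)) :
    ((pde_s' ℓ (some j))⁻¹ * g) 0 1 = g 0 1 - (j.val : ℤ) * g 1 1 := by
  obtain ⟨t00, t01, t10, t11⟩ := pde_T_pow_apply j.val
  obtain ⟨i00, i01, i10, i11⟩ := pde_inv_apply (T ^ j.val)
  simp only [pde_s', pde_mul_apply, i00, i01, t01, t11]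
  ring

variable [Fact ℓ.Prime]

theorem pde_dvd_iff (x : ℤ) : (ℓ : ℤ) ∣ x ↔ ((x : ℤ) : ZMod ℓ) = 0 :=
  (ZMod.intCast_zmod_eq_zero_iff_dvd x ℓ).symm

theorem pde_cast_val (j : ZMod ℓ) : ((j.val : ℕ) : ZMod ℓ) = j := by
  have : NeZero ℓ := ⟨(Fact.out : ℓ.Prime).ne_zero⟩
  simp

theorem pde_det_zmod (g : SL(2, ℤ)) :
    ((g 0 0 : ℤ) : ZMod ℓ) * ((g 1 1 : ℤ) : ZMod ℓ) - ((g 0 1 : ℤ) : ZMod ℓ) * ((g 1 0 : ℤ) : ZMod ℓ)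
      = 1 := by
  have := congrArg (fun x : ℤ => (x : ZMod ℓ)) (pde_det g)
  simpa using this

theorem pde_existsUnique_s (g : SL(2, ℤ)) :
    ∃! i : Option (ZMod ℓ), (pde_s ℓ i)⁻¹ * g ∈ pde_H ℓ := by
  have hdet := pde_det_zmod ℓ g
  by_cases hc : ((g 1 0 : ℤ) : ZMod ℓ) = 0
  · refine ⟨none, ?_, ?_⟩
    · show (ℓ : ℤ) ∣ _
      rw [pde_s_none_apply, pde_dvd_iff]; exact hc
    · rintro (_ | j) hj
      · rfl
      · exfalso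
        have hj' : (ℓ : ℤ) ∣ _ := hj
        rw [pde_s_some_apply, pde_dvd_iff] at hj'
        push_cast at hj'
        rw [hc, mul_zero, zero_sub, neg_eq_zero] at hj'
        rw [hc, hj'] at hdet
        simp at hdet
  · refine ⟨some (((g 0 0 : ℤ) : ZMod ℓ) / ((g 1 0 : ℤ) : ZMod ℓ)), ?_, ?_⟩
    · show (ℓ : ℤ) ∣ _
      rw [pde_s_some_apply, pde_dvd_iff]
      push_cast
      rw [pde_cast_val, div_mul_cancel₀ _ hc, sub_self]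
    · rintro (_ | j) hj
      · exfalso
        have hj' : (ℓ : ℤ) ∣ _ := hj
        rw [pde_s_none_apply, pde_dvd_iff] at hj'
        exact hc hj'
      · have hj' : (ℓ : ℤ) ∣ _ := hj
        rw [pde_s_some_apply, pde_dvd_iff] at hj'
        push_cast at hj'
        rw [pde_cast_val, sub_eq_zero] at hj'
        congr 1
        rw [eq_div_iff hc, hj']

theorem pde_existsUnique_s' (g : SL(2, ℤ)) :
    ∃! i : Option (ZMod ℓ), (pde_s' ℓ i)⁻¹ * g ∈ pde_H' ℓ := by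
  have hdet := pde_det_zmod ℓ g
  by_cases hc : ((g 1 1 : ℤ) : ZMod ℓ) = 0
  · refine ⟨none, ?_, ?_⟩
    · show (ℓ : ℤ) ∣ _
      rw [pde_s'_none_apply, pde_dvd_iff]; exact hc
    · rintro (_ | j) hj
      · rfl
      · exfalso
        have hj' : (ℓ : ℤ) ∣ _ := hj
        rw [pde_s'_some_apply, pde_dvd_iff] at hj'
        push_cast at hj'
        rw [hc, mul_zero, sub_zero] at hj'
        rw [hc, hj'] at hdet
        simp at hdet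
  · refine ⟨some (((g 0 1 : ℤ) : ZMod ℓ) / ((g 1 1 : ℤ) : ZMod ℓ)), ?_, ?_⟩
    · show (ℓ : ℤ) ∣ _
      rw [pde_s'_some_apply, pde_dvd_iff]
      push_cast
      rw [pde_cast_val, div_mul_cancel₀ _ hc, sub_self]
    · rintro (_ | j) hj
      · exfalso
        have hj' : (ℓ : ℤ) ∣ _ := hj
        rw [pde_s'_none_apply, pde_dvd_iff] at hj'
        exact hc hj'
      · have hj' : (ℓ : ℤ) ∣ _ := hj
        rw [pde_s'_some_apply, pde_dvd_iff] at hj'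
        push_cast at hj'
        rw [pde_cast_val, sub_eq_zero] at hj'
        congr 1
        rw [eq_div_iff hc, ← hj']

end Reps

/-! ## Two-stage coset bijection (pure group theory) -/

theorem pde_bijective {G : Type*} [Group G] (Γ K : Subgroup G) (hΓK : Γ ≤ K) {I U : Type*}
    (s : I → G) (hs : ∀ g : G, ∃! i, (s i)⁻¹ * g ∈ K)
    (τ : U → G) (hτK : ∀ u, τ u ∈ K) (hτinj : ∀ u v, (τ u)⁻¹ * τ v ∈ Γ → u = v)
    (hτsurj : ∀ h ∈ K, ∃ u, (τ u)⁻¹ * h ∈ Γ) :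
    Function.Bijective (fun p : I × U => ((s p.1 * τ p.2 : G) : G ⧸ Γ)) := by
  constructor
  · rintro ⟨i, u⟩ ⟨k, v⟩ h
    simp only at h
    rw [QuotientGroup.eq] at h
    have hγK : (s i * τ u)⁻¹ * (s k * τ v) ∈ K := hΓK h
    have h1 : (s i)⁻¹ * (s k * τ v) ∈ K := by
      have : (s i)⁻¹ * (s k * τ v) = τ u * ((s i * τ u)⁻¹ * (s k * τ v)) := by group
      rw [this]
      exact K.mul_mem (hτK u) hγK
    have h2 : (s k)⁻¹ * (s k * τ v) ∈ K := by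
      rw [inv_mul_cancel_left]; exact hτK v
    have hik : i = k := (hs (s k * τ v)).unique h1 h2
    subst hik
    have h3 : (τ u)⁻¹ * τ v ∈ Γ := by
      have : (τ u)⁻¹ * τ v = (s i * τ u)⁻¹ * (s i * τ v) := by group
      rw [this]; exact h
    rw [hτinj u v h3]
  · intro q
    induction q using QuotientGroup.induction_on with
    | H g =>
      obtain ⟨i, hi, -⟩ := hs g
      obtain ⟨u, hu⟩ := hτsurj _ hi
      refine ⟨(i, u), ?_⟩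
      simp only
      rw [QuotientGroup.eq]
      have : (s i * τ u)⁻¹ * g = (τ u)⁻¹ * ((s i)⁻¹ * g) := by group
      rw [this]; exact hu

/-- Sum over cosets in two stages, for a right-invariant function. -/
theorem pde_sum_eq {G : Type*} [Group G] (Γ : Subgroup G) [Fintype (G ⧸ Γ)] {P : Type*} [Fintype P]
    (Λ : P → G) (hΛ : Function.Bijective (fun p : P => ((Λ p : G) : G ⧸ Γ)))
    (E : G → ℚ) (hE : ∀ g : G, ∀ γ ∈ Γ, E (g * γ) = E g)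
    (r : G ⧸ Γ → G) (hr : ∀ q, ((r q : G) : G ⧸ Γ) = q) :
    ∑ q, E (r q) = ∑ p, E (Λ p) := by
  have h1 : ∀ p, E (Λ p) = E (r ((Λ p : G) : G ⧸ Γ)) := by
    intro p
    have h2 := hr ((Λ p : G) : G ⧸ Γ)
    rw [QuotientGroup.eq] at h2
    have h3 := hE (r ((Λ p : G) : G ⧸ Γ)) _ h2
    rw [mul_inv_cancel_left] at h3
    exact h3
  simp_rw [h1]
  exact (Function.Bijective.sum_comp hΛ (fun q => E (r q))).symm

/-! ## Group identities -/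

theorem pde_conj_T (j N : ℕ) : (T ^ j : SL(2, ℤ))⁻¹ * T ^ N * T ^ j = T ^ N := by
  rw [mul_assoc, ← pow_add, add_comm, pow_add, ← mul_assoc, inv_mul_cancel, one_mul]

theorem pde_conj_s_none (ℓ N : ℕ) (x : SL(2, ℤ)) :
    (pde_s ℓ none * x)⁻¹ * T ^ N * (pde_s ℓ none * x) = x⁻¹ * T ^ N * x := by
  simp [pde_s]

theorem pde_conj_s_some (ℓ N : ℕ) (j : ZMod ℓ) (x : SL(2, ℤ)) :
    (pde_s ℓ (some j) * x)⁻¹ * T ^ N * (pde_s ℓ (some j) * x) = x⁻¹ * pde_L N * x := by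
  have h := pde_conj_T j.val N
  simp only [pde_s, pde_L]
  calc (T ^ j.val * S * x)⁻¹ * T ^ N * (T ^ j.val * S * x)
      = x⁻¹ * (S⁻¹ * ((T ^ j.val)⁻¹ * T ^ N * T ^ j.val) * S) * x := by group
    _ = x⁻¹ * (S⁻¹ * T ^ N * S) * x := by rw [h]

theorem pde_conj_s'_none (ℓ N : ℕ) (x : SL(2, ℤ)) :
    (pde_s' ℓ none * x)⁻¹ * T ^ N * (pde_s' ℓ none * x) = x⁻¹ * pde_L N * x := by
  simp only [pde_s', pde_L]
  group

theorem pde_conj_s'_some (ℓ N : ℕ) (j : ZMod ℓ) (x : SL(2, ℤ)) :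
    (pde_s' ℓ (some j) * x)⁻¹ * T ^ N * (pde_s' ℓ (some j) * x) = x⁻¹ * T ^ N * x := by
  have h := pde_conj_T j.val N
  simp only [pde_s']
  calc (T ^ j.val * x)⁻¹ * T ^ N * (T ^ j.val * x)
      = x⁻¹ * ((T ^ j.val)⁻¹ * T ^ N * T ^ j.val) * x := by group
    _ = x⁻¹ * T ^ N * x := by rw [h]

theorem pde_L_pow (m k : ℕ) : pde_L m ^ k = pde_L (m * k) := by
  unfold pde_L
  rw [pde_conj_pow, ← pow_mul]

theorem pde_conj_L (x : SL(2, ℤ)) (m : ℕ) :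
    x⁻¹ * pde_L m * x = (S * x)⁻¹ * T ^ m * (S * x) := by
  unfold pde_L
  group

theorem pde_trace_L (m : ℕ) : ((pde_L m : SL(2, ℤ)) : Matrix (Fin 2) (Fin 2) ℤ).trace = 2 := by
  unfold pde_L
  rw [pde_trace_conj, pde_trace_T_pow]

theorem pde_conj_mem_of_dvd (Γ : Subgroup SL(2, ℤ)) (n : ℕ)
    (hn : ∀ g : SL(2, ℤ), g⁻¹ * T ^ n * g ∈ Γ) (k : ℕ) (g : SL(2, ℤ)) :
    g⁻¹ * T ^ (n * k) * g ∈ Γ := by
  rw [pow_mul, ← pde_conj_pow]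
  exact Γ.pow_mem (hn g) k

/-! ## The main theorem -/

/-- **PD-E.**  Cusp sums are invariant under conjugation by `diag(ℓ, 1)`. -/
theorem stmtCuspConj : StmtCuspConj := by
  intro ℓ hℓ Γ₀ Γ₀' _ _ hneg cδ hcδ F hCF hHOM r hr r' hr' n n' hn0 hn0' hn hn'
  classical
  haveI : Fact ℓ.Prime := ⟨hℓ⟩
  haveI : NeZero ℓ := ⟨hℓ.ne_zero⟩
  have hℓ0 : ℓ ≠ 0 := hℓ.ne_zero
  have hRel : ∀ γ : Γ₀, pde_Rel ℓ (γ : SL(2, ℤ)) (cδ γ : SL(2, ℤ)) := fun γ => hcδ γ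
  have hΓH : Γ₀ ≤ pde_H ℓ := fun x hx => pde_Rel_mem_H (hRel ⟨x, hx⟩)
  have hΓH' : Γ₀' ≤ pde_H' ℓ := by
    intro x hx
    have := hRel (cδ.symm ⟨x, hx⟩)
    rw [MulEquiv.apply_symm_apply] at this
    exact pde_Rel_mem_H' this
  have hcd : ∀ x (hx : x ∈ Γ₀), pde_cd ℓ x = (cδ ⟨x, hx⟩ : SL(2, ℤ)) :=
    fun x hx => pde_cd_eq hℓ0 (hRel ⟨x, hx⟩)
  -- the total version of `F`
  set Fh : SL(2, ℤ) → ℚ := fun g => if h : g ∈ Γ₀' then F ⟨g, h⟩ else 0 with hFh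
  have Fh_eq : ∀ x (hx : x ∈ Γ₀'), Fh x = F ⟨x, hx⟩ := by
    intro x hx; simp only [hFh, dif_pos hx]
  have hCF' : ∀ γ ∈ Γ₀', ∀ c ∈ Γ₀', (c : Matrix (Fin 2) (Fin 2) ℤ).trace = 2 →
      Fh (γ⁻¹ * c * γ) = Fh c := by
    intro γ hγ c hc htr
    rw [Fh_eq _ (Γ₀'.mul_mem (Γ₀'.mul_mem (Γ₀'.inv_mem hγ) hc) hγ), Fh_eq _ hc]
    have := hCF ⟨γ⁻¹, Γ₀'.inv_mem hγ⟩ ⟨c, hc⟩ htr
    rw [← this]
    congr 1
    ext1
    simp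
  have hHOM' : ∀ c ∈ Γ₀', (c : Matrix (Fin 2) (Fin 2) ℤ).trace = 2 → ∀ k : ℕ,
      Fh (c ^ k) = k * Fh c := by
    intro c hc htr k
    rw [Fh_eq _ (Γ₀'.pow_mem hc k), Fh_eq _ hc]
    exact hHOM ⟨c, hc⟩ htr k
  -- common exponent
  set m : ℕ := n * n' with hm
  set N : ℕ := ℓ * m with hN
  have hNn : N = n * (ℓ * n') := by rw [hN, hm]; ring
  have hNn' : N = n' * (ℓ * n) := by rw [hN, hm]; ring
  have hmn' : m = n' * n := by rw [hm]; ring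
  have hNΓ : ∀ g : SL(2, ℤ), g⁻¹ * T ^ N * g ∈ Γ₀ := fun g => by
    rw [hNn]; exact pde_conj_mem_of_dvd Γ₀ n hn _ g
  have hNΓ' : ∀ g : SL(2, ℤ), g⁻¹ * T ^ N * g ∈ Γ₀' := fun g => by
    rw [hNn']; exact pde_conj_mem_of_dvd Γ₀' n' hn' _ g
  have hmΓ' : ∀ g : SL(2, ℤ), g⁻¹ * T ^ m * g ∈ Γ₀' := fun g => by
    rw [hmn']; exact pde_conj_mem_of_dvd Γ₀' n' hn' _ g
  have htrT : ∀ (g : SL(2, ℤ)) (k : ℕ),
      ((g⁻¹ * T ^ k * g : SL(2, ℤ)) : Matrix (Fin 2) (Fin 2) ℤ).trace = 2 := fun g k => by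
    rw [pde_trace_conj, pde_trace_T_pow]
  -- the two functions
  set E : SL(2, ℤ) → ℚ := fun g => Fh (pde_cd ℓ (g⁻¹ * T ^ N * g)) with hE
  set E' : SL(2, ℤ) → ℚ := fun g => Fh (g⁻¹ * T ^ N * g) with hE'
  -- Step 1: homogeneity
  have hL : ∀ q, ((ℓ * n' : ℕ) : ℚ) * F (cδ ⟨(r q)⁻¹ * T ^ n * r q, hn (r q)⟩) = E (r q) := by
    intro q
    set x : SL(2, ℤ) := (r q)⁻¹ * T ^ n * r q with hx
    have hxΓ : x ∈ Γ₀ := hn (r q)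
    have hxN : (r q)⁻¹ * T ^ N * r q = x ^ (ℓ * n') := by
      rw [hx, pde_conj_pow, ← pow_mul, ← hNn]
    have hrel : pde_Rel ℓ x (cδ ⟨x, hxΓ⟩ : SL(2, ℤ)) := hRel ⟨x, hxΓ⟩
    have h1 : pde_cd ℓ (x ^ (ℓ * n')) = (cδ ⟨x, hxΓ⟩ : SL(2, ℤ)) ^ (ℓ * n') :=
      pde_cd_eq hℓ0 (pde_Rel_pow hrel _)
    have htr : ((cδ ⟨x, hxΓ⟩ : SL(2, ℤ)) : Matrix (Fin 2) (Fin 2) ℤ).trace = 2 := by
      rw [pde_Rel_trace hrel]; exact htrT _ _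
    simp only [hE]
    rw [hxN, h1, hHOM' _ (cδ ⟨x, hxΓ⟩).2 htr, Fh_eq _ (cδ ⟨x, hxΓ⟩).2]
  have hR : ∀ q, ((ℓ * n : ℕ) : ℚ) * F ⟨(r' q)⁻¹ * T ^ n' * r' q, hn' (r' q)⟩ = E' (r' q) := by
    intro q
    set x : SL(2, ℤ) := (r' q)⁻¹ * T ^ n' * r' q with hx
    have hxΓ : x ∈ Γ₀' := hn' (r' q)
    have hxN : (r' q)⁻¹ * T ^ N * r' q = x ^ (ℓ * n) := by
      rw [hx, pde_conj_pow, ← pow_mul, ← hNn']
    simp only [hE']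
    rw [hxN, hHOM' _ hxΓ (htrT _ _), Fh_eq _ hxΓ]
  -- right invariance
  have hEinv : ∀ g : SL(2, ℤ), ∀ γ ∈ Γ₀, E (g * γ) = E g := by
    intro g γ hγ
    simp only [hE]
    set x : SL(2, ℤ) := g⁻¹ * T ^ N * g with hx
    have hxΓ : x ∈ Γ₀ := hNΓ g
    have e1 : (g * γ)⁻¹ * T ^ N * (g * γ) = γ⁻¹ * x * γ := by rw [hx]; group
    have hrel : pde_Rel ℓ (γ⁻¹ * x * γ)
        ((cδ ⟨γ, hγ⟩ : SL(2, ℤ))⁻¹ * (cδ ⟨x, hxΓ⟩ : SL(2, ℤ)) * (cδ ⟨γ, hγ⟩ : SL(2, ℤ))) :=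
      pde_Rel_conj (hRel ⟨γ, hγ⟩) (hRel ⟨x, hxΓ⟩)
    rw [e1, pde_cd_eq hℓ0 hrel, hcd x hxΓ]
    refine hCF' _ (cδ ⟨γ, hγ⟩).2 _ (cδ ⟨x, hxΓ⟩).2 ?_
    rw [pde_Rel_trace (hRel ⟨x, hxΓ⟩)]; exact htrT _ _
  have hE'inv : ∀ g : SL(2, ℤ), ∀ γ ∈ Γ₀', E' (g * γ) = E' g := by
    intro g γ hγ
    simp only [hE']
    have e1 : (g * γ)⁻¹ * T ^ N * (g * γ) = γ⁻¹ * (g⁻¹ * T ^ N * g) * γ := by group
    rw [e1]
    exact hCF' _ hγ _ (hNΓ' g) (htrT _ _)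
  -- the index set `U` and the two bijections
  let U : Type := {q : SL(2, ℤ) ⧸ Γ₀ // r q ∈ pde_H ℓ}
  let τ : U → SL(2, ℤ) := fun u => r u.1
  let τ' : U → SL(2, ℤ) := fun u => pde_cd ℓ (r u.1)
  have hτrel : ∀ u : U, pde_Rel ℓ (τ u) (τ' u) := fun u => pde_cd_spec u.2
  have hmkH : ∀ h ∈ pde_H ℓ, ∃ u : U, (τ u)⁻¹ * h ∈ Γ₀ := by
    intro h hh
    have h1 : (r ((h : SL(2, ℤ)) : SL(2, ℤ) ⧸ Γ₀))⁻¹ * h ∈ Γ₀ := by
      rw [← QuotientGroup.eq]; exact hr _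
    have h2 : r ((h : SL(2, ℤ)) : SL(2, ℤ) ⧸ Γ₀) ∈ pde_H ℓ := by
      have := (pde_H ℓ).mul_mem hh ((pde_H ℓ).inv_mem (hΓH h1))
      have e : h * ((r ((h : SL(2, ℤ)) : SL(2, ℤ) ⧸ Γ₀))⁻¹ * h)⁻¹
          = r ((h : SL(2, ℤ)) : SL(2, ℤ) ⧸ Γ₀) := by group
      rwa [e] at this
    exact ⟨⟨_, h2⟩, h1⟩
  have hΛ : Function.Bijective
      (fun p : Option (ZMod ℓ) × U => ((pde_s ℓ p.1 * τ p.2 : SL(2, ℤ)) : SL(2, ℤ) ⧸ Γ₀)) := by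
    refine pde_bijective Γ₀ (pde_H ℓ) hΓH (pde_s ℓ) (pde_existsUnique_s ℓ) τ (fun u => u.2) ?_ hmkH
    intro u v huv
    have h1 : ((τ u : SL(2, ℤ)) : SL(2, ℤ) ⧸ Γ₀) = ((τ v : SL(2, ℤ)) : SL(2, ℤ) ⧸ Γ₀) :=
      QuotientGroup.eq.2 huv
    simp only [τ] at h1
    rw [hr, hr] at h1
    exact Subtype.ext h1
  have hΛ' : Function.Bijective
      (fun p : Option (ZMod ℓ) × U => ((pde_s' ℓ p.1 * τ' p.2 : SL(2, ℤ)) : SL(2, ℤ) ⧸ Γ₀')) := by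
    refine pde_bijective Γ₀' (pde_H' ℓ) hΓH' (pde_s' ℓ) (pde_existsUnique_s' ℓ) τ'
      (fun u => pde_Rel_mem_H' (hτrel u)) ?_ ?_
    · intro u v huv
      -- `(τ' u)⁻¹ τ' v = cδ γ`
      set γ : Γ₀ := cδ.symm ⟨_, huv⟩ with hγ
      have h1 : pde_Rel ℓ ((τ u)⁻¹ * τ v) ((τ' u)⁻¹ * τ' v) :=
        pde_Rel_mul (pde_Rel_inv (hτrel u)) (hτrel v)
      have h2 : pde_Rel ℓ (γ : SL(2, ℤ)) ((τ' u)⁻¹ * τ' v) := by
        have := hRel γ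
        rw [hγ, MulEquiv.apply_symm_apply] at this
        exact this
      have h3 : (τ u)⁻¹ * τ v = γ := pde_Rel_unique_left hℓ0 h1 h2
      have h4 : (τ u)⁻¹ * τ v ∈ Γ₀ := by rw [h3]; exact γ.2
      have h5 : ((τ u : SL(2, ℤ)) : SL(2, ℤ) ⧸ Γ₀) = ((τ v : SL(2, ℤ)) : SL(2, ℤ) ⧸ Γ₀) :=
        QuotientGroup.eq.2 h4
      simp only [τ] at h5
      rw [hr, hr] at h5
      exact Subtype.ext h5
    · intro h' hh'
      obtain ⟨h, hrel⟩ := pde_Rel_exists_left (ℓ := ℓ) (pde_mem_H'.1 hh')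
      obtain ⟨u, hu⟩ := hmkH h (pde_Rel_mem_H hrel)
      refine ⟨u, ?_⟩
      have h1 : pde_Rel ℓ ((τ u)⁻¹ * h) ((τ' u)⁻¹ * h') :=
        pde_Rel_mul (pde_Rel_inv (hτrel u)) hrel
      have h2 := hRel ⟨_, hu⟩
      rw [pde_Rel_unique_right hℓ0 h1 h2]
      exact (cδ ⟨_, hu⟩).2
  -- Step 2: both sums over `Option (ZMod ℓ) × U`
  have hsumL : ∑ q, E (r q) = ∑ p : Option (ZMod ℓ) × U, E (pde_s ℓ p.1 * τ p.2) :=
    pde_sum_eq Γ₀ (fun p : Option (ZMod ℓ) × U => pde_s ℓ p.1 * τ p.2) hΛ E hEinv r hr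
  have hsumR : ∑ q, E' (r' q) = ∑ p : Option (ZMod ℓ) × U, E' (pde_s' ℓ p.1 * τ' p.2) :=
    pde_sum_eq Γ₀' (fun p : Option (ZMod ℓ) × U => pde_s' ℓ p.1 * τ' p.2) hΛ' E' hE'inv r' hr'
  -- Step 3: evaluation
  let A : U → ℚ := fun u => Fh ((τ' u)⁻¹ * T ^ N * τ' u)
  let B : U → ℚ := fun u => Fh ((τ' u)⁻¹ * pde_L m * τ' u)
  have hE_none : ∀ u : U, E (pde_s ℓ none * τ u) = ℓ * A u := by
    intro u
    simp only [hE, A]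
    rw [pde_conj_s_none]
    have hrel : pde_Rel ℓ ((τ u)⁻¹ * T ^ N * τ u) ((τ' u)⁻¹ * T ^ (ℓ * N) * τ' u) :=
      pde_Rel_conj (hτrel u) (pde_Rel_T_pow N)
    rw [pde_cd_eq hℓ0 hrel, mul_comm ℓ N, pow_mul, ← pde_conj_pow,
      hHOM' _ (hNΓ' _) (htrT _ _)]
  have hE_some : ∀ (j : ZMod ℓ) (u : U), E (pde_s ℓ (some j) * τ u) = B u := by
    intro j u
    simp only [hE, B]
    rw [pde_conj_s_some]
    have hrel : pde_Rel ℓ ((τ u)⁻¹ * pde_L N * τ u) ((τ' u)⁻¹ * pde_L m * τ' u) := by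
      rw [hN]; exact pde_Rel_conj (hτrel u) (pde_Rel_L m)
    rw [pde_cd_eq hℓ0 hrel]
  have hE'_none : ∀ u : U, E' (pde_s' ℓ none * τ' u) = ℓ * B u := by
    intro u
    simp only [hE', B]
    rw [pde_conj_s'_none, hN, mul_comm ℓ m, ← pde_L_pow, ← pde_conj_pow]
    have hmem : (τ' u)⁻¹ * pde_L m * τ' u ∈ Γ₀' := by
      rw [pde_conj_L]; exact hmΓ' _
    have htr : (((τ' u)⁻¹ * pde_L m * τ' u : SL(2, ℤ)) : Matrix (Fin 2) (Fin 2) ℤ).trace = 2 := by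
      rw [pde_trace_conj, pde_trace_L]
    rw [hHOM' _ hmem htr]
  have hE'_some : ∀ (j : ZMod ℓ) (u : U), E' (pde_s' ℓ (some j) * τ' u) = A u := by
    intro j u
    simp only [hE', A]
    rw [pde_conj_s'_some]
  have hcard : (Finset.univ : Finset (ZMod ℓ)).card = ℓ := by
    rw [Finset.card_univ, ZMod.card]
  have hmain : ∑ q, E (r q) = ∑ q, E' (r' q) := by
    rw [hsumL, hsumR, Fintype.sum_prod_type, Fintype.sum_prod_type, Fintype.sum_option,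
      Fintype.sum_option]
    simp only [hE_none, hE_some, hE'_none, hE'_some]
    rw [Finset.sum_comm, Finset.sum_comm (f := fun (x : ZMod ℓ) (y : U) => A y)]
    simp only [Finset.sum_const, hcard, nsmul_eq_mul]
    rw [← Finset.mul_sum, ← Finset.mul_sum, Finset.mul_sum, Finset.mul_sum]
    ring
  -- conclusion
  have h1 : ∑ q, E (r q)
      = ((ℓ * n' : ℕ) : ℚ) * ∑ q, F (cδ ⟨(r q)⁻¹ * T ^ n * r q, hn (r q)⟩) := by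
    rw [Finset.mul_sum]
    exact Finset.sum_congr rfl fun q _ => (hL q).symm
  have h2 : ∑ q, E' (r' q)
      = ((ℓ * n : ℕ) : ℚ) * ∑ q, F ⟨(r' q)⁻¹ * T ^ n' * r' q, hn' (r' q)⟩ := by
    rw [Finset.mul_sum]
    exact Finset.sum_congr rfl fun q _ => (hR q).symm
  rw [h1, h2] at hmain
  have hℓQ : (ℓ : ℚ) ≠ 0 := by exact_mod_cast hℓ0
  push_cast at hmain
  have := mul_left_cancel₀ hℓQ (by linear_combination hmain :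
    (ℓ : ℚ) * ((n' : ℚ) * ∑ q, F (cδ ⟨(r q)⁻¹ * T ^ n * r q, hn (r q)⟩))
      = (ℓ : ℚ) * ((n : ℚ) * ∑ q, F ⟨(r' q)⁻¹ * T ^ n' * r' q, hn' (r' q)⟩))
  exact this

end Fermat.Agent.S41.PD
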