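import Fermat.Agent.S41.Plan
import Fermat.Agent.ES.EigenLattice
import Fermat.Agent.S22.Cosets

/-!
# S41, piece R6, PD-Fr: `Hom_par(Γ₀(M), ℤ)` is a free `ℤ`-module

`Γ₀(M)` is finitely generated (`S22.gamma0_fg`), so `Hom(Γ₀(M), ℤ)` is a finite torsion-free
`ℤ`-module (`ES.finite_addHom_int`), and so is every subgroup.
-/

set_option autoImplicit false

namespace Fermat.Agent.S41.PD

open CongruenceSubgroup ModularCurve.Period
open scoped MatrixGroups

/-- **PD-Fr.**  `Hom_par(Γ₀(M), ℤ)` is a free `ℤ`-module. -/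
theorem lpar_free (M : ℕ) [NeZero M] : Module.Free ℤ (Fermat.Agent.S41.Lpar M) := by
  have : Group.FG (Gamma0 M) := (Group.fg_iff_subgroup_fg _).mpr (Fermat.Agent.S22.gamma0_fg M)
  have : Module.Finite ℤ (Additive (Gamma0 M) →+ ℤ) :=
    Fermat.Agent.ES.finite_addHom_int (Gamma0 M)
  have : Module.Finite ℤ (parabolicHoms ℤ (Gamma0 M) ℤ) := inferInstance
  have : Module.Free ℤ (parabolicHoms ℤ (Gamma0 M) ℤ) := Module.free_of_finite_type_torsion_free'
  let e : (parabolicHoms ℤ (Gamma0 M) ℤ) ≃+ (Fermat.Agent.S41.Lpar M) :=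
    { toFun := fun x => ⟨x.1, x.2⟩
      invFun := fun x => ⟨x.1, x.2⟩
      left_inv := fun _ => rfl
      right_inv := fun _ => rfl
      map_add' := fun _ _ => rfl }
  exact Module.Free.of_equiv e.toIntLinearEquiv

/-- `Hom_par(Γ₀(M), ℤ)` is a finite `ℤ`-module. -/
theorem lpar_finite (M : ℕ) [NeZero M] : Module.Finite ℤ (Fermat.Agent.S41.Lpar M) := by
  have : Group.FG (Gamma0 M) := (Group.fg_iff_subgroup_fg _).mpr (Fermat.Agent.S22.gamma0_fg M)
  have : Module.Finite ℤ (Additive (Gamma0 M) →+ ℤ) :=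
    Fermat.Agent.ES.finite_addHom_int (Gamma0 M)
  have : Module.Finite ℤ (parabolicHoms ℤ (Gamma0 M) ℤ) := inferInstance
  let e : (parabolicHoms ℤ (Gamma0 M) ℤ) ≃+ (Fermat.Agent.S41.Lpar M) :=
    { toFun := fun x => ⟨x.1, x.2⟩
      invFun := fun x => ⟨x.1, x.2⟩
      left_inv := fun _ => rfl
      right_inv := fun _ => rfl
      map_add' := fun _ _ => rfl }
  exact Module.Finite.equiv e.toIntLinearEquiv

end Fermat.Agent.S41.PD
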