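import Fermat.Agent.S41.PD.Plan
import Fermat.Agent.S41.PD.Pairing

/-!
# S41 R6, piece PD-G: the intrinsic formula for the pairing

For parabolic `x, y : Γ → ℚ` with `[x, y] = v` and `β : Γ → ℚ` with
`β (γ γ') = β γ + β γ' - x γ · y γ'`:

  `∑_{q ∈ G ⧸ Γ} β (r(q)⁻¹ Tⁿ r(q)) = n · v`

whenever `Tⁿ` lies in all conjugates of `Γ`.

Proof: `B g = ∑_q β (k(g, q))` satisfies `B (g h) = B g + B h - ⟨a⁰ g, ρ(g) b⁰ h⟩` (`a⁰, b⁰` the
Shapiro cocycles); correcting by the coboundaries `a = a⁰ + ∂ξ_a`, `b = b⁰ + ∂ξ_b` gives `B'` with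
`B' (g h) = B' g + B' h - ⟨a g, ρ(g) b h⟩`, which is evaluated at `Tⁿ` from the relations
`S² = U³ = -1`, `T = -S U`.
-/

set_option autoImplicit false

namespace Fermat.Agent.S41.PD

open scoped MatrixGroups
open ModularGroup (S T)
open ModularCurve.Period (IsParabolicHom)
open Matrix

section eval

variable {Γ : Subgroup SL(2, ℤ)} [Fintype (SL(2, ℤ) ⧸ Γ)]

/-- Evaluation of a "quadratic" function with defect `⟨a g, ρ(g) b h⟩` at `Tⁿ`. -/
theorem intr_eval (hneg : (-1 : SL(2, ℤ)) ∈ Γ)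
    {a b : SL(2, ℤ) → (SL(2, ℤ) ⧸ Γ) → ℚ} (ha : IsCoc a) (hb : IsCoc b)
    (ha1 : a (-1) = 0) (hb1 : b (-1) = 0) (haU : a U = 0) (hbT : b T = 0)
    (Bp : SL(2, ℤ) → ℚ) (hBp : ∀ g h, Bp (g * h) = Bp g + Bp h - a g ⬝ᵥ rho g (b h)) (n : ℕ) :
    2 * Bp (T ^ n) = n * (a S ⬝ᵥ b S) := by
  have h1 : Bp 1 = 0 := by
    have := hBp 1 1
    rw [mul_one, ha.map_one, zero_dotProduct] at this
    linarith
  have hm1 : Bp (-1) = 0 := by
    have := hBp (-1) (-1)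
    rw [neg_one_mul_neg_one, h1, ha1, zero_dotProduct] at this
    linarith
  have hUU : a (U * U) = 0 := by
    rw [ha U U, haU, rho_zero, add_zero]
  have hU : Bp U = 0 := by
    have e1 := hBp U U
    rw [haU, zero_dotProduct] at e1
    have e2 := hBp (U * U) U
    rw [U_mul_U_mul_U, hm1, hUU, zero_dotProduct] at e2
    linarith
  have hbS : rho S (b S) = -b S := eq_neg_of_add_eq_zero_right (hb.map_S_add hb1)
  have hS : 2 * Bp S = -(a S ⬝ᵥ b S) := by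
    have e1 := hBp S S
    rw [S_mul_S, hm1, hbS, dotProduct_neg] at e1
    linarith
  have hmS : Bp (-1 * S) = Bp S := by
    have e1 := hBp (-1) S
    rw [hm1, ha1, zero_dotProduct] at e1
    linarith
  have hamS : a (-1 * S) = a S := by
    rw [ha (-1) S, ha1, rho_neg_one hneg, zero_add]
  have hT : 2 * Bp T = a S ⬝ᵥ b S := by
    have e1 := hBp (-1 * S) U
    rw [← T_eq, hmS, hU, hamS, hb.map_U_of_map_T hbT, rho_mul, rho_neg_one hneg, hbS,
      dotProduct_neg] at e1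
    linarith
  have hTn : ∀ k : ℕ, Bp (T ^ k) = k * Bp T := by
    intro k
    induction k with
    | zero => simp [h1]
    | succ k ih =>
      rw [pow_succ, hBp, hbT, rho_zero, dotProduct_zero, ih]
      push_cast
      ring
  rw [hTn n]
  linear_combination (n : ℚ) * hT

omit [Fintype (SL(2, ℤ) ⧸ Γ)] in
theorem intr_map_T_pow {b : SL(2, ℤ) → (SL(2, ℤ) ⧸ Γ) → ℚ} (hb : IsCoc b) (hbT : b T = 0)
    (n : ℕ) : b (T ^ n) = 0 := by
  induction n with
  | zero => rw [pow_zero, hb.map_one]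
  | succ k ih => rw [pow_succ, hb, ih, hbT, rho_zero, add_zero]

omit [Fintype (SL(2, ℤ) ⧸ Γ)] in
/-- an element of the normal core acts trivially on the cosets -/
theorem intr_smul_eq_of_core {t : SL(2, ℤ)} (ht : ∀ g : SL(2, ℤ), g⁻¹ * t * g ∈ Γ)
    (q : SL(2, ℤ) ⧸ Γ) : t • q = q := by
  induction q using QuotientGroup.induction_on with
  | H g =>
    show (((t * g : SL(2, ℤ)) : SL(2, ℤ)) : SL(2, ℤ) ⧸ Γ) = _
    rw [QuotientGroup.eq]
    have : (t * g)⁻¹ * g = g⁻¹ * t⁻¹ * g := by group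
    rw [this]
    have h := inv_mem (ht g)
    have e : (g⁻¹ * t * g)⁻¹ = g⁻¹ * t⁻¹ * g := by group
    rwa [e] at h

end eval

section main

variable {Γ : Subgroup SL(2, ℤ)} [Fintype (SL(2, ℤ) ⧸ Γ)]

/-- `B g = ∑_q β (k(g, q))`. -/
noncomputable def intrB {r : SL(2, ℤ) ⧸ Γ → SL(2, ℤ)} (hr : IsSection Γ r) (β : Γ → ℚ)
    (g : SL(2, ℤ)) : ℚ :=
  ∑ q, β (kEl hr g q)

theorem intrB_mul {r : SL(2, ℤ) ⧸ Γ → SL(2, ℤ)} (hr : IsSection Γ r) (β : Γ → ℚ)
    (x y : Additive Γ →+ ℚ)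
    (hβ : ∀ γ γ' : Γ, β (γ * γ') = β γ + β γ' - x (Additive.ofMul γ) * y (Additive.ofMul γ'))
    (g h : SL(2, ℤ)) :
    intrB hr β (g * h) = intrB hr β g + intrB hr β h - shap hr x g ⬝ᵥ rho g (shap hr y h) := by
  unfold intrB
  simp only [kEl_mul, hβ]
  rw [Finset.sum_sub_distrib, Finset.sum_add_distrib]
  have e1 : ∑ q, β (kEl hr h (g⁻¹ • q)) = ∑ q, β (kEl hr h q) :=
    sum_rho g (fun q => β (kEl hr h q))
  rw [e1]
  rfl

/-- **PD-G, main computation.** -/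
theorem intr_main (hneg : (-1 : SL(2, ℤ)) ∈ Γ) (x y : Additive Γ →+ ℚ) (v : ℚ)
    (hx : IsParabolicHom Γ x) (hy : IsParabolicHom Γ y) (hv : IsPairing Γ x y v)
    (β : Γ → ℚ)
    (hβ : ∀ γ γ' : Γ, β (γ * γ') = β γ + β γ' - x (Additive.ofMul γ) * y (Additive.ofMul γ'))
    {r : SL(2, ℤ) ⧸ Γ → SL(2, ℤ)} (hr : IsSection Γ r)
    (n : ℕ) (hn : ∀ g : SL(2, ℤ), g⁻¹ * T ^ n * g ∈ Γ) :
    ∑ q, β ⟨(r q)⁻¹ * T ^ n * r q, hn (r q)⟩ = n * v := by
  obtain ⟨a, b, ha, haU, hb, hbT, hab⟩ := hv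
  have hab' : 2 * v = a S ⬝ᵥ b S := hab
  obtain ⟨ξa, hξa⟩ := (represents_shap hr x).exists_cobdry ha
  obtain ⟨ξb, hξb⟩ := (represents_shap hr y).exists_cobdry hb
  have ha1 : a (-1) = 0 := ha.map_neg_one hneg (parabolic_neg_one hneg x hx)
  have hb1 : b (-1) = 0 := hb.map_neg_one hneg (parabolic_neg_one hneg y hy)
  have hacoc := isCoc_shap hr x
  have hbcoc := isCoc_shap hr y
  -- the corrected function
  set Bp : SL(2, ℤ) → ℚ := fun g =>
    intrB hr β g - shap hr x g ⬝ᵥ rho g ξb + ξa ⬝ᵥ b g with hBpdef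
  have hBp : ∀ g h, Bp (g * h) = Bp g + Bp h - a g ⬝ᵥ rho g (b h) := by
    intro g h
    have ea : a g = shap hr x g + (rho g ξa - ξa) := by
      have := congrFun hξa g
      rwa [Pi.add_apply, cobdry_apply] at this
    have eb : b h = shap hr y h + (rho h ξb - ξb) := by
      have := congrFun hξb h
      rwa [Pi.add_apply, cobdry_apply] at this
    have e1 : ξa ⬝ᵥ b (g * h) = ξa ⬝ᵥ b g + ξa ⬝ᵥ rho g (b h) := by
      rw [hb.1 g h, dotProduct_add]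
    have e2 : shap hr x (g * h) ⬝ᵥ rho (g * h) ξb
        = shap hr x g ⬝ᵥ rho g (rho h ξb) + shap hr x h ⬝ᵥ rho h ξb := by
      rw [hacoc g h, add_dotProduct, rho_mul, dot_rho_rho]
    have e3 : a g ⬝ᵥ rho g (b h)
        = shap hr x g ⬝ᵥ rho g (shap hr y h) + shap hr x g ⬝ᵥ rho g (rho h ξb)
          - shap hr x g ⬝ᵥ rho g ξb + ξa ⬝ᵥ b h - ξa ⬝ᵥ rho g (b h) := by
      have e4 : a g ⬝ᵥ rho g (b h)
          = shap hr x g ⬝ᵥ rho g (b h) + rho g ξa ⬝ᵥ rho g (b h) - ξa ⬝ᵥ rho g (b h) := by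
        rw [ea, add_dotProduct, sub_dotProduct]
        ring
      have e5 : shap hr x g ⬝ᵥ rho g (b h)
          = shap hr x g ⬝ᵥ rho g (shap hr y h) + shap hr x g ⬝ᵥ rho g (rho h ξb)
            - shap hr x g ⬝ᵥ rho g ξb := by
        rw [eb, rho_add, rho_sub, dotProduct_add, dotProduct_sub]
        ring
      rw [e4, e5, dot_rho_rho]
    simp only [hBpdef]
    rw [intrB_mul hr β x y hβ g h, e1, e2, e3]
    ring
  have hmain := intr_eval hneg ha.1 hb.1 ha1 hb1 haU hbT Bp hBp n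
  -- the value at `Tⁿ`
  have hfix : ∀ q : SL(2, ℤ) ⧸ Γ, T ^ n • q = q := intr_smul_eq_of_core hn
  have hk : ∀ q : SL(2, ℤ) ⧸ Γ,
      kEl hr (T ^ n) q = ⟨(r q)⁻¹ * T ^ n * r q, hn (r q)⟩ := by
    intro q
    apply Subtype.ext
    rw [kEl_of_smul_eq hr (hfix q)]
  have hsh : shap hr x (T ^ n) = 0 := by
    funext q
    rw [shap_apply, Pi.zero_apply]
    apply hx
    rw [hk q]
    show ((((r q)⁻¹ * T ^ n * r q : SL(2, ℤ))) : Matrix (Fin 2) (Fin 2) ℤ).trace ^ 2 = 4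
    rw [trace_conj_eq, ← zpow_natCast, trace_T_zpow]
    norm_num
  have hbTn : b (T ^ n) = 0 := intr_map_T_pow hb.1 hbT n
  have hBpT : Bp (T ^ n) = ∑ q, β ⟨(r q)⁻¹ * T ^ n * r q, hn (r q)⟩ := by
    simp only [hBpdef]
    rw [hsh, hbTn, zero_dotProduct, dotProduct_zero, sub_zero, add_zero]
    unfold intrB
    exact Finset.sum_congr rfl fun q _ => by rw [hk q]
  rw [← hBpT]
  have : 2 * Bp (T ^ n) = 2 * (n * v) := by
    rw [hmain, ← hab']
    ring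
  linarith

end main

/-- **PD-G.** The intrinsic formula. -/
theorem stmtIntrinsic : StmtIntrinsic := by
  intro Γ _ hneg x y v hx hy hv β hβ r hr n hn
  exact intr_main hneg x y v hx hy hv β hβ hr n hn

end Fermat.Agent.S41.PD
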