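import Fermat.Agent.S41.PD.Shapiro

/-!
# S41 R6, piece PD-B (part 2): normal forms of parabolic classes, orthogonality

`G = SL(2, ℤ)`, `Γ ≤ G` with `-1 ∈ Γ`, `Q = G ⧸ Γ`.
* `exists_NF1`: a parabolic `x` is represented by a cocycle `b` with `b T = 0`;
* `exists_NF2`: a parabolic `x` (coefficients without torsion) is represented by `a` with `a U = 0`;
* `sum_NF_eq`: `∑ a_S b_S` does not depend on the normal forms chosen.
-/

set_option autoImplicit false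

namespace Fermat.Agent.S41.PD

open scoped MatrixGroups
open ModularGroup (S T)
open ModularCurve.Period (IsParabolicHom)
open Matrix

theorem S_mul_S : S * S = (-1 : SL(2, ℤ)) := by
  ext i j
  fin_cases i <;> fin_cases j <;> simp [ModularGroup.coe_S]

theorem U_mul_U_mul_U : U * U * U = (-1 : SL(2, ℤ)) := by
  ext i j
  fin_cases i <;> fin_cases j <;>
    simp [U, ModularGroup.coe_S, ModularGroup.coe_T, Matrix.mul_apply, Fin.sum_univ_two]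

theorem S_inv_eq : S⁻¹ = -1 * S := by
  rw [inv_eq_iff_mul_eq_one]
  have : S * (-1 * S) = -1 * (S * S) := by simp
  rw [this, S_mul_S]
  simp

theorem T_eq : T = -1 * S * U := by
  rw [U, ← mul_assoc, mul_assoc (-1) S S, S_mul_S]
  simp

theorem neg_one_mul_neg_one : (-1 : SL(2, ℤ)) * -1 = 1 := by simp

theorem U_pow_six : U ^ 6 = 1 := by
  have h : U ^ 6 = (U * U * U) * (U * U * U) := by
    simp only [pow_succ, pow_zero, one_mul, mul_assoc]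
  rw [h, U_mul_U_mul_U, neg_one_mul_neg_one]

theorem trace_conj_eq (x g : SL(2, ℤ)) :
    ((x⁻¹ * g * x : SL(2, ℤ)) : Matrix (Fin 2) (Fin 2) ℤ).trace =
      (g : Matrix (Fin 2) (Fin 2) ℤ).trace := by
  rw [Matrix.SpecialLinearGroup.coe_mul, Matrix.trace_mul_comm,
    ← Matrix.SpecialLinearGroup.coe_mul, mul_inv_cancel_left]

theorem trace_T_zpow (n : ℤ) : ((T ^ n : SL(2, ℤ)) : Matrix (Fin 2) (Fin 2) ℤ).trace = 2 := by
  rw [ModularGroup.coe_T_zpow]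
  simp [Matrix.trace_fin_two]

section

variable {Γ : Subgroup SL(2, ℤ)} {R : Type*}

theorem neg_one_smul_eq (hneg : (-1 : SL(2, ℤ)) ∈ Γ) (q : SL(2, ℤ) ⧸ Γ) :
    (-1 : SL(2, ℤ)) • q = q := by
  induction q using QuotientGroup.induction_on with
  | H g =>
    show (((-1 * g : SL(2, ℤ)) : SL(2, ℤ)) : SL(2, ℤ) ⧸ Γ) = _
    rw [QuotientGroup.eq]
    have : (-1 * g)⁻¹ * g = -1 := by
      rw [_root_.mul_inv_rev, mul_assoc]
      simp
    rw [this]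
    exact hneg

theorem rho_neg_one (hneg : (-1 : SL(2, ℤ)) ∈ Γ) (v : (SL(2, ℤ) ⧸ Γ) → R) :
    rho (-1 : SL(2, ℤ)) v = v := by
  funext q
  rw [rho_apply]
  have : (-1 : SL(2, ℤ))⁻¹ = -1 := by simp
  rw [this, neg_one_smul_eq hneg]

theorem rho_S_rho_S (hneg : (-1 : SL(2, ℤ)) ∈ Γ) (v : (SL(2, ℤ) ⧸ Γ) → R) :
    rho S (rho S v) = v := by
  rw [← rho_mul, S_mul_S, rho_neg_one hneg]

theorem rho_U_rho_U_rho_U (hneg : (-1 : SL(2, ℤ)) ∈ Γ) (v : (SL(2, ℤ) ⧸ Γ) → R) :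
    rho U (rho U (rho U v)) = v := by
  rw [← rho_mul, ← rho_mul, U_mul_U_mul_U, rho_neg_one hneg]

theorem rho_T_eq (hneg : (-1 : SL(2, ℤ)) ∈ Γ) (v : (SL(2, ℤ) ⧸ Γ) → R) :
    rho T v = rho S (rho U v) := by
  conv_lhs => rw [T_eq, mul_assoc, rho_mul, rho_neg_one hneg, rho_mul]

theorem rho_U_eq (v : (SL(2, ℤ) ⧸ Γ) → R) : rho U v = rho S (rho T v) := by
  rw [U, rho_mul]

theorem rho_S_inv (hneg : (-1 : SL(2, ℤ)) ∈ Γ) (v : (SL(2, ℤ) ⧸ Γ) → R) :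
    rho S⁻¹ v = rho S v := by
  rw [S_inv_eq, rho_mul, rho_neg_one hneg]

end

section cocycle

variable {Γ : Subgroup SL(2, ℤ)} {R : Type*} [AddCommGroup R]

/-- For a cocycle `c`, `c (-1)` is an invariant function. -/
theorem IsCoc.rho_map_neg_one (hneg : (-1 : SL(2, ℤ)) ∈ Γ) {c : SL(2, ℤ) → (SL(2, ℤ) ⧸ Γ) → R}
    (hc : IsCoc c) (g : SL(2, ℤ)) : rho g (c (-1)) = c (-1) := by
  have h1 := hc g (-1)
  have h2 := hc (-1) g
  have e : g * -1 = -1 * g := by simp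
  rw [e, h2, rho_neg_one hneg] at h1
  have := add_left_cancel (a := c g) (b := c (-1)) (c := rho g (c (-1)))
    (by rw [← h1]; abel)
  exact this.symm

theorem Represents.map_neg_one (hneg : (-1 : SL(2, ℤ)) ∈ Γ)
    {c : SL(2, ℤ) → (SL(2, ℤ) ⧸ Γ) → R} {χ : Additive Γ →+ R} (hc : Represents Γ c χ)
    (hχ : χ (Additive.ofMul (⟨-1, hneg⟩ : Γ)) = 0) : c (-1) = 0 := by
  funext q
  induction q using QuotientGroup.induction_on with
  | H g =>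
    have h1 := congrFun (hc.1.rho_map_neg_one hneg g⁻¹) ((1 : SL(2, ℤ)) : SL(2, ℤ) ⧸ Γ)
    rw [rho_apply, inv_inv] at h1
    have h2 : g • ((1 : SL(2, ℤ)) : SL(2, ℤ) ⧸ Γ) = ((g : SL(2, ℤ)) : SL(2, ℤ) ⧸ Γ) := by
      show (((g * 1 : SL(2, ℤ)) : SL(2, ℤ)) : SL(2, ℤ) ⧸ Γ) = _
      rw [mul_one]
    rw [h2] at h1
    rw [h1, Pi.zero_apply]
    exact (hc.2 ⟨-1, hneg⟩).trans hχ

/-- A cocycle with `c (-1) = 0`: `c S ∈ ker (1 + S)`. -/
theorem IsCoc.map_S_add {c : SL(2, ℤ) → (SL(2, ℤ) ⧸ Γ) → R}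
    (hc : IsCoc c) (h1 : c (-1) = 0) : c S + rho S (c S) = 0 := by
  rw [← hc, S_mul_S, h1]

/-- A cocycle with `c (-1) = 0`: `c U ∈ ker (1 + U + U²)`. -/
theorem IsCoc.map_U_add {c : SL(2, ℤ) → (SL(2, ℤ) ⧸ Γ) → R}
    (hc : IsCoc c) (h1 : c (-1) = 0) : c U + rho U (c U) + rho U (rho U (c U)) = 0 := by
  have h := hc (U * U) U
  rw [hc U U, U_mul_U_mul_U, h1, rho_mul] at h
  rw [h]

theorem IsCoc.map_S_inv (hneg : (-1 : SL(2, ℤ)) ∈ Γ) {c : SL(2, ℤ) → (SL(2, ℤ) ⧸ Γ) → R}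
    (hc : IsCoc c) (h1 : c (-1) = 0) : c S⁻¹ = c S := by
  rw [S_inv_eq, hc, h1, rho_neg_one hneg, zero_add]

/-- `T`-normal form: `b T = 0` gives `b U = b S`. -/
theorem IsCoc.map_U_of_map_T {c : SL(2, ℤ) → (SL(2, ℤ) ⧸ Γ) → R}
    (hc : IsCoc c) (hT : c T = 0) : c U = c S := by
  rw [U, hc, hT, rho_zero, add_zero]

/-- `U`-normal form: `a U = 0` gives `a T = a S`. -/
theorem IsCoc.map_T_of_map_U (hneg : (-1 : SL(2, ℤ)) ∈ Γ)
    {c : SL(2, ℤ) → (SL(2, ℤ) ⧸ Γ) → R} (hc : IsCoc c) (h1 : c (-1) = 0) (hU : c U = 0) :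
    c T = c S := by
  rw [T_eq, mul_assoc, hc, h1, rho_neg_one hneg, zero_add, hc, hU, rho_zero, add_zero]

end cocycle

section existence

variable {Γ : Subgroup SL(2, ℤ)} {R : Type*} [AddCommGroup R]

/-- NF1 exists: a parabolic `x` is represented by a cocycle vanishing at `T`. -/
theorem exists_NF1 (x : Additive Γ →+ R) (hx : IsParabolicHom Γ x) :
    ∃ b : SL(2, ℤ) → (SL(2, ℤ) ⧸ Γ) → R, Represents Γ b x ∧ b T = 0 := by
  have hr := isSection_out Γ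
  have hfix : ∀ (m : ℤ) (q : SL(2, ℤ) ⧸ Γ), T ^ m • q = q → shap hr x (T ^ m) q = 0 := by
    intro m q hq
    rw [shap_apply]
    apply hx
    rw [kEl_of_smul_eq hr hq, trace_conj_eq, trace_T_zpow]
    norm_num
  obtain ⟨ξ, hξ⟩ := (isCoc_shap hr x).exists_cobdry_at T hfix
  exact ⟨shap hr x + cobdry ξ, (represents_shap hr x).add_cobdry ξ, hξ⟩

/-- NF2 exists: a homomorphism `x` killing the elements of finite order is represented by a
cocycle vanishing at `U`. -/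
theorem exists_NF2 (x : Additive Γ →+ R)
    (hx : ∀ γ : Γ, γ ^ 6 = 1 → x (Additive.ofMul γ) = 0) :
    ∃ a : SL(2, ℤ) → (SL(2, ℤ) ⧸ Γ) → R, Represents Γ a x ∧ a U = 0 := by
  have hr := isSection_out Γ
  have hfix : ∀ (m : ℤ) (q : SL(2, ℤ) ⧸ Γ), U ^ m • q = q → shap hr x (U ^ m) q = 0 := by
    intro m q hq
    rw [shap_apply]
    apply hx
    apply Subtype.ext
    rw [Subgroup.coe_pow, kEl_of_smul_eq hr hq, Subgroup.coe_one]
    have h6 : (U ^ m) ^ 6 = 1 := by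
      rw [← zpow_natCast, ← _root_.zpow_mul, mul_comm, _root_.zpow_mul, zpow_natCast, U_pow_six,
        _root_.one_zpow]
    have : ((Quotient.out q)⁻¹ * U ^ m * Quotient.out q) ^ 6 =
        (Quotient.out q)⁻¹ * (U ^ m) ^ 6 * Quotient.out q := by
      have := conj_pow (i := 6) (a := (Quotient.out q)⁻¹) (b := U ^ m)
      rw [inv_inv] at this
      exact this
    rw [this, h6]
    group
  obtain ⟨ξ, hξ⟩ := (isCoc_shap hr x).exists_cobdry_at U hfix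
  exact ⟨shap hr x + cobdry ξ, (represents_shap hr x).add_cobdry ξ, hξ⟩

end existence

section dot

variable {G : Type*} [Group G] {Q : Type*} [MulAction G Q] [Fintype Q] {R : Type*} [CommRing R]

theorem dot_rho_rho (g : G) (u v : Q → R) : rho g u ⬝ᵥ rho g v = u ⬝ᵥ v :=
  sum_rho_mul_rho g u v

theorem dot_rho_left (g : G) (u v : Q → R) : rho g u ⬝ᵥ v = u ⬝ᵥ rho g⁻¹ v :=
  sum_rho_mul g u v

theorem dot_rho_right (g : G) (u v : Q → R) : u ⬝ᵥ rho g v = rho g⁻¹ u ⬝ᵥ v :=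
  sum_mul_rho g u v

theorem dot_cobdry_left_of_fixed (g : G) (m η : Q → R) (hη : rho g η = η) :
    (rho g m - m) ⬝ᵥ η = 0 := by
  rw [sub_dotProduct, dot_rho_left]
  have : rho g⁻¹ η = η := by
    conv_lhs => rw [← hη]
    rw [rho_inv_rho]
  rw [this, sub_self]

theorem dot_cobdry_right_of_fixed (g : G) (m η : Q → R) (hη : rho g η = η) :
    η ⬝ᵥ (rho g m - m) = 0 := by
  rw [dotProduct_comm, dot_cobdry_left_of_fixed g m η hη]

end dot

section orth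

variable {Γ : Subgroup SL(2, ℤ)} [Fintype (SL(2, ℤ) ⧸ Γ)] {R : Type*} [CommRing R]

/-- `⟨Z*, B⟩ = 0`: for `e ∈ ker(1+S) ∩ (T-1)M` and `η` `T`-invariant, `⟨e, (S-1)η⟩ = 0`. -/
theorem dot_Zs_B (hneg : (-1 : SL(2, ℤ)) ∈ Γ) (e m η : (SL(2, ℤ) ⧸ Γ) → R)
    (he : e + rho S e = 0) (hm : e = rho T m - m) (hη : rho T η = η) :
    e ⬝ᵥ (rho S η - η) = 0 := by
  have h1 : e ⬝ᵥ η = 0 := by rw [hm]; exact dot_cobdry_left_of_fixed T m η hη
  have h2 : rho S e = -e := eq_neg_of_add_eq_zero_right he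
  rw [dotProduct_sub, dot_rho_right, rho_S_inv hneg, h2, neg_dotProduct, h1]
  simp

/-- `⟨B*, Z⟩ = 0`: for `ξ` `U`-invariant and `e ∈ ker(1+S) ∩ ker(1+U+U²)`, `⟨(S-1)ξ, e⟩ = 0`
(no 3-torsion). -/
theorem dot_Bs_Z (hneg : (-1 : SL(2, ℤ)) ∈ Γ) (h3 : ∀ r : R, 3 * r = 0 → r = 0)
    (ξ e : (SL(2, ℤ) ⧸ Γ) → R) (hξ : rho U ξ = ξ)
    (he : e + rho S e = 0) (heU : e + rho U e + rho U (rho U e) = 0) :
    (rho S ξ - ξ) ⬝ᵥ e = 0 := by
  have hξ' : rho U⁻¹ ξ = ξ := by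
    conv_lhs => rw [← hξ]
    rw [rho_inv_rho]
  have h1 : ξ ⬝ᵥ rho U e = ξ ⬝ᵥ e := by rw [dot_rho_right, hξ']
  have h2 : ξ ⬝ᵥ rho U (rho U e) = ξ ⬝ᵥ e := by rw [dot_rho_right, hξ', h1]
  have h4 : ξ ⬝ᵥ e = 0 := by
    apply h3
    have := congrArg (fun w => ξ ⬝ᵥ w) heU
    simp only [dotProduct_add, dotProduct_zero, h1, h2] at this
    linear_combination this
  have h5 : rho S e = -e := eq_neg_of_add_eq_zero_right he
  rw [sub_dotProduct, dot_rho_left, rho_S_inv hneg, h5, dotProduct_neg, h4]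
  simp

/-- `⟨B*, B⟩ = 0`. -/
theorem dot_Bs_B (hneg : (-1 : SL(2, ℤ)) ∈ Γ) (ξ η : (SL(2, ℤ) ⧸ Γ) → R)
    (hξ : rho U ξ = ξ) (hη : rho T η = η) : (rho S ξ - ξ) ⬝ᵥ (rho S η - η) = 0 := by
  have hξ' : rho U⁻¹ ξ = ξ := by
    conv_lhs => rw [← hξ]
    rw [rho_inv_rho]
  have h1 : rho S η = rho U η := by
    have := congrArg (rho S) hη
    rw [rho_T_eq hneg, rho_S_rho_S hneg] at this
    exact this.symm
  have h2 : ξ ⬝ᵥ rho S η = ξ ⬝ᵥ η := by rw [h1, dot_rho_right, hξ']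
  have h3 : rho S ξ ⬝ᵥ η = ξ ⬝ᵥ η := by rw [dot_rho_left, rho_S_inv hneg, h2]
  rw [sub_dotProduct, dotProduct_sub, dotProduct_sub, dot_rho_rho, h2, h3]
  ring

end orth

end Fermat.Agent.S41.PD
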