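import Fermat.Agent.S41.PD.Plan
import Fermat.Agent.S41.PD.NormalForm

/-!
# S41 R6, piece PD-D1: the lattice lemma, existence

`stmtLatticeEx : StmtLatticeEx`: every functional on `Z* = ker (1 + S) ∩ (T - 1) M` killing
`B* = (S - 1) M^U` is `e* ↦ ½ ⟨e*, e⟩` for some `e ∈ Z = ker (1 + S) ∩ ker (1 + U + U²)`.

Proof.  `Z*` is saturated in `M = ℤ^Q` (`pdx_sat_image`), so `M / Z*` is free and `Z*` is a direct
summand: the functional extends to `Φ = ⟨c, ·⟩` on `M`.  Put `e := c - ρ(S) c`; then `e ∈ ker (1 + S)`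
and `⟨e*, e⟩ = 2 Φ(e*)` for `e* ∈ ker (1 + S)`.  For `ξ` fixed by `U`, `0 = 2 φ((S - 1) ξ) =
⟨(S - 1) ξ, e⟩ = - 2 ⟨ξ, e⟩`; with `ξ = w := e + ρ(U) e + ρ(U)² e` this gives `⟨w, w⟩ = 0`, `w = 0`.
-/

set_option autoImplicit false

namespace Fermat.Agent.S41.PD

open scoped MatrixGroups
open ModularGroup (S T)

section Generic

variable {G : Type*} [Group G] {Q : Type*} [MulAction G Q]

theorem pdx_rho_zsmul (g : G) (n : ℤ) (v : Q → ℤ) : rho g (n • v) = n • rho g v := rfl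

/-- The image of `ρ(g) - 1` on `ℤ^Q` is saturated. -/
theorem pdx_sat_image (g : G) {n : ℤ} (hn : n ≠ 0) (v m : Q → ℤ)
    (h : n • v = rho g m - m) : ∃ m' : Q → ℤ, v = rho g m' - m' := by
  refine ⟨fun q => m q / n, ?_⟩
  funext q
  have hq := congrFun h q
  simp only [Pi.smul_apply, smul_eq_mul, Pi.sub_apply, rho_apply] at hq ⊢
  have h1 : m (g⁻¹ • q) = m q + n * v q := by linarith
  rw [h1, Int.add_mul_ediv_left _ _ hn]
  ring

end Generic

section Lattice

variable {Q : Type} [MulAction SL(2, ℤ) Q]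

theorem pdx_rho_neg_one (hneg : ∀ q : Q, (-1 : SL(2, ℤ)) • q = q) (v : Q → ℤ) :
    rho (-1 : SL(2, ℤ)) v = v := by
  funext q
  rw [rho_apply]
  congr 1
  rw [inv_smul_eq_iff, hneg]

theorem pdx_rho_S_rho_S (hneg : ∀ q : Q, (-1 : SL(2, ℤ)) • q = q) (v : Q → ℤ) :
    rho S (rho S v) = v := by
  rw [← rho_mul, S_mul_S, pdx_rho_neg_one hneg]

theorem pdx_rho_S_inv (hneg : ∀ q : Q, (-1 : SL(2, ℤ)) • q = q) (v : Q → ℤ) :
    rho S⁻¹ v = rho S v := by
  conv_lhs => rw [← pdx_rho_S_rho_S hneg v]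
  rw [rho_inv_rho]

theorem pdx_rho_U_cube (hneg : ∀ q : Q, (-1 : SL(2, ℤ)) • q = q) (v : Q → ℤ) :
    rho U (rho U (rho U v)) = v := by
  rw [← rho_mul, ← rho_mul, U_mul_U_mul_U, pdx_rho_neg_one hneg]

theorem pdx_rho_U_inv (hneg : ∀ q : Q, (-1 : SL(2, ℤ)) • q = q) (v : Q → ℤ) :
    rho U⁻¹ v = rho U (rho U v) := by
  conv_lhs => rw [← pdx_rho_U_cube hneg v]
  rw [rho_inv_rho]

theorem pdx_rho_T (hneg : ∀ q : Q, (-1 : SL(2, ℤ)) • q = q) (v : Q → ℤ) :
    rho T v = rho S (rho U v) := by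
  have hT : T = S⁻¹ * U := by rw [U_def, inv_mul_cancel_left]
  rw [hT, rho_mul, pdx_rho_S_inv hneg]

/-- `Z*` as a submodule of `ℤ^Q`. -/
def pdxZs (Q : Type) [MulAction SL(2, ℤ) Q] : Submodule ℤ (Q → ℤ) where
  carrier := {e | IsZs e}
  add_mem' := by
    rintro a b ⟨ha, ma, hma⟩ ⟨hb, mb, hmb⟩
    refine ⟨?_, ma + mb, ?_⟩
    · rw [rho_add]
      calc a + b + (rho S a + rho S b) = (a + rho S a) + (b + rho S b) := by abel
        _ = 0 := by rw [ha, hb, add_zero]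
    · rw [rho_add, hma, hmb]
      abel
  zero_mem' := ⟨by simp, 0, by simp⟩
  smul_mem' := by
    rintro n a ⟨ha, ma, hma⟩
    refine ⟨?_, n • ma, ?_⟩
    · rw [pdx_rho_zsmul, ← smul_add, ha, smul_zero]
    · rw [pdx_rho_zsmul, ← smul_sub, hma]

theorem pdx_mem_Zs {e : Q → ℤ} : e ∈ pdxZs Q ↔ IsZs e := Iff.rfl

/-- `Z*` is saturated. -/
theorem pdx_Zs_saturated {n : ℤ} (hn : n ≠ 0) {e : Q → ℤ} (h : n • e ∈ pdxZs Q) :
    e ∈ pdxZs Q := by
  obtain ⟨h1, m, hm⟩ := h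
  refine ⟨?_, pdx_sat_image T hn e m hm⟩
  rw [pdx_rho_zsmul, ← smul_add] at h1
  exact (smul_eq_zero.mp h1).resolve_left hn

instance pdx_isTorsionFree : Module.IsTorsionFree ℤ ((Q → ℤ) ⧸ pdxZs Q) := by
  refine Module.IsTorsionFree.of_smul_eq_zero fun n x hx => ?_
  by_cases hn : n = 0
  · exact Or.inl hn
  · right
    obtain ⟨e, rfl⟩ := Submodule.Quotient.mk_surjective _ x
    rw [← Submodule.Quotient.mk_smul, Submodule.Quotient.mk_eq_zero] at hx
    rw [Submodule.Quotient.mk_eq_zero]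
    exact pdx_Zs_saturated hn hx

variable [Fintype Q]

/-- `Z*` is a direct summand of `ℤ^Q`: there is a linear retraction. -/
theorem pdx_exists_retraction :
    ∃ r : (Q → ℤ) →ₗ[ℤ] (Q → ℤ), (∀ v, r v ∈ pdxZs Q) ∧ ∀ e ∈ pdxZs Q, r e = e := by
  have : Module.Free ℤ ((Q → ℤ) ⧸ pdxZs Q) := Module.free_of_finite_type_torsion_free'
  obtain ⟨s, hs⟩ := Module.projective_lifting_property (pdxZs Q).mkQ
    (LinearMap.id : ((Q → ℤ) ⧸ pdxZs Q) →ₗ[ℤ] _) (Submodule.mkQ_surjective _)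
  refine ⟨LinearMap.id - s ∘ₗ (pdxZs Q).mkQ, ?_, ?_⟩
  · intro v
    rw [← Submodule.Quotient.mk_eq_zero]
    have h1 : (pdxZs Q).mkQ (s ((pdxZs Q).mkQ v)) = (pdxZs Q).mkQ v := by
      have := LinearMap.congr_fun hs ((pdxZs Q).mkQ v)
      simpa using this
    simp only [LinearMap.sub_apply, LinearMap.id_coe, id_eq, LinearMap.coe_comp,
      Function.comp_apply, Submodule.Quotient.mk_sub]
    rw [← Submodule.mkQ_apply, ← Submodule.mkQ_apply, h1, sub_self]
  · intro e he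
    have h0 : (pdxZs Q).mkQ e = 0 := by
      rw [Submodule.mkQ_apply, Submodule.Quotient.mk_eq_zero]
      exact he
    simp [h0]

/-- Extension of an additive functional on `Z*` to a linear functional `⟨c, ·⟩` on `ℤ^Q`. -/
theorem pdx_exists_extension (φ : (Q → ℤ) → ℤ)
    (hadd : ∀ e e', IsZs e → IsZs e' → φ (e + e') = φ e + φ e') :
    ∃ c : Q → ℤ, ∀ e, IsZs e → φ e = ∑ q, e q * c q := by
  classical
  obtain ⟨r, hr, hre⟩ := pdx_exists_retraction (Q := Q)
  let φ' : pdxZs Q →+ ℤ := AddMonoidHom.mk' (fun e => φ e.1) fun a b => hadd a.1 b.1 a.2 b.2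
  let Φ : (Q → ℤ) →ₗ[ℤ] ℤ := φ'.toIntLinearMap ∘ₗ (r.codRestrict (pdxZs Q) hr)
  refine ⟨fun q => Φ (fun j => if q = j then 1 else 0), fun e he => ?_⟩
  have h1 : Φ e = φ e := by
    show φ (r e) = φ e
    rw [hre e he]
  rw [← h1, LinearMap.pi_apply_eq_sum_univ Φ e]
  simp

/-- **PD-D1.** -/
theorem stmtLatticeEx : StmtLatticeEx := by
  intro Q _ _ _ hneg φ hadd hB
  obtain ⟨c, hc⟩ := pdx_exists_extension φ hadd
  set e : Q → ℤ := c - rho S c with he
  have heS : e + rho S e = 0 := by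
    rw [he, rho_sub, pdx_rho_S_rho_S hneg]
    abel
  have hSe : rho S e = -e := eq_neg_of_add_eq_zero_right heS
  -- the representation formula on `ker (1 + S)`
  have hrep : ∀ e', IsZs e' → 2 * φ e' = ∑ q, e' q * e q := by
    intro e' he'
    have hSe' : rho S e' = -e' := eq_neg_of_add_eq_zero_right he'.1
    have h1 : ∑ q, e' q * rho S c q = - ∑ q, e' q * c q := by
      rw [sum_mul_rho, pdx_rho_S_inv hneg, hSe']
      simp
    rw [hc e' he', he]
    simp only [Pi.sub_apply, mul_sub, Finset.sum_sub_distrib]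
    rw [h1]
    ring
  refine ⟨e, ⟨heS, ?_⟩, hrep⟩
  -- orthogonality to the `U`-invariants
  have horth : ∀ ξ : Q → ℤ, rho U ξ = ξ → ∑ q, ξ q * e q = 0 := by
    intro ξ hξ
    have hZs : IsZs (rho S ξ - ξ) := by
      refine ⟨?_, ξ, ?_⟩
      · rw [rho_sub, pdx_rho_S_rho_S hneg]
        abel
      · rw [pdx_rho_T hneg, hξ]
    have h1 := hrep _ hZs
    rw [hB ξ hξ, mul_zero] at h1
    have h2 : ∑ q, (rho S ξ - ξ) q * e q = -(2 * ∑ q, ξ q * e q) := by
      simp only [Pi.sub_apply, sub_mul, Finset.sum_sub_distrib]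
      rw [sum_rho_mul, pdx_rho_S_inv hneg, hSe]
      simp only [Pi.neg_apply, mul_neg, Finset.sum_neg_distrib]
      ring
    rw [h2] at h1
    omega
  set w : Q → ℤ := e + rho U e + rho U (rho U e) with hw
  have hwU : rho U w = w := by
    rw [hw, rho_add, rho_add, pdx_rho_U_cube hneg]
    abel
  have h0 : ∑ q, w q * e q = 0 := horth w hwU
  have h1 : ∑ q, w q * rho U e q = 0 := by
    rw [sum_mul_rho]
    have : rho U⁻¹ w = w := by
      conv_lhs => rw [← hwU]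
      rw [rho_inv_rho]
    rw [this, h0]
  have h2 : ∑ q, w q * rho U (rho U e) q = 0 := by
    rw [sum_mul_rho]
    have : rho U⁻¹ w = w := by
      conv_lhs => rw [← hwU]
      rw [rho_inv_rho]
    rw [this, h1]
  have hww : ∑ q, w q * w q = 0 := by
    have : ∀ q, w q * w q = w q * e q + w q * rho U e q + w q * rho U (rho U e) q := by
      intro q
      rw [hw]
      simp only [Pi.add_apply]
      ring
    rw [Finset.sum_congr rfl fun q _ => this q, Finset.sum_add_distrib, Finset.sum_add_distrib,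
      h0, h1, h2]
    rfl
  have hw0 : ∀ q, w q = 0 := by
    intro q
    have := (Finset.sum_eq_zero_iff_of_nonneg fun q _ => mul_self_nonneg (w q)).mp hww q
      (Finset.mem_univ q)
    exact mul_self_eq_zero.mp this
  exact funext hw0

end Lattice

end Fermat.Agent.S41.PD
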