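import Fermat.Agent.S41.PD.Surj

/-!
# S41 R6, piece PD-H: restriction and corestriction are adjoint

For `Γ₁ ≤ Γ ≤ SL(2, ℤ)`: `pull` (composition with `G ⧸ Γ₁ → G ⧸ Γ`) carries cocycles
representing `x` to cocycles representing `x|Γ₁`; `push` (sum over the fibres) carries cocycles
representing `w` to cocycles representing the transfer of `w`.  Both preserve the two normal forms
and are adjoint for the standard forms, hence `[x|Γ₁, w] = [x, tr w]` and `[w, x|Γ₁] = [tr w, x]`.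
-/

set_option autoImplicit false

namespace Fermat.Agent.S41.PD

open scoped MatrixGroups
open ModularGroup (S T)
open ModularCurve.Period (IsParabolicHom)
open Matrix

section pushpull

variable {G : Type*} [Group G] {Γ₁ Γ : Subgroup G} (h : Γ₁ ≤ Γ) {R : Type*}

theorem proj_smul (g : G) (q : G ⧸ Γ₁) :
    Subgroup.quotientMapOfLE h (g • q) = g • Subgroup.quotientMapOfLE h q := by
  induction q using QuotientGroup.induction_on with
  | H x => rfl

theorem proj_mk_one :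
    Subgroup.quotientMapOfLE h (((1 : G) : G ⧸ Γ₁)) = (((1 : G) : G ⧸ Γ)) := rfl

/-- pull-back of functions along `G ⧸ Γ₁ → G ⧸ Γ` -/
def pull (v : G ⧸ Γ → R) : G ⧸ Γ₁ → R := fun q => v (Subgroup.quotientMapOfLE h q)

@[simp] theorem pull_apply (v : G ⧸ Γ → R) (q : G ⧸ Γ₁) :
    pull h v q = v (Subgroup.quotientMapOfLE h q) := rfl

theorem rho_pull (g : G) (v : G ⧸ Γ → R) : rho g (pull h v) = pull h (rho g v) := by
  funext q
  rw [rho_apply, pull_apply, pull_apply, rho_apply, proj_smul]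

theorem pull_add [Add R] (v w : G ⧸ Γ → R) : pull h (v + w) = pull h v + pull h w := rfl

theorem pull_zero [Zero R] : pull h (0 : G ⧸ Γ → R) = 0 := rfl

variable [Fintype (G ⧸ Γ₁)]

open Classical in
/-- push-forward (sum over the fibres) of functions along `G ⧸ Γ₁ → G ⧸ Γ` -/
noncomputable def push [AddCommMonoid R] (w : G ⧸ Γ₁ → R) : G ⧸ Γ → R :=
  fun q => ∑ q₁ ∈ Finset.univ.filter (fun q₁ => Subgroup.quotientMapOfLE h q₁ = q), w q₁

theorem push_add [AddCommMonoid R] (v w : G ⧸ Γ₁ → R) :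
    push h (v + w) = push h v + push h w := by
  funext q
  simp only [push, Pi.add_apply, Finset.sum_add_distrib]

theorem push_zero [AddCommMonoid R] : push h (0 : G ⧸ Γ₁ → R) = 0 := by
  funext q
  simp [push]

theorem push_neg [AddCommGroup R] (v : G ⧸ Γ₁ → R) : push h (-v) = -push h v := by
  funext q
  simp only [push, Pi.neg_apply, Finset.sum_neg_distrib]

theorem push_sub [AddCommGroup R] (v w : G ⧸ Γ₁ → R) :
    push h (v - w) = push h v - push h w := by
  rw [sub_eq_add_neg, push_add, push_neg, sub_eq_add_neg]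

theorem rho_push [AddCommMonoid R] (g : G) (w : G ⧸ Γ₁ → R) :
    rho g (push h w) = push h (rho g w) := by
  classical
  funext q
  rw [rho_apply]
  simp only [push, rho_apply]
  refine Finset.sum_bij (fun q₁ _ => g • q₁) ?_ ?_ ?_ ?_
  · intro q₁ hq₁
    rw [Finset.mem_filter] at hq₁ ⊢
    refine ⟨Finset.mem_univ _, ?_⟩
    rw [proj_smul, hq₁.2, smul_inv_smul]
  · intro a _ b _ hab
    exact smul_left_cancel g hab
  · intro q₁ hq₁
    rw [Finset.mem_filter] at hq₁
    refine ⟨g⁻¹ • q₁, ?_, smul_inv_smul g q₁⟩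
    rw [Finset.mem_filter]
    exact ⟨Finset.mem_univ _, by rw [proj_smul, hq₁.2]⟩
  · intro q₁ _
    rw [inv_smul_smul]

variable [Fintype (G ⧸ Γ)]

/-- `pull` and `push` are adjoint. -/
theorem dot_pull_left [CommRing R] (v : G ⧸ Γ → R) (w : G ⧸ Γ₁ → R) :
    pull h v ⬝ᵥ w = v ⬝ᵥ push h w := by
  classical
  show ∑ q₁, pull h v q₁ * w q₁ = ∑ q, v q * push h w q
  simp only [push, Finset.mul_sum, pull_apply]
  rw [← Finset.sum_fiberwise (s := Finset.univ) (g := Subgroup.quotientMapOfLE h)]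
  refine Finset.sum_congr rfl fun q _ => ?_
  refine Finset.sum_congr rfl fun q₁ hq₁ => ?_
  rw [Finset.mem_filter] at hq₁
  rw [hq₁.2]

theorem dot_pull_right [CommRing R] (v : G ⧸ Γ → R) (w : G ⧸ Γ₁ → R) :
    w ⬝ᵥ pull h v = push h w ⬝ᵥ v := by
  rw [dotProduct_comm, dot_pull_left, dotProduct_comm]

end pushpull

section cocycles

variable {G : Type*} [Group G] {Γ₁ Γ : Subgroup G} (h : Γ₁ ≤ Γ) {R : Type*} [AddCommGroup R]

theorem IsCoc.pull {c : G → (G ⧸ Γ) → R} (hc : IsCoc c) : IsCoc (fun g => pull h (c g)) := by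
  intro g k
  show PD.pull h (c (g * k)) = PD.pull h (c g) + rho g (PD.pull h (c k))
  rw [hc, pull_add, rho_pull]

theorem IsCoc.push [Fintype (G ⧸ Γ₁)] {c : G → (G ⧸ Γ₁) → R} (hc : IsCoc c) :
    IsCoc (fun g => push h (c g)) := by
  intro g k
  show PD.push h (c (g * k)) = PD.push h (c g) + rho g (PD.push h (c k))
  rw [hc, push_add, rho_push]

/-- `pull` of a cocycle representing `x` represents the restriction of `x`. -/
theorem Represents.pull {c : G → (G ⧸ Γ) → R} {x : Additive Γ →+ R} (hc : Represents Γ c x) :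
    Represents Γ₁ (fun g => pull h (c g))
      (x.comp (MonoidHom.toAdditive (Subgroup.inclusion h))) := by
  refine ⟨hc.1.pull h, fun γ => ?_⟩
  show c (γ : G) (Subgroup.quotientMapOfLE h ((1 : G) : G ⧸ Γ₁)) = _
  rw [proj_mk_one]
  exact hc.2 (Subgroup.inclusion h γ)

/-- the cocycle `push ∘ (∂ξ)` is the coboundary of `push ξ` -/
theorem push_cobdry [Fintype (G ⧸ Γ₁)] (ξ : (G ⧸ Γ₁) → R) (g : G) :
    push h (cobdry ξ g) = cobdry (push h ξ) g := by
  rw [cobdry_apply, cobdry_apply, push_sub, rho_push]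

/-- If `push ∘ b` represents `z` for one cocycle `b` representing `w`, then for every such. -/
theorem Represents.push_indep [Fintype (G ⧸ Γ₁)] {b b' : G → (G ⧸ Γ₁) → R}
    {w : Additive Γ₁ →+ R} {z : Additive Γ →+ R} (hb : Represents Γ₁ b w)
    (hb' : Represents Γ₁ b' w) (hz : Represents Γ (fun g => push h (b g)) z) :
    Represents Γ (fun g => push h (b' g)) z := by
  obtain ⟨ξ, hξ⟩ := hb.exists_cobdry hb'
  have : (fun g => PD.push h (b' g)) = (fun g => PD.push h (b g)) + cobdry (PD.push h ξ) := by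
    funext g
    rw [hξ, Pi.add_apply, Pi.add_apply, push_add, push_cobdry]
  rw [this]
  exact hz.add_cobdry _

end cocycles

section adjoint

variable {Γ₁ Γ : Subgroup SL(2, ℤ)} (h : Γ₁ ≤ Γ) [Fintype (SL(2, ℤ) ⧸ Γ₁)]
  [Fintype (SL(2, ℤ) ⧸ Γ)]

omit [Fintype (SL(2, ℤ) ⧸ Γ₁)] [Fintype (SL(2, ℤ) ⧸ Γ)] in
theorem isParabolicHom_comp_inclusion {A : Type*} [AddCommGroup A] {x : Additive Γ →+ A}
    (hx : IsParabolicHom Γ x) :
    IsParabolicHom Γ₁ (x.comp (MonoidHom.toAdditive (Subgroup.inclusion h))) :=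
  fun γ hγ => hx (Subgroup.inclusion h γ) hγ

omit [Fintype (SL(2, ℤ) ⧸ Γ)] in
/-- The transfer of a parabolic homomorphism is parabolic. -/
theorem isParabolicHom_of_push (hneg : (-1 : SL(2, ℤ)) ∈ Γ₁) {w : Additive Γ₁ →+ ℤ}
    (hw : IsParabolicHom Γ₁ w) {b : SL(2, ℤ) → (SL(2, ℤ) ⧸ Γ₁) → ℤ} (hb : Represents Γ₁ b w)
    {z : Additive Γ →+ ℤ} (hz : Represents Γ (fun g => push h (b g)) z) :
    IsParabolicHom Γ z := by
  obtain ⟨b', hb', hb'T⟩ := exists_NF1 w hw
  have hz' := hb.push_indep h hb' hz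
  have h1 : b' (-1) = 0 := hb'.map_neg_one hneg (parabolic_neg_one hneg w hw)
  refine hz'.isParabolicHom (h hneg) ?_ ?_
  · show push h (b' (-1)) = 0
    rw [h1, push_zero]
  · show push h (b' T) = 0
    rw [hb'T, push_zero]

/-- **PD-H (right)**: `[x|Γ₁, w] = [x, tr w]`. -/
theorem pairFun_res_right (hneg : (-1 : SL(2, ℤ)) ∈ Γ₁) {x : Additive Γ →+ ℤ}
    (hx : IsParabolicHom Γ x) {w : Additive Γ₁ →+ ℤ} (hw : IsParabolicHom Γ₁ w)
    {b : SL(2, ℤ) → (SL(2, ℤ) ⧸ Γ₁) → ℤ} (hb : Represents Γ₁ b w)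
    {z : Additive Γ →+ ℤ} (hz : Represents Γ (fun g => push h (b g)) z) :
    pairFun Γ₁ (x.comp (MonoidHom.toAdditive (Subgroup.inclusion h))) w = pairFun Γ x z := by
  have hzp := isParabolicHom_of_push h hneg hw hb hz
  obtain ⟨a, ha, haU⟩ := exists_NF2 x (hom_finOrder_eq_zero x)
  obtain ⟨b', hb', hb'T⟩ := exists_NF1 w hw
  have hz' := hb.push_indep h hb' hz
  have e1 := two_mul_pairFun_int hneg (isParabolicHom_comp_inclusion h hx) hw (ha.pull h)
    (show pull h (a U) = 0 by rw [haU, pull_zero]) hb' hb'T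
  have e2 := two_mul_pairFun_int (h hneg) hx hzp ha haU hz'
    (show push h (b' T) = 0 by rw [hb'T, push_zero])
  have e3 : pull h (a S) ⬝ᵥ b' S = a S ⬝ᵥ push h (b' S) := dot_pull_left h _ _
  have : (2 : ℤ) * pairFun Γ₁ (x.comp (MonoidHom.toAdditive (Subgroup.inclusion h))) w =
      2 * pairFun Γ x z := by rw [e1, e2]; exact e3
  linarith

/-- **PD-H (left)**: `[w, x|Γ₁] = [tr w, x]`. -/
theorem pairFun_res_left (hneg : (-1 : SL(2, ℤ)) ∈ Γ₁) {x : Additive Γ →+ ℤ}
    (hx : IsParabolicHom Γ x) {w : Additive Γ₁ →+ ℤ} (hw : IsParabolicHom Γ₁ w)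
    {b : SL(2, ℤ) → (SL(2, ℤ) ⧸ Γ₁) → ℤ} (hb : Represents Γ₁ b w)
    {z : Additive Γ →+ ℤ} (hz : Represents Γ (fun g => push h (b g)) z) :
    pairFun Γ₁ w (x.comp (MonoidHom.toAdditive (Subgroup.inclusion h))) = pairFun Γ z x := by
  have hzp := isParabolicHom_of_push h hneg hw hb hz
  obtain ⟨a', ha', ha'U⟩ := exists_NF2 w (hom_finOrder_eq_zero w)
  obtain ⟨b₀, hb₀, hb₀T⟩ := exists_NF1 x hx
  have hz' := hb.push_indep h ha' hz
  have e1 := two_mul_pairFun_int hneg hw (isParabolicHom_comp_inclusion h hx) ha' ha'U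
    (hb₀.pull h) (show pull h (b₀ T) = 0 by rw [hb₀T, pull_zero])
  have e2 := two_mul_pairFun_int (h hneg) hzp hx hz'
    (show push h (a' U) = 0 by rw [ha'U, push_zero]) hb₀ hb₀T
  have e3 : a' S ⬝ᵥ pull h (b₀ S) = push h (a' S) ⬝ᵥ b₀ S := dot_pull_right h _ _
  have : (2 : ℤ) * pairFun Γ₁ w (x.comp (MonoidHom.toAdditive (Subgroup.inclusion h))) =
      2 * pairFun Γ z x := by rw [e1, e2]; exact e3
  linarith

end adjoint

end Fermat.Agent.S41.PD
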