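import Fermat.Agent.S41.Plan
import Fermat.Agent.S41.PD.Conj
import Fermat.Agent.S41.PD.ResCores
import Fermat.Agent.S41.PD.Transfer

/-!
# S41 R6, piece PD-I (second half): the adjunctions `res ⊣ cores`, `res^δ ⊣ cores^δ`
for the pairings on `Hom_par(Γ₀(N), ℤ)` and `Hom_par(Γ₀(N q), ℤ)`.
-/

set_option autoImplicit false

noncomputable section

namespace Fermat.Agent.S41.PD

open CongruenceSubgroup Matrix
open scoped MatrixGroups
open ModularGroup (S T)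
open ModularCurve.Period (IsParabolicHom)
open Fermat.Agent.S41 (HomG incl conjD res resD cores coresD Gamma0_mul_le incl_injective
  conjD_injective transferAlong)

theorem neg_one_mem_Gamma0 (M : ℕ) : (-1 : SL(2, ℤ)) ∈ Gamma0 M := by
  rw [Gamma0_mem]
  simp

section level

variable (N q : ℕ) [NeZero N] [NeZero q]

/-- `Γ₀' = δ Γ₀(N q) δ⁻¹`, `δ = diag(q, 1)`, as a subgroup of `SL(2, ℤ)`. -/
def GammaD : Subgroup SL(2, ℤ) := (conjD N q).range.map (Gamma0 N).subtype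

theorem GammaD_le : GammaD N q ≤ Gamma0 N := by
  rintro _ ⟨γ, -, rfl⟩
  exact γ.2

theorem mem_conjD_range_iff (γ : Gamma0 N) :
    γ ∈ (conjD N q).range ↔ (γ : SL(2, ℤ)) ∈ GammaD N q := by
  constructor
  · intro h
    exact ⟨γ, h, rfl⟩
  · rintro ⟨γ', h, e⟩
    have : γ' = γ := Subtype.ext e
    rwa [← this]

theorem mem_incl_range_iff (γ : Gamma0 N) :
    γ ∈ (incl N q).range ↔ (γ : SL(2, ℤ)) ∈ Gamma0 (N * q) := by
  constructor
  · rintro ⟨γ', rfl⟩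
    exact γ'.2
  · intro h
    exact ⟨⟨γ, h⟩, Subtype.ext rfl⟩

instance GammaD_finiteIndex : (GammaD N q).FiniteIndex := by
  haveI : (Gamma0 N).FiniteIndex := inferInstance
  haveI : (conjD N q).range.FiniteIndex := inferInstance
  refine ⟨?_⟩
  rw [GammaD, Subgroup.index_map_subtype]
  exact mul_ne_zero Subgroup.FiniteIndex.index_ne_zero Subgroup.FiniteIndex.index_ne_zero

/-- conjugation by `δ` as a homomorphism onto `Γ₀'`. -/
def cDHom : Gamma0 (N * q) →* GammaD N q :=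
  ((Gamma0 N).subtype.comp (conjD N q)).codRestrict (GammaD N q)
    (fun γ => ⟨conjD N q γ, ⟨γ, rfl⟩, rfl⟩)

theorem cDHom_coe (γ : Gamma0 (N * q)) :
    ((cDHom N q γ : GammaD N q) : SL(2, ℤ)) = ((conjD N q γ : Gamma0 N) : SL(2, ℤ)) := rfl

theorem cDHom_bijective : Function.Bijective (cDHom N q) := by
  constructor
  · intro γ γ' h
    apply conjD_injective N q
    apply Subtype.ext
    have := congrArg (fun x : GammaD N q => (x : SL(2, ℤ))) h
    simpa only [cDHom_coe] using this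
  · rintro ⟨_, γ', ⟨γ, rfl⟩, rfl⟩
    exact ⟨γ, Subtype.ext rfl⟩

/-- conjugation by `δ = diag(q, 1)`: `Γ₀(N q) ≃ Γ₀'`. -/
def cD : Gamma0 (N * q) ≃* GammaD N q := MulEquiv.ofBijective (cDHom N q) (cDHom_bijective N q)

theorem cD_coe (γ : Gamma0 (N * q)) :
    ((cD N q γ : GammaD N q) : SL(2, ℤ)) = ((conjD N q γ : Gamma0 N) : SL(2, ℤ)) := rfl

theorem cD_entries (γ : Gamma0 (N * q)) :
    (cD N q γ : SL(2, ℤ)) 0 0 = (γ : SL(2, ℤ)) 0 0 ∧
    (cD N q γ : SL(2, ℤ)) 0 1 = q * (γ : SL(2, ℤ)) 0 1 ∧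
    q * (cD N q γ : SL(2, ℤ)) 1 0 = (γ : SL(2, ℤ)) 1 0 ∧
    (cD N q γ : SL(2, ℤ)) 1 1 = (γ : SL(2, ℤ)) 1 1 := by
  have h : (((cD N q γ : GammaD N q) : SL(2, ℤ)) : Matrix (Fin 2) (Fin 2) ℤ) =
      S41.conjDMat q ((γ : SL(2, ℤ)) : Matrix (Fin 2) (Fin 2) ℤ) := rfl
  refine ⟨?_, ?_, ?_, ?_⟩
  · show (((cD N q γ : GammaD N q) : SL(2, ℤ)) : Matrix (Fin 2) (Fin 2) ℤ) 0 0 = _
    rw [h]; simp [S41.conjDMat]
  · show (((cD N q γ : GammaD N q) : SL(2, ℤ)) : Matrix (Fin 2) (Fin 2) ℤ) 0 1 = _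
    rw [h]; simp [S41.conjDMat]
  · show (q : ℤ) * (((cD N q γ : GammaD N q) : SL(2, ℤ)) : Matrix (Fin 2) (Fin 2) ℤ) 1 0 = _
    rw [h]
    have e : S41.conjDMat q ((γ : SL(2, ℤ)) : Matrix (Fin 2) (Fin 2) ℤ) 1 0 =
        ((γ : SL(2, ℤ)) : Matrix (Fin 2) (Fin 2) ℤ) 1 0 / q := by simp [S41.conjDMat]
    rw [e]
    exact Int.mul_ediv_cancel' (S41.dvd_q_of_mem N q γ.2)
  · show (((cD N q γ : GammaD N q) : SL(2, ℤ)) : Matrix (Fin 2) (Fin 2) ℤ) 1 1 = _
    rw [h]; simp [S41.conjDMat]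

theorem neg_one_mem_GammaD : (-1 : SL(2, ℤ)) ∈ GammaD N q := by
  have h : ((cD N q ⟨-1, neg_one_mem_Gamma0 (N * q)⟩ : GammaD N q) : SL(2, ℤ)) = -1 := by
    obtain ⟨h00, h01, h10, h11⟩ := cD_entries N q ⟨-1, neg_one_mem_Gamma0 (N * q)⟩
    have hq' : (q : ℤ) ≠ 0 := by exact_mod_cast NeZero.ne q
    ext i j
    fin_cases i <;> fin_cases j
    · simpa using h00
    · simpa using h01
    · have : (q : ℤ) * (cD N q ⟨-1, neg_one_mem_Gamma0 (N * q)⟩ : SL(2, ℤ)) 1 0 = q * 0 := by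
        rw [h10]; simp
      simpa using mul_left_cancel₀ hq' this
    · simpa using h11
  rw [← h]
  exact (cD N q _).2

end level

section adjunction

variable (N q : ℕ) [NeZero N] [NeZero q]
  [Fintype (SL(2, ℤ) ⧸ Gamma0 N)] [Fintype (SL(2, ℤ) ⧸ Gamma0 (N * q))]

/-- `push ∘ b` represents `cores w`. -/
theorem represents_cores (w : HomG (N * q) ℤ)
    {b : SL(2, ℤ) → (SL(2, ℤ) ⧸ Gamma0 (N * q)) → ℤ} (hb : Represents (Gamma0 (N * q)) b w) :
    Represents (Gamma0 N) (fun g => push (Gamma0_mul_le N q) (b g)) (cores N q ℤ w) :=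
  represents_transferAlong (Gamma0_mul_le N q) (incl N q) (incl_injective N q)
    (mem_incl_range_iff N q) w w (fun _ _ => rfl) hb

/-- `[res x, w]_{N q} = [x, cores w]_N`. -/
theorem pairFun_res_cores (x : HomG N ℤ) (hx : IsParabolicHom (Gamma0 N) x)
    (w : HomG (N * q) ℤ) (hw : IsParabolicHom (Gamma0 (N * q)) w) :
    pairFun (Gamma0 (N * q)) (res N q ℤ x) w = pairFun (Gamma0 N) x (cores N q ℤ w) := by
  obtain ⟨b, hb, -⟩ := exists_NF1 w hw
  exact pairFun_res_right (Gamma0_mul_le N q) (neg_one_mem_Gamma0 _) hx hw hb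
    (represents_cores N q w hb)

/-- `[w, res x]_{N q} = [cores w, x]_N`. -/
theorem pairFun_cores_res (x : HomG N ℤ) (hx : IsParabolicHom (Gamma0 N) x)
    (w : HomG (N * q) ℤ) (hw : IsParabolicHom (Gamma0 (N * q)) w) :
    pairFun (Gamma0 (N * q)) w (res N q ℤ x) = pairFun (Gamma0 N) (cores N q ℤ w) x := by
  obtain ⟨b, hb, -⟩ := exists_NF1 w hw
  exact pairFun_res_left (Gamma0_mul_le N q) (neg_one_mem_Gamma0 _) hx hw hb
    (represents_cores N q w hb)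

variable [Fintype (SL(2, ℤ) ⧸ GammaD N q)]

/-- `w ∘ cδ⁻¹`. -/
def wD (w : HomG (N * q) ℤ) : Additive (GammaD N q) →+ ℤ :=
  w.comp (MonoidHom.toAdditive (cD N q).symm.toMonoidHom)

omit [Fintype (SL(2, ℤ) ⧸ Gamma0 N)] [Fintype (SL(2, ℤ) ⧸ Gamma0 (N * q))]
  [Fintype (SL(2, ℤ) ⧸ GammaD N q)] in
theorem wD_comp (w : HomG (N * q) ℤ) :
    (wD N q w).comp (MonoidHom.toAdditive (cD N q).toMonoidHom) = w := by
  refine AddMonoidHom.ext fun γ => ?_
  show w (Additive.ofMul ((cD N q).symm (cD N q (Additive.toMul γ)))) = w γ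
  rw [MulEquiv.symm_apply_apply]
  rfl

omit [Fintype (SL(2, ℤ) ⧸ Gamma0 N)] [Fintype (SL(2, ℤ) ⧸ Gamma0 (N * q))]
  [Fintype (SL(2, ℤ) ⧸ GammaD N q)] in
theorem isParabolicHom_wD {w : HomG (N * q) ℤ} (hw : IsParabolicHom (Gamma0 (N * q)) w) :
    IsParabolicHom (GammaD N q) (wD N q w) := by
  intro γ hγ
  apply hw ((cD N q).symm γ)
  obtain ⟨h00, -, -, h11⟩ := cD_entries N q ((cD N q).symm γ)
  rw [MulEquiv.apply_symm_apply] at h00 h11
  rw [Matrix.trace_fin_two] at hγ ⊢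
  have e0 : (((cD N q).symm γ : Gamma0 (N * q)) : SL(2, ℤ)) 0 0 = (γ : SL(2, ℤ)) 0 0 := h00.symm
  have e1 : (((cD N q).symm γ : Gamma0 (N * q)) : SL(2, ℤ)) 1 1 = (γ : SL(2, ℤ)) 1 1 := h11.symm
  show ((((cD N q).symm γ : Gamma0 (N * q)) : SL(2, ℤ)) 0 0 +
    (((cD N q).symm γ : Gamma0 (N * q)) : SL(2, ℤ)) 1 1) ^ 2 = 4
  rw [e0, e1]
  exact hγ

omit [Fintype (SL(2, ℤ) ⧸ Gamma0 N)] [Fintype (SL(2, ℤ) ⧸ Gamma0 (N * q))]
  [Fintype (SL(2, ℤ) ⧸ GammaD N q)] in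
theorem resD_eq (x : HomG N ℤ) :
    resD N q ℤ x = (x.comp (MonoidHom.toAdditive (Subgroup.inclusion (GammaD_le N q)))).comp
      (MonoidHom.toAdditive (cD N q).toMonoidHom) := rfl

/-- `push ∘ b` represents `coresD w`. -/
theorem represents_coresD (w : HomG (N * q) ℤ)
    {b : SL(2, ℤ) → (SL(2, ℤ) ⧸ GammaD N q) → ℤ} (hb : Represents (GammaD N q) b (wD N q w)) :
    Represents (Gamma0 N) (fun g => push (GammaD_le N q) (b g)) (coresD N q ℤ w) := by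
  refine represents_transferAlong (GammaD_le N q) (conjD N q) (conjD_injective N q)
    (mem_conjD_range_iff N q) w (wD N q w) (fun h hh => ?_) hb
  show w (Additive.ofMul ((cD N q).symm ⟨((conjD N q h : Gamma0 N) : SL(2, ℤ)), hh⟩)) = _
  have : (⟨((conjD N q h : Gamma0 N) : SL(2, ℤ)), hh⟩ : GammaD N q) = cD N q h := rfl
  rw [this, MulEquiv.symm_apply_apply]

/-- `[res^δ x, w]_{N q} = [x, cores^δ w]_N`. -/
theorem pairFun_resD_coresD (hB : StmtBetaEx) (hI : StmtIntrinsic) (hC : StmtCuspConj)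
    (hq : q.Prime) (x : HomG N ℤ) (hx : IsParabolicHom (Gamma0 N) x)
    (w : HomG (N * q) ℤ) (hw : IsParabolicHom (Gamma0 (N * q)) w) :
    pairFun (Gamma0 (N * q)) (resD N q ℤ x) w = pairFun (Gamma0 N) x (coresD N q ℤ w) := by
  have hwD := isParabolicHom_wD N q hw
  have hxD := isParabolicHom_comp_inclusion (GammaD_le N q) hx
  obtain ⟨b, hb, -⟩ := exists_NF1 (wD N q w) hwD
  have e1 := pairFun_conj q (Gamma0 (N * q)) (GammaD N q) hB hI hC hq (neg_one_mem_Gamma0 _)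
    (neg_one_mem_GammaD N q) (cD N q) (cD_entries N q) _ _ hxD hwD
  rw [wD_comp, ← resD_eq] at e1
  rw [e1]
  exact pairFun_res_right (GammaD_le N q) (neg_one_mem_GammaD N q) hx hwD hb
    (represents_coresD N q w hb)

/-- `[w, res^δ x]_{N q} = [cores^δ w, x]_N`. -/
theorem pairFun_coresD_resD (hB : StmtBetaEx) (hI : StmtIntrinsic) (hC : StmtCuspConj)
    (hq : q.Prime) (x : HomG N ℤ) (hx : IsParabolicHom (Gamma0 N) x)
    (w : HomG (N * q) ℤ) (hw : IsParabolicHom (Gamma0 (N * q)) w) :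
    pairFun (Gamma0 (N * q)) w (resD N q ℤ x) = pairFun (Gamma0 N) (coresD N q ℤ w) x := by
  have hwD := isParabolicHom_wD N q hw
  have hxD := isParabolicHom_comp_inclusion (GammaD_le N q) hx
  obtain ⟨b, hb, -⟩ := exists_NF1 (wD N q w) hwD
  have e1 := pairFun_conj q (Gamma0 (N * q)) (GammaD N q) hB hI hC hq (neg_one_mem_Gamma0 _)
    (neg_one_mem_GammaD N q) (cD N q) (cD_entries N q) _ _ hwD hxD
  rw [wD_comp, ← resD_eq] at e1
  rw [e1]
  exact pairFun_res_left (GammaD_le N q) (neg_one_mem_GammaD N q) hx hwD hb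
    (represents_coresD N q w hb)

end adjunction

end Fermat.Agent.S41.PD
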