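import Fermat.Agent.S41.Plan

/-!
# S41 R6, piece PD-Z: the final assembly (linear algebra + reduction mod `p`)

`StmtAssemble N q p`: from a pairing `P` on `Hom_par(Γ₀(N), ℤ)` and a pairing `P'` on
`Hom_par(Γ₀(N q), ℤ)` which are biadditive, perfect, for which `cores ⊣ res`, `cores^δ ⊣ res^δ`
and for which the `T_ℓ` are self-adjoint, deduce `StmtDualIhara N q p`.

Proof: apply `StmtDualLA` (`PD/DualLA.lean`) to `L = Lpar N × Lpar N`, `L' = Lpar (N q)`,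
`P((x₁,x₂),(y₁,y₂)) = P x₁ y₁ + P x₂ y₂`, `α = res + res^δ`, `β = (cores, cores^δ)`,
`η = T_ℓ − (ℓ + 1)` (diagonal).  `α`, `β`, `η` preserve the parabolic lattices by `stmtC8`
(`S41/Parab.lean`) and `ES.HeckeP.heckeHom_isParabolicHom` (`ES/HeckePPar.lean`).
The hypothesis of `StmtDualLA` on `η` comes from the hypothesis of `StmtDualIhara` by reduction
mod `p`: for `y = (y₁, y₂)` with `α y = p • u'`, the reductions `φᵢ = (Int.castAddHom (ZMod p)) ∘ yᵢ`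
are parabolic with `res φ₁ + res^δ φ₂ = 0`, so `T_ℓ φᵢ = (ℓ + 1) φᵢ`, i.e. (naturality
`ES.HeckeP.heckeHom_comp`) all values of `T_ℓ yᵢ − (ℓ + 1) yᵢ` are divisible by `p`, and the
quotient by `p` is again a parabolic homomorphism.
-/

set_option autoImplicit false

namespace Fermat.Agent.S41.PD

open CongruenceSubgroup
open Fermat.Agent.S41 (HomG res resD cores coresD Tc Lpar Hpar StmtDualIhara)

/-- PD-Z. -/
def StmtAssemble (N q p : ℕ) [NeZero N] [NeZero q] : Prop :=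
  p.Prime → Module.Free ℤ (Lpar N) →
  ∀ (P : HomG N ℤ → HomG N ℤ → ℤ) (P' : HomG (N * q) ℤ → HomG (N * q) ℤ → ℤ),
    (∀ x ∈ Lpar N, ∀ x' ∈ Lpar N, ∀ y ∈ Lpar N, P (x + x') y = P x y + P x' y) →
    (∀ x ∈ Lpar N, ∀ y ∈ Lpar N, ∀ y' ∈ Lpar N, P x (y + y') = P x y + P x y') →
    (∀ x ∈ Lpar (N * q), ∀ y ∈ Lpar (N * q), ∀ y' ∈ Lpar (N * q),
      P' x (y + y') = P' x y + P' x y') →
    (∀ φ : HomG N ℤ → ℤ, (∀ x ∈ Lpar N, ∀ x' ∈ Lpar N, φ (x + x') = φ x + φ x') →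
      ∃ y ∈ Lpar N, ∀ x ∈ Lpar N, P x y = φ x) →
    (∀ φ : HomG (N * q) ℤ → ℤ,
      (∀ x ∈ Lpar (N * q), ∀ x' ∈ Lpar (N * q), φ (x + x') = φ x + φ x') →
      ∃ y ∈ Lpar (N * q), (∀ x ∈ Lpar (N * q), P' x y = φ x) ∧
        ∀ y' ∈ Lpar (N * q), (∀ x ∈ Lpar (N * q), P' x y' = φ x) → y' = y) →
    (∀ w ∈ Lpar (N * q), ∀ y ∈ Lpar N, P (cores N q ℤ w) y = P' w (res N q ℤ y)) →
    (∀ w ∈ Lpar (N * q), ∀ y ∈ Lpar N, P (coresD N q ℤ w) y = P' w (resD N q ℤ y)) →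
    (∀ (ℓ : ℕ) [Fact ℓ.Prime] (hN : ¬ ℓ ∣ N), ∀ x ∈ Lpar N, ∀ y ∈ Lpar N,
      P (Tc ℓ hN x) y = P x (Tc ℓ hN y)) →
    StmtDualIhara N q p

end Fermat.Agent.S41.PD
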