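import Fermat.Agent.S41.AlphaTAlpha
import Fermat.Agent.S41.Parab
import Fermat.Agent.S41.PD.Level
import Fermat.Agent.S41.PD.Perfect
import Fermat.Agent.S41.PD.PlanZ
import Fermat.Agent.S41.PD.BetaEx
import Fermat.Agent.S41.PD.Intrinsic
import Fermat.Agent.S41.PD.CuspConj
import Fermat.Agent.S41.PD.LatticeEx
import Fermat.Agent.S41.PD.LatticeUniq
import Fermat.Agent.S41.PD.Free

/-!
# S41 R6: the final package — `T_ℓ` is self-adjoint, and `StmtDualIhara` from `StmtAssemble`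
-/

set_option autoImplicit false

noncomputable section

namespace Fermat.Agent.S41.PD

open CongruenceSubgroup Matrix
open scoped MatrixGroups
open ModularGroup (S T)
open ModularCurve.Period (IsParabolicHom)
open Fermat.Agent.S41 (HomG incl conjD res resD cores coresD Gamma0_mul_le incl_injective
  conjD_injective transferAlong Tc Lpar Hpar StmtDualIhara stmtC2 stmtC8)

section selfadj

variable (N : ℕ) [NeZero N] [Fintype (SL(2, ℤ) ⧸ Gamma0 N)]

/-- **`T_ℓ` is self-adjoint** for the pairing on `Hom_par(Γ₀(N), ℤ)`. -/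
theorem pairFun_Tc_selfadj (ℓ : ℕ) [hℓ : Fact ℓ.Prime] (hN : ¬ ℓ ∣ N)
    (x y : HomG N ℤ) (hx : IsParabolicHom (Gamma0 N) x) (hy : IsParabolicHom (Gamma0 N) y) :
    pairFun (Gamma0 N) (Tc ℓ hN x) y = pairFun (Gamma0 N) x (Tc ℓ hN y) := by
  classical
  haveI : NeZero ℓ := ⟨hℓ.out.ne_zero⟩
  letI : Fintype (SL(2, ℤ) ⧸ Gamma0 (N * ℓ)) := Fintype.ofFinite _
  letI : Fintype (SL(2, ℤ) ⧸ GammaD N ℓ) := Fintype.ofFinite _
  obtain ⟨-, -, h3, -⟩ := stmtC2 N ℓ ℤ hN x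
  obtain ⟨-, -, -, h4⟩ := stmtC2 N ℓ ℤ hN y
  have hxD : IsParabolicHom (Gamma0 (N * ℓ)) (resD N ℓ ℤ x) := ((stmtC8 N ℓ ℤ).1 x hx).2
  have hyR : IsParabolicHom (Gamma0 (N * ℓ)) (res N ℓ ℤ y) := ((stmtC8 N ℓ ℤ).1 y hy).1
  rw [← h3, ← h4, ← pairFun_cores_res N ℓ y hy _ hxD,
    pairFun_resD_coresD N ℓ stmtBetaEx stmtIntrinsic stmtCuspConj hℓ.out x hx _ hyR]

end selfadj

section final

variable (N q p : ℕ) [NeZero N] [NeZero q]

/-- **(DUAL IHARA)** from the assembly statement PD-Z. -/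
theorem dualIhara_of_assemble (hA : StmtAssemble N q p) (hp : p.Prime) (hq : q.Prime) :
    StmtDualIhara N q p := by
  classical
  letI : Fintype (SL(2, ℤ) ⧸ Gamma0 N) := Fintype.ofFinite _
  letI : Fintype (SL(2, ℤ) ⧸ Gamma0 (N * q)) := Fintype.ofFinite _
  letI : Fintype (SL(2, ℤ) ⧸ GammaD N q) := Fintype.ofFinite _
  refine hA hp (lpar_free N) (pairFun (Gamma0 N)) (pairFun (Gamma0 (N * q))) ?_ ?_ ?_ ?_ ?_ ?_ ?_ ?_
  · intro x hx x' hx' y hy
    exact pairFun_add_left (neg_one_mem_Gamma0 _) x x' y hx hx' hy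
  · intro x hx y hy y' hy'
    exact pairFun_add_right (neg_one_mem_Gamma0 _) x y y' hx hy hy'
  · intro x hx y hy y' hy'
    exact pairFun_add_right (neg_one_mem_Gamma0 _) x y y' hx hy hy'
  · intro φ hφ
    obtain ⟨y, hy, h, -⟩ := pairFun_perfect_right stmtLatticeEx stmtLatticeUniq
      (neg_one_mem_Gamma0 N) φ (fun x x' hx hx' => hφ x hx x' hx')
    exact ⟨y, hy, h⟩
  · intro φ hφ
    obtain ⟨y, hy, h, hu⟩ := pairFun_perfect_right stmtLatticeEx stmtLatticeUniq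
      (neg_one_mem_Gamma0 (N * q)) φ (fun x x' hx hx' => hφ x hx x' hx')
    exact ⟨y, hy, h, hu⟩
  · intro w hw y hy
    exact (pairFun_cores_res N q y hy w hw).symm
  · intro w hw y hy
    exact (pairFun_coresD_resD N q stmtBetaEx stmtIntrinsic stmtCuspConj hq y hy w hw).symm
  · intro ℓ _ hN x hx y hy
    exact pairFun_Tc_selfadj N ℓ hN x y hx hy

end final

end Fermat.Agent.S41.PD
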