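import Fermat.Agent.S41.PD.NormalForm
import Fermat.Agent.S41.PD.Plan

/-!
# S41 R6, piece PD-A1: the universal property of `PSL₂(ℤ) = C₂ * C₃`

Ping-pong on `ℍ` (`X₀ = {Re z > 0}`, `X₁ = {Re z < 0}`) shows that
`C₂ * C₃ → Perm ℍ` is injective; `SL(2, ℤ) = ⟨S, T⟩` maps into its range.
-/

set_option autoImplicit false

namespace Fermat.Agent.S41.PD

open scoped MatrixGroups UpperHalfPlane Pointwise
open ModularGroup (S T)
open UpperHalfPlane Monoid

/-- The homomorphism `C_n → G` attached to `g` with `g ^ n = 1`. -/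
noncomputable def cycHom {G : Type*} [Group G] (n : ℕ) (g : G) (hg : g ^ n = 1) :
    Multiplicative (ZMod n) →* G :=
  AddMonoidHom.toMultiplicativeLeft
    (ZMod.lift n ⟨zmultiplesHom (Additive G) (Additive.ofMul g), by
      show (n : ℤ) • Additive.ofMul g = 0
      rw [natCast_zsmul, ← ofMul_pow, hg, ofMul_one]⟩)

theorem cycHom_apply_intCast {G : Type*} [Group G] (n : ℕ) (g : G) (hg : g ^ n = 1) (k : ℤ) :
    cycHom n g hg (Multiplicative.ofAdd (k : ZMod n)) = g ^ k := by
  show Additive.toMul (ZMod.lift n _ (k : ZMod n)) = g ^ k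
  rw [ZMod.lift_coe]
  rfl

theorem cycHom_apply_one {G : Type*} [Group G] (n : ℕ) (g : G) (hg : g ^ n = 1) :
    cycHom n g hg (Multiplicative.ofAdd (1 : ZMod n)) = g := by
  have := cycHom_apply_intCast n g hg 1
  rwa [Int.cast_one, zpow_one] at this

/-- the orders of the two cyclic factors -/
def cycN (b : Bool) : ℕ := cond b 3 2

/-- the two cyclic factors `C₂` (`false`) and `C₃` (`true`) -/
abbrev CycH (b : Bool) : Type := Multiplicative (ZMod (cycN b))

/-- the action of `SL(2, ℤ)` on `ℍ` as a homomorphism to `Perm ℍ` -/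
noncomputable def theta : SL(2, ℤ) →* Equiv.Perm ℍ := MulAction.toPermHom SL(2, ℤ) ℍ

theorem theta_apply (g : SL(2, ℤ)) (z : ℍ) : theta g z = g • z := rfl

theorem neg_one_smul_uhp (z : ℍ) : (-1 : SL(2, ℤ)) • z = z := by
  rw [ModularGroup.SL_neg_smul, one_smul]

theorem theta_neg_one : theta (-1) = 1 := by
  ext1 z
  rw [theta_apply, neg_one_smul_uhp]
  rfl

theorem theta_S_sq : theta S ^ 2 = 1 := by
  rw [← map_pow, pow_two, S_mul_S, theta_neg_one]

theorem theta_U_cube : theta U ^ 3 = 1 := by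
  rw [← map_pow]
  have : U ^ 3 = U * U * U := by simp only [pow_succ, pow_zero, one_mul]
  rw [this, U_mul_U_mul_U, theta_neg_one]

/-- the two homomorphisms `C₂, C₃ → Perm ℍ` -/
noncomputable def thetaCyc : ∀ b : Bool, CycH b →* Equiv.Perm ℍ
  | false => cycHom 2 (theta S) theta_S_sq
  | true => cycHom 3 (theta U) theta_U_cube

/-- the ping-pong sets -/
def ppSet : Bool → Set ℍ
  | false => {z | 0 < z.re}
  | true => {z | z.re < 0}

theorem re_S_smul (z : ℍ) : (S • z).re = -z.re / Complex.normSq (z : ℂ) := by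
  rw [modular_S_smul]
  show ((-(z : ℂ))⁻¹).re = _
  rw [Complex.inv_re]
  simp [Complex.normSq_neg]

theorem re_T_smul (z : ℍ) : (T • z).re = z.re + 1 := by
  rw [modular_T_smul]
  simp [add_comm]

theorem re_T_inv_smul (z : ℍ) : (T⁻¹ • z).re = z.re - 1 := by
  have := modular_T_zpow_smul z (-1)
  rw [zpow_neg_one] at this
  rw [this]
  simp
  ring

theorem normSq_pos (z : ℍ) : 0 < Complex.normSq (z : ℂ) :=
  Complex.normSq_pos.2 z.ne_zero

theorem U_smul (z : ℍ) : U • z = S • (T • z) := by rw [U, mul_smul]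

theorem U_mul_U_eq : U * U = T⁻¹ * S := by
  have h : U * U * U = -1 := U_mul_U_mul_U
  have h2 : U * U = -1 * U⁻¹ := by
    rw [← h]; group
  rw [h2, U, _root_.mul_inv_rev, S_inv_eq]
  have : T⁻¹ * (-1 * S) = -1 * (T⁻¹ * S) := by simp
  rw [this, ← mul_assoc, neg_one_mul_neg_one, one_mul]

theorem re_U_smul_neg {z : ℍ} (hz : 0 < z.re) : (U • z).re < 0 := by
  rw [U_smul, re_S_smul, re_T_smul]
  apply div_neg_of_neg_of_pos _ (normSq_pos _)
  linarith

theorem re_U_U_smul_neg {z : ℍ} (hz : 0 < z.re) : ((U * U) • z).re < 0 := by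
  rw [U_mul_U_eq, mul_smul, re_T_inv_smul, re_S_smul]
  have : -z.re / Complex.normSq (z : ℂ) < 0 :=
    div_neg_of_neg_of_pos (by linarith) (normSq_pos _)
  linarith

theorem re_S_smul_pos {z : ℍ} (hz : z.re < 0) : 0 < (S • z).re := by
  rw [re_S_smul]
  exact div_pos (by linarith) (normSq_pos _)

theorem thetaCyc_false (h : CycH false) (hh : h ≠ 1) : thetaCyc false h = theta S := by
  have key : ∀ k : ZMod 2, (Multiplicative.ofAdd k : Multiplicative (ZMod 2)) ≠ 1 →
      cycHom 2 (theta S) theta_S_sq (Multiplicative.ofAdd k) = theta S := by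
    intro k hk
    fin_cases k
    · exact absurd rfl hk
    · exact cycHom_apply_one 2 (theta S) theta_S_sq
  exact key (Multiplicative.toAdd h) hh

theorem thetaCyc_true (h : CycH true) (hh : h ≠ 1) :
    thetaCyc true h = theta U ∨ thetaCyc true h = theta (U * U) := by
  have key : ∀ k : ZMod 3, (Multiplicative.ofAdd k : Multiplicative (ZMod 3)) ≠ 1 →
      cycHom 3 (theta U) theta_U_cube (Multiplicative.ofAdd k) = theta U ∨
        cycHom 3 (theta U) theta_U_cube (Multiplicative.ofAdd k) = theta (U * U) := by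
    intro k hk
    fin_cases k
    · exact absurd rfl hk
    · exact Or.inl (cycHom_apply_one 3 (theta U) theta_U_cube)
    · right
      have := cycHom_apply_intCast 3 (theta U) theta_U_cube 2
      rw [map_mul, ← pow_two]
      exact this
  exact key (Multiplicative.toAdd h) hh

theorem ppSet_nonempty (b : Bool) : (ppSet b).Nonempty := by
  cases b
  · refine ⟨⟨⟨1, 1⟩, by simp⟩, ?_⟩
    show (0 : ℝ) < 1
    norm_num
  · refine ⟨⟨⟨-1, 1⟩, by simp⟩, ?_⟩
    show (-1 : ℝ) < 0
    norm_num

theorem ppSet_disjoint : Pairwise (Function.onFun Disjoint ppSet) := by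
  intro i j hij
  rw [Function.onFun, Set.disjoint_left]
  cases i <;> cases j
  · exact absurd rfl hij
  · intro z (h1 : 0 < z.re) (h2 : z.re < 0)
    linarith
  · intro z (h1 : z.re < 0) (h2 : 0 < z.re)
    linarith
  · exact absurd rfl hij

theorem ppSet_pp : Pairwise fun i j => ∀ h : CycH i, h ≠ 1 → thetaCyc i h • ppSet j ⊆ ppSet i := by
  intro i j hij h hh
  cases i <;> cases j
  · exact absurd rfl hij
  · rintro _ ⟨z, hz, rfl⟩
    show 0 < ((thetaCyc false h) z).re
    rw [thetaCyc_false h hh, theta_apply]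
    exact re_S_smul_pos hz
  · rintro _ ⟨z, hz, rfl⟩
    show ((thetaCyc true h) z).re < 0
    rcases thetaCyc_true h hh with e | e
    · rw [e, theta_apply]
      exact re_U_smul_neg hz
    · rw [e, theta_apply]
      exact re_U_U_smul_neg hz
  · exact absurd rfl hij

theorem lift_thetaCyc_injective : Function.Injective (CoprodI.lift thetaCyc) := by
  refine CoprodI.lift_injective_of_ping_pong thetaCyc (Or.inr ⟨true, ?_⟩) ppSet ppSet_nonempty
    ppSet_disjoint ppSet_pp
  show (3 : Cardinal) ≤ Cardinal.mk (Multiplicative (ZMod 3))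
  rw [Cardinal.mk_fintype, Fintype.card_multiplicative, ZMod.card]
  norm_num

/-- the generator of `C₂` inside `C₂ * C₃` -/
noncomputable def genS : CoprodI CycH := CoprodI.of (i := false) (Multiplicative.ofAdd (1 : ZMod 2))

/-- the generator of `C₃` inside `C₂ * C₃` -/
noncomputable def genU : CoprodI CycH := CoprodI.of (i := true) (Multiplicative.ofAdd (1 : ZMod 3))

theorem lift_genS : CoprodI.lift thetaCyc genS = theta S := by
  rw [genS, CoprodI.lift_of]
  exact cycHom_apply_one 2 (theta S) theta_S_sq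

theorem lift_genU : CoprodI.lift thetaCyc genU = theta U := by
  rw [genU, CoprodI.lift_of]
  exact cycHom_apply_one 3 (theta U) theta_U_cube

theorem theta_mem_range (g : SL(2, ℤ)) : theta g ∈ (CoprodI.lift thetaCyc).range := by
  have hg : g ∈ Subgroup.closure ({S, T} : Set SL(2, ℤ)) := by
    rw [SpecialLinearGroup.SL2Z_generators]
    exact Subgroup.mem_top g
  have hS : theta S ∈ (CoprodI.lift thetaCyc).range := ⟨genS, lift_genS⟩
  have hU : theta U ∈ (CoprodI.lift thetaCyc).range := ⟨genU, lift_genU⟩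
  induction hg using Subgroup.closure_induction with
  | mem x hx =>
    rcases hx with rfl | rfl
    · exact hS
    · have : T = S⁻¹ * U := by rw [U]; group
      rw [this, map_mul, map_inv]
      exact mul_mem (inv_mem hS) hU
  | one => rw [map_one]; exact one_mem _
  | mul x y _ _ hx hy => rw [map_mul]; exact mul_mem hx hy
  | inv x _ hx => rw [map_inv]; exact inv_mem hx

/-- `SL(2, ℤ) → C₂ * C₃`. -/
noncomputable def toCoprod : SL(2, ℤ) →* CoprodI CycH :=
  (MonoidHom.ofInjective lift_thetaCyc_injective).symm.toMonoidHom.comp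
    (theta.codRestrict (CoprodI.lift thetaCyc).range theta_mem_range)

theorem lift_toCoprod (g : SL(2, ℤ)) : CoprodI.lift thetaCyc (toCoprod g) = theta g := by
  have := (MonoidHom.ofInjective lift_thetaCyc_injective).apply_symm_apply
    (theta.codRestrict (CoprodI.lift thetaCyc).range theta_mem_range g)
  exact congrArg Subtype.val this

theorem toCoprod_S : toCoprod S = genS :=
  lift_thetaCyc_injective ((lift_toCoprod S).trans lift_genS.symm)

theorem toCoprod_U : toCoprod U = genU :=
  lift_thetaCyc_injective ((lift_toCoprod U).trans lift_genU.symm)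

/-- the pair of homomorphisms `C₂, C₃ → H` attached to `s² = 1`, `u³ = 1` -/
noncomputable def pairHom {H : Type*} [Group H] (s u : H) (hs : s ^ 2 = 1) (hu : u ^ 3 = 1) :
    ∀ b : Bool, CycH b →* H
  | false => cycHom 2 s hs
  | true => cycHom 3 u hu

/-- **PD-A1**: the universal property of `PSL₂(ℤ) = C₂ * C₃`. -/
theorem exists_hom_of_sq_cube {H : Type*} [Group H] (s u : H) (hs : s ^ 2 = 1) (hu : u ^ 3 = 1) :
    ∃ φ : SL(2, ℤ) →* H, φ S = s ∧ φ U = u := by
  refine ⟨(CoprodI.lift (pairHom s u hs hu)).comp toCoprod, ?_, ?_⟩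
  · rw [MonoidHom.comp_apply, toCoprod_S, genS, CoprodI.lift_of]
    exact cycHom_apply_one 2 s hs
  · rw [MonoidHom.comp_apply, toCoprod_U, genU, CoprodI.lift_of]
    exact cycHom_apply_one 3 u hu

theorem stmtUP : StmtUP := fun _ _ s u hs hu => exists_hom_of_sq_cube s u hs hu

end Fermat.Agent.S41.PD
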